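import Mathlib
import Fermat.Agent.Lib.GoodRed.AlgStatements
import Fermat.Agent.Lib.GoodRed.Steps
import Fermat.Agent.Lib.GoodRed.LiftBasis
import Fermat.Agent.Lib.GoodRed.LiftStatements
import Fermat.Agent.Lib.GoodRed.TraceRed
import Fermat.Agent.Lib.GoodRed.Points

section MergeWrap_Lib_GoodRed_DiscAux -- from Lib/GoodRed/DiscAux.lean

/-!
# Cluster B / GoodRed : auxiliary lemmas for the discriminant bounds (helper59)

* `pow_dvd_det_of_ker` : if `ev : R → κ` is onto a field with kernel `(π)` and a subspace `W` of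
  `κ^n` is killed by `M mod π`, then `π ^ dim W ∣ det M`.
-/

set_option autoImplicit false

namespace Fermat.Agent.GoodRed

open Matrix

section LinAlg

variable {R κ : Type} [CommRing R] [Field κ]

/-- An element of `R` whose image in the field `κ` is nonzero is coprime to any power of a
generator of the kernel. -/
theorem isCoprime_pow_of_ev_ne_zero (ev : R →+* κ) (hev : Function.Surjective ev) (π : R)
    (hπ : RingHom.ker ev = Ideal.span {π}) {u : R} (hu : ev u ≠ 0) (k : ℕ) :
    IsCoprime (π ^ k) u := by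
  obtain ⟨w, hw⟩ := hev (ev u)⁻¹
  have h1 : w * u - 1 ∈ RingHom.ker ev := by
    rw [RingHom.mem_ker, map_sub, map_mul, hw, inv_mul_cancel₀ hu, map_one, sub_self]
  rw [hπ, Ideal.mem_span_singleton'] at h1
  obtain ⟨t, ht⟩ := h1
  have : IsCoprime π u := ⟨-t, w, by linear_combination -ht⟩
  exact this.pow_left

open Module in
/-- A basis of `κ^n` containing `dim W` vectors of the subspace `W`. -/
theorem exists_basis_mem_submodule {n : ℕ} (W : Submodule κ (Fin n → κ)) :
    ∃ (B : Basis (Fin n) κ (Fin n → κ)) (S : Finset (Fin n)),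
      S.card = finrank κ W ∧ ∀ j ∈ S, B j ∈ W := by
  classical
  obtain ⟨W', hW'⟩ := Submodule.exists_isCompl W
  set c := finrank κ W with hc
  set c' := finrank κ W' with hc'
  have hsum : c + c' = n := by
    have := Submodule.finrank_add_eq_of_isCompl hW'
    simpa using this
  let bW : Basis (Fin c) κ W := finBasis κ W
  let bW' : Basis (Fin c') κ W' := finBasis κ W'
  let b1 : Basis (Fin c ⊕ Fin c') κ (Fin n → κ) :=
    (bW.prod bW').map (Submodule.prodEquivOfIsCompl W W' hW')
  let e : Fin c ⊕ Fin c' ≃ Fin n := finSumFinEquiv.trans (finCongr hsum)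
  let f : Fin c ↪ Fin n := ⟨fun i => e (Sum.inl i), fun i j h => Sum.inl_injective (e.injective h)⟩
  refine ⟨b1.reindex e, Finset.univ.map f, ?_, ?_⟩
  · simp
  · intro j hj
    simp only [Finset.mem_map, Finset.mem_univ, true_and] at hj
    obtain ⟨i, rfl⟩ := hj
    have h1 : (b1.reindex e) (f i) = ((bW i : W) : Fin n → κ) := by
      have : e.symm (f i) = Sum.inl i := e.symm_apply_apply _
      rw [Basis.reindex_apply, this]
      simp [b1]
    rw [h1]
    exact (bW i).2

/-- If the subspace `W` of `κ^n` is killed by the reduction of `M`, then `π ^ dim W ∣ det M`. -/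
theorem pow_dvd_det_of_ker (ev : R →+* κ) (hev : Function.Surjective ev) (π : R)
    (hπ : RingHom.ker ev = Ideal.span {π})
    {n : ℕ} (M : Matrix (Fin n) (Fin n) R) (W : Submodule κ (Fin n → κ))
    (hW : ∀ v ∈ W, (M.map ev) *ᵥ v = 0) : π ^ (Module.finrank κ W) ∣ M.det := by
  classical
  obtain ⟨B, S, hScard, hBW⟩ := exists_basis_mem_submodule W
  set c := Module.finrank κ W with hc
  let Ubar : Matrix (Fin n) (Fin n) κ := (Pi.basisFun κ (Fin n)).toMatrix B
  have hUbar_apply : ∀ i j, Ubar i j = B j i := by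
    intro i j
    simp [Ubar, Module.Basis.toMatrix_apply]
  have hUbar_det : Ubar.det ≠ 0 := by
    have h1 : Ubar * B.toMatrix (Pi.basisFun κ (Fin n)) = 1 :=
      Module.Basis.toMatrix_mul_toMatrix_flip _ _
    intro h0
    have := congrArg Matrix.det h1
    rw [Matrix.det_mul, h0, zero_mul, Matrix.det_one] at this
    exact zero_ne_one this
  -- lift `Ubar`
  choose U0 hU0 using fun i j => hev (Ubar i j)
  let U : Matrix (Fin n) (Fin n) R := Matrix.of U0
  have hUmap : U.map ev = Ubar := by
    ext i j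
    simp [U, hU0]
  have hUdet : ev U.det ≠ 0 := by
    rw [RingHom.map_det, RingHom.mapMatrix_apply, hUmap]
    exact hUbar_det
  -- columns in `S` of `M * U` vanish mod `π`
  have hcol : ∀ j ∈ S, ∀ i, ev ((M * U) i j) = 0 := by
    intro j hj i
    have h1 : (M * U).map ev = M.map ev * Ubar := by
      rw [Matrix.map_mul, hUmap]
    have h2 : ((M * U).map ev) i j = (M.map ev *ᵥ (B j)) i := by
      rw [h1]
      simp only [Matrix.mul_apply, Matrix.mulVec, dotProduct, hUbar_apply]
    have h3 := hW (B j) (hBW j hj)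
    have : ((M * U).map ev) i j = 0 := by rw [h2, h3]; rfl
    simpa using this
  have hdiv : ∀ j ∈ S, ∀ i, ∃ q : R, (M * U) i j = π * q := by
    intro j hj i
    have h1 : (M * U) i j ∈ RingHom.ker ev := hcol j hj i
    rw [hπ, Ideal.mem_span_singleton'] at h1
    obtain ⟨q, hq⟩ := h1
    exact ⟨q, by rw [← hq, mul_comm]⟩
  let N : Matrix (Fin n) (Fin n) R := Matrix.of fun i j =>
    if h : j ∈ S then Classical.choose (hdiv j h i) else (M * U) i j
  let v : Fin n → R := fun j => if j ∈ S then π else 1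
  have hMU : M * U = Matrix.of fun i j => v j * N i j := by
    ext i j
    by_cases h : j ∈ S
    · simp only [Matrix.of_apply, v, N, h, dif_pos, if_true]
      exact Classical.choose_spec (hdiv j h i)
    · simp [v, N, h]
  have hprod : ∏ j, v j = π ^ c := by
    simp only [v]
    rw [Finset.prod_ite, Finset.prod_const_one, mul_one, Finset.prod_const]
    congr 1
    rw [← hScard]
    congr 1
    ext j
    simp
  have hdet : M.det * U.det = π ^ c * N.det := by
    rw [← Matrix.det_mul, hMU, Matrix.det_mul_row, hprod]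
  have hcop : IsCoprime (π ^ c) U.det := isCoprime_pow_of_ev_ne_zero ev hev π hπ hUdet c
  exact hcop.dvd_of_dvd_mul_right ⟨N.det, hdet⟩

end LinAlg

end Fermat.Agent.GoodRed
end MergeWrap_Lib_GoodRed_DiscAux

section MergeWrap_Lib_GoodRed_DiscChar -- from Lib/GoodRed/DiscChar.lean

/-!
# Cluster B / GoodRed : points of a finite free integral algebra and the rank of its trace form
(helper59)

`C` a finite free `R`-algebra with basis `c`, integral over `R`; `ev : R → κ` onto an algebraically
closed field with kernel `(π)`.  `Pts C ev` = ring homs `C → κ` over `ev`.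

* `exists_pt_of_eigen` : every eigenvalue of the reduced regular representation is `χ w`.
* `trace_redRep_eq_zero` : if all `χ y = 0` then `Tr(y z) ≡ 0 mod π`.
* `pow_dvd_det_traceMatrix` : `π ^ (n - #Pts) ∣ det (Tr (c i * c j))`.
-/

set_option autoImplicit false

namespace Fermat.Agent.GoodRed

open Matrix

section Order

variable {R κ : Type} [CommRing R] [Field κ]
variable {C : Type} [CommRing C] [Algebra R C]

/-- Points of `C` over `ev`. -/
abbrev Pts (C : Type) [CommRing C] [Algebra R C] (ev : R →+* κ) : Type :=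
  {χ : C →+* κ // ∀ r : R, χ (algebraMap R C r) = ev r}

variable {n : ℕ} (c : Module.Basis (Fin n) R C) (ev : R →+* κ)

/-- The regular representation of `C` in the basis `c`, reduced along `ev`. -/
noncomputable def redRep : C →+* Matrix (Fin n) (Fin n) κ :=
  (RingHom.mapMatrix ev).comp (Algebra.leftMulMatrix c).toRingHom

theorem redRep_apply (y : C) : redRep c ev y = (Algebra.leftMulMatrix c y).map ev := rfl

theorem redRep_algebraMap (r : R) : redRep c ev (algebraMap R C r) = Matrix.scalar (Fin n) (ev r) := by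
  rw [redRep_apply, AlgHom.commutes]
  ext i j
  simp only [Matrix.map_apply, Matrix.algebraMap_matrix_apply, Matrix.scalar_apply,
    Matrix.diagonal_apply]
  split_ifs <;> simp

theorem trace_redRep (y : C) : (redRep c ev y).trace = ev (Algebra.trace R C y) := by
  rw [Algebra.trace_eq_matrix_trace c, redRep_apply]
  simp [Matrix.trace, map_sum]

theorem pt_smul (χ : Pts C ev) (r : R) (y : C) : χ.1 (r • y) = ev r * χ.1 y := by
  rw [Algebra.smul_def, map_mul, χ.2]

variable {c ev}

/-- (E) every eigenvalue of the reduced regular representation of `w` is the value at `w` of a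
point of `C` over `ev`. -/
theorem exists_pt_of_eigen [IsAlgClosed κ] [Algebra.IsIntegral R C]
    (hev : Function.Surjective ev) (w : C) (μ : κ) (v : Fin n → κ) (hv : v ≠ 0)
    (hw : redRep c ev w *ᵥ v = μ • v) : ∃ χ : Pts C ev, χ.1 w = μ := by
  classical
  -- the annihilator of `v`
  let 𝔞 : Ideal C :=
    { carrier := {z | redRep c ev z *ᵥ v = 0}
      zero_mem' := by simp
      add_mem' := by
        intro x y hx hy
        simp only [Set.mem_ofPred_eq] at hx hy ⊢
        rw [map_add, Matrix.add_mulVec, hx, hy, add_zero]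
      smul_mem' := by
        intro a z hz
        simp only [Set.mem_ofPred_eq, smul_eq_mul] at hz ⊢
        rw [map_mul, ← Matrix.mulVec_mulVec, hz, Matrix.mulVec_zero] }
  have h𝔞 : ∀ z, z ∈ 𝔞 ↔ redRep c ev z *ᵥ v = 0 := fun z => Iff.rfl
  have h1 : 𝔞 ≠ ⊤ := by
    intro h
    have : (1 : C) ∈ 𝔞 := by rw [h]; trivial
    rw [h𝔞, map_one, Matrix.one_mulVec] at this
    exact hv this
  obtain ⟨𝔪, h𝔪, hle⟩ := Ideal.exists_le_maximal 𝔞 h1
  obtain ⟨μ', hμ'⟩ := hev μ
  have hwμ : w - algebraMap R C μ' ∈ 𝔪 := by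
    apply hle
    rw [h𝔞, map_sub, Matrix.sub_mulVec, hw, redRep_algebraMap, hμ']
    simp
  have hker : ∀ r : R, ev r = 0 → algebraMap R C r ∈ 𝔪 := by
    intro r hr
    apply hle
    rw [h𝔞, redRep_algebraMap, hr]
    simp
  letI : Field (C ⧸ 𝔪) := Ideal.Quotient.field 𝔪
  let q : C →+* C ⧸ 𝔪 := Ideal.Quotient.mk 𝔪
  let φ : R →+* C ⧸ 𝔪 := q.comp (algebraMap R C)
  have hφ : RingHom.ker ev ≤ RingHom.ker φ := by
    intro r hr
    rw [RingHom.mem_ker] at hr ⊢
    exact Ideal.Quotient.eq_zero_iff_mem.mpr (hker r hr)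
  let ψ : κ →+* C ⧸ 𝔪 := ev.liftOfSurjective hev ⟨φ, hφ⟩
  have hψ : ∀ r, ψ (ev r) = φ r := fun r => ev.liftOfSurjective_comp_apply hev ⟨φ, hφ⟩ r
  letI : Algebra κ (C ⧸ 𝔪) := ψ.toAlgebra
  have hint : Algebra.IsIntegral κ (C ⧸ 𝔪) := by
    refine ⟨fun x => ?_⟩
    obtain ⟨z, rfl⟩ := Ideal.Quotient.mk_surjective x
    obtain ⟨p, hp, hpz⟩ := Algebra.IsIntegral.isIntegral (R := R) z
    refine ⟨p.map ev, hp.map ev, ?_⟩
    rw [Polynomial.eval₂_map]
    have h2 : (algebraMap κ (C ⧸ 𝔪)).comp ev = q.comp (algebraMap R C) := by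
      ext r
      exact hψ r
    rw [h2, ← Polynomial.hom_eval₂, hpz, map_zero]
  have hbij : Function.Bijective (algebraMap κ (C ⧸ 𝔪)) :=
    IsAlgClosed.algebraMap_bijective_of_isIntegral
  let E : κ ≃+* C ⧸ 𝔪 := RingEquiv.ofBijective (algebraMap κ (C ⧸ 𝔪)) hbij
  have hE : ∀ x, E x = ψ x := fun x => rfl
  refine ⟨⟨E.symm.toRingHom.comp q, fun r => ?_⟩, ?_⟩
  · simp only [RingHom.coe_comp, Function.comp_apply, RingEquiv.toRingHom_eq_coe,
      RingHom.coe_coe]
    rw [RingEquiv.symm_apply_eq, hE, hψ]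
    rfl
  · simp only [RingHom.coe_comp, Function.comp_apply, RingEquiv.toRingHom_eq_coe,
      RingHom.coe_coe]
    rw [RingEquiv.symm_apply_eq, hE, ← hμ', hψ]
    have := Ideal.Quotient.eq.mpr hwμ
    exact this

/-- (N) if `y` is killed by all points over `ev` then `Tr (y z) ≡ 0` modulo `ker ev`. -/
theorem trace_redRep_eq_zero [IsAlgClosed κ] [Algebra.IsIntegral R C]
    (c : Module.Basis (Fin n) R C) (hev : Function.Surjective ev) (y : C) (hy : ∀ χ : Pts C ev, χ.1 y = 0) (z : C) :
    ev (Algebra.trace R C (y * z)) = 0 := by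
  classical
  rw [← trace_redRep c ev, Matrix.trace_eq_sum_roots_charpoly]
  apply Multiset.sum_eq_zero
  intro μ hμ
  have hroot : (redRep c ev (y * z)).charpoly.eval μ = 0 := by
    have := (Polynomial.mem_roots'.mp hμ).2
    exact this
  rw [Matrix.eval_charpoly] at hroot
  obtain ⟨v, hv, hv0⟩ := Matrix.exists_mulVec_eq_zero_iff.mpr hroot
  have hw : redRep c ev (y * z) *ᵥ v = μ • v := by
    rw [Matrix.sub_mulVec, sub_eq_zero] at hv0
    rw [← hv0]
    ext i
    simp [Matrix.mulVec, dotProduct, Matrix.scalar_apply, Matrix.diagonal_apply]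
  obtain ⟨χ, hχ⟩ := exists_pt_of_eigen (c := c) hev (y * z) μ v hv hw
  rw [← hχ, map_mul, hy χ, zero_mul]

variable (c ev)

/-- The vector of values of a point on the basis. -/
noncomputable def ptVec (χ : Pts C ev) : Fin n → κ := fun i => χ.1 (c i)

theorem pt_apply_eq_sum (χ : Pts C ev) (y : C) :
    χ.1 y = ∑ i, ev (c.repr y i) * χ.1 (c i) := by
  conv_lhs => rw [← c.sum_repr y]
  rw [map_sum]
  exact Finset.sum_congr rfl fun i _ => pt_smul ev χ _ _

theorem pt_sum_smul (χ : Pts C ev) (a : Fin n → R) :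
    χ.1 (∑ i, a i • c i) = ∑ i, ev (a i) * χ.1 (c i) := by
  rw [map_sum]
  exact Finset.sum_congr rfl fun i _ => pt_smul ev χ _ _

theorem linearIndependent_ptVec : LinearIndependent κ (fun χ : Pts C ev => ptVec c ev χ) := by
  classical
  have hD : LinearIndependent κ (fun χ : Pts C ev => ((χ.1 : C →* κ) : C → κ)) := by
    refine (linearIndependent_monoidHom C κ).comp (fun χ : Pts C ev => (χ.1 : C →* κ)) ?_
    intro χ χ' h
    apply Subtype.ext
    ext y
    exact DFunLike.congr_fun h y
  rw [linearIndependent_iff'] at hD ⊢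
  intro s g hg χ hχ
  refine hD s g ?_ χ hχ
  funext y
  simp only [Finset.sum_apply, Pi.smul_apply, smul_eq_mul, Pi.zero_apply, MonoidHom.coe_coe]
  have h1 : ∀ i, ∑ χ ∈ s, g χ * χ.1 (c i) = 0 := by
    intro i
    have := congrFun hg i
    simpa [ptVec] using this
  calc ∑ χ ∈ s, g χ * χ.1 y
      = ∑ χ ∈ s, ∑ i, ev (c.repr y i) * (g χ * χ.1 (c i)) := by
        refine Finset.sum_congr rfl fun χ _ => ?_
        rw [pt_apply_eq_sum c ev χ y, Finset.mul_sum]
        refine Finset.sum_congr rfl fun i _ => ?_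
        ring
    _ = ∑ i, ev (c.repr y i) * ∑ χ ∈ s, g χ * χ.1 (c i) := by
        rw [Finset.sum_comm]
        refine Finset.sum_congr rfl fun i _ => ?_
        rw [Finset.mul_sum]
    _ = 0 := by simp [h1]

include c in
theorem finite_pts : Finite (Pts C ev) :=
  (linearIndependent_ptVec c ev).finite_of_isNoetherian

include c in
theorem card_pts_le : Nat.card (Pts C ev) ≤ n := by
  haveI := finite_pts c ev
  haveI : Fintype (Pts C ev) := Fintype.ofFinite _
  rw [Nat.card_eq_fintype_card]
  simpa using (linearIndependent_ptVec c ev).fintype_card_le_finrank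

/-- The vectors of `κ^n` orthogonal to all points. -/
def nilSub : Submodule κ (Fin n → κ) where
  carrier := {v | ∀ χ : Pts C ev, ∑ i, v i * χ.1 (c i) = 0}
  zero_mem' := by simp
  add_mem' := by
    intro v w hv hw χ
    simp only [Pi.add_apply, add_mul, Finset.sum_add_distrib]
    rw [hv χ, hw χ, add_zero]
  smul_mem' := by
    intro a v hv χ
    simp only [Pi.smul_apply, smul_eq_mul, mul_assoc]
    rw [← Finset.mul_sum, hv χ, mul_zero]

theorem mem_nilSub {v : Fin n → κ} :
    v ∈ nilSub c ev ↔ ∀ χ : Pts C ev, ∑ i, v i * χ.1 (c i) = 0 := Iff.rfl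

theorem finrank_nilSub_ge : n - Nat.card (Pts C ev) ≤ Module.finrank κ (nilSub c ev) := by
  classical
  haveI := finite_pts c ev
  haveI : Fintype (Pts C ev) := Fintype.ofFinite _
  let Φ : (Fin n → κ) →ₗ[κ] (Pts C ev → κ) :=
    Matrix.mulVecLin (Matrix.of fun (χ : Pts C ev) (i : Fin n) => χ.1 (c i))
  have hker : LinearMap.ker Φ = nilSub c ev := by
    ext v
    rw [LinearMap.mem_ker, mem_nilSub]
    constructor
    · intro h χ
      have := congrFun h χ
      simp only [Φ, Matrix.mulVecLin_apply, Matrix.mulVec, dotProduct, Matrix.of_apply,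
        Pi.zero_apply] at this
      rw [← this]
      exact Finset.sum_congr rfl fun i _ => mul_comm _ _
    · intro h
      funext χ
      simp only [Φ, Matrix.mulVecLin_apply, Matrix.mulVec, dotProduct, Matrix.of_apply,
        Pi.zero_apply]
      rw [← h χ]
      exact Finset.sum_congr rfl fun i _ => mul_comm _ _
  have h1 := LinearMap.finrank_range_add_finrank_ker Φ
  have h2 : Module.finrank κ (LinearMap.range Φ) ≤ Fintype.card (Pts C ev) := by
    have := Submodule.finrank_le (LinearMap.range Φ)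
    simpa using this
  rw [hker] at h1
  rw [Nat.card_eq_fintype_card]
  have h3 : Module.finrank κ (Fin n → κ) = n := by simp
  omega

variable {c ev}

theorem traceMatrix_mulVec_nilSub [IsAlgClosed κ] [Algebra.IsIntegral R C]
    (hev : Function.Surjective ev) (v : Fin n → κ) (hv : v ∈ nilSub c ev) :
    ((Algebra.traceMatrix R c).map ev) *ᵥ v = 0 := by
  classical
  choose a ha using fun i => hev (v i)
  set y : C := ∑ j, a j • c j with hy
  have hχ : ∀ χ : Pts C ev, χ.1 y = 0 := by
    intro χ
    rw [hy, pt_sum_smul]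
    have := (mem_nilSub c ev).mp hv χ
    simpa [ha] using this
  funext i
  simp only [Matrix.mulVec, dotProduct, Matrix.map_apply, Algebra.traceMatrix_apply,
    Algebra.traceForm_apply, Pi.zero_apply]
  have h1 : ∑ j, ev (Algebra.trace R C (c i * c j)) * v j
      = ev (Algebra.trace R C (y * c i)) := by
    have h2 : y * c i = ∑ j, a j • (c i * c j) := by
      rw [hy, Finset.sum_mul]
      refine Finset.sum_congr rfl fun j _ => ?_
      rw [smul_mul_assoc, mul_comm]
    rw [h2, map_sum, map_sum]
    refine Finset.sum_congr rfl fun j _ => ?_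
    rw [LinearMap.map_smul, smul_eq_mul, map_mul ev, ha, mul_comm]
  rw [h1]
  exact trace_redRep_eq_zero c hev y hχ (c i)

/-- **Claim 1** (abstract form): `π ^ (n - #points)` divides the discriminant of the basis. -/
theorem pow_dvd_det_traceMatrix [IsAlgClosed κ] [Algebra.IsIntegral R C]
    (hev : Function.Surjective ev) (π : R) (hπ : RingHom.ker ev = Ideal.span {π}) :
    π ^ (n - Nat.card (Pts C ev)) ∣ (Algebra.traceMatrix R c).det := by
  have h1 := pow_dvd_det_of_ker ev hev π hπ (Algebra.traceMatrix R c) (nilSub c ev)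
    (fun v hv => traceMatrix_mulVec_nilSub hev v hv)
  exact (pow_dvd_pow π (finrank_nilSub_ge c ev)).trans h1

end Order

section Compare

variable {R κ : Type} [CommRing R] [Field κ]
variable {C' C : Type} [CommRing C'] [Algebra R C'] [CommRing C] [Algebra R C]
variable {n : ℕ} (c' : Module.Basis (Fin n) R C') (c : Module.Basis (Fin n) R C)
variable (ev : R →+* κ) (f : C' →ₐ[R] C)

/-- Restriction of a point along an algebra hom. -/
def Pts.comap (χ : Pts C ev) : Pts C' ev :=
  ⟨χ.1.comp f.toRingHom, fun r => by simp [χ.2 r]⟩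

/-- If `f (c' j) = ∑ i, P i j • c i` then `π ^ (#pts C - #pts C') ∣ det P`. -/
theorem pow_dvd_det_of_pts (hev : Function.Surjective ev) (π : R)
    (hπ : RingHom.ker ev = Ideal.span {π}) (P : Matrix (Fin n) (Fin n) R)
    (hP : ∀ j, f (c' j) = ∑ i, P i j • c i) :
    π ^ (Nat.card (Pts C ev) - Nat.card (Pts C' ev)) ∣ P.det := by
  classical
  haveI := finite_pts c ev
  haveI := finite_pts c' ev
  haveI : Fintype (Pts C ev) := Fintype.ofFinite _
  haveI : Fintype (Pts C' ev) := Fintype.ofFinite _
  let T : (Fin n → κ) →ₗ[κ] (Fin n → κ) := Matrix.mulVecLin (Pᵀ.map ev)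
  have hT : ∀ χ : Pts C ev, T (ptVec c ev χ) = ptVec c' ev (Pts.comap ev f χ) := by
    intro χ
    funext j
    simp only [T, Matrix.mulVecLin_apply, Matrix.mulVec, dotProduct, Matrix.map_apply,
      Matrix.transpose_apply, ptVec, Pts.comap, RingHom.coe_comp, Function.comp_apply]
    have : (f.toRingHom (c' j)) = ∑ i, P i j • c i := hP j
    rw [this, pt_sum_smul]
  let VB : Submodule κ (Fin n → κ) := Submodule.span κ (Set.range (ptVec c ev))
  let V : Submodule κ (Fin n → κ) := Submodule.span κ (Set.range (ptVec c' ev))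
  have hVB : Module.finrank κ VB = Fintype.card (Pts C ev) :=
    finrank_span_eq_card (linearIndependent_ptVec c ev)
  have hV : Module.finrank κ V = Fintype.card (Pts C' ev) :=
    finrank_span_eq_card (linearIndependent_ptVec c' ev)
  let Ψ : VB →ₗ[κ] (Fin n → κ) := T.domRestrict VB
  have hrange : LinearMap.range Ψ ≤ V := by
    rintro _ ⟨w, rfl⟩
    have hw : (w : Fin n → κ) ∈ VB := w.2
    simp only [Ψ, LinearMap.domRestrict_apply]
    refine Submodule.span_induction (p := fun v _ => T v ∈ V) ?_ ?_ ?_ ?_ hw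
    · rintro _ ⟨χ, rfl⟩
      rw [hT]
      exact Submodule.subset_span ⟨_, rfl⟩
    · simp
    · intro x y _ _ hx hy
      rw [map_add]
      exact V.add_mem hx hy
    · intro a x _ hx
      rw [map_smul]
      exact V.smul_mem a hx
  have h1 := LinearMap.finrank_range_add_finrank_ker Ψ
  have h2 : Module.finrank κ (LinearMap.range Ψ) ≤ Fintype.card (Pts C' ev) :=
    hV ▸ Submodule.finrank_mono hrange
  let W : Submodule κ (Fin n → κ) := (LinearMap.ker Ψ).map VB.subtype
  have hWrank : Module.finrank κ W = Module.finrank κ (LinearMap.ker Ψ) :=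
    Submodule.finrank_map_subtype_eq VB (LinearMap.ker Ψ)
  have hW : ∀ v ∈ W, (Pᵀ.map ev) *ᵥ v = 0 := by
    rintro _ ⟨w, hw, rfl⟩
    have := LinearMap.mem_ker.mp hw
    simpa [Ψ, T] using this
  have h3 := pow_dvd_det_of_ker ev hev π hπ Pᵀ W hW
  rw [Matrix.det_transpose] at h3
  refine (pow_dvd_pow π ?_).trans h3
  rw [hWrank, Nat.card_eq_fintype_card, Nat.card_eq_fintype_card]
  omega

end Compare

end Fermat.Agent.GoodRed
end MergeWrap_Lib_GoodRed_DiscChar

section MergeWrap_Lib_GoodRed_DiscLower -- from Lib/GoodRed/DiscLower.lean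

/-!
# Cluster B / GoodRed WP A1 : `discLowerBound : DiscLowerBound R Kx L` (helper59)

Proof (no different ideal needed):
* the Gram matrix `G` of the trace form on the `R`-basis `b` of `B'` reduces mod `π` to a matrix
  killed by every vector orthogonal to all points of `B'` over `ev`
  (`Fermat.Agent.GoodRed.pow_dvd_det_traceMatrix`), so `π ^ (n - #pts) ∣ d`;
* for the integral closure `B ⊇ B'` with basis `β` and `b = β P`: `d = det P ^ 2 * disc β`,
  `π ^ (n - #pts B) ∣ disc β`, `π ^ (#pts B - #pts B') ∣ det P`; in the equality case `π ∤ det P`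
  and `det P • B ⊆ B'`.
-/

set_option autoImplicit false

namespace Fermat.Agent.GoodRed

open Matrix

section

variable (R : Type) [CommRing R] [IsDomain R]
variable (Kx : Type) [Field Kx] [Algebra R Kx] [IsFractionRing R Kx]
variable (L : Type) [Field L] [Algebra Kx L] [Algebra R L] [IsScalarTower R Kx L]

/-- Trace of a finite free subalgebra of full rank = trace of `L / Kx`. -/
theorem trace_subalgebra_eq [FiniteDimensional Kx L] (C : Subalgebra R L) {n : ℕ}
    (cB : Module.Basis (Fin n) R C) (hn : Module.finrank Kx L = n) (y : C) :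
    algebraMap R Kx (Algebra.trace R C y) = Algebra.trace Kx L (y : L) := by
  classical
  have hliR : LinearIndependent R (fun i => ((cB i : C) : L)) :=
    cB.linearIndependent.map' C.val.toLinearMap
      (LinearMap.ker_eq_bot.mpr Subtype.val_injective)
  have hliK : LinearIndependent Kx (fun i => ((cB i : C) : L)) :=
    (LinearIndependent.iff_fractionRing R Kx).mp hliR
  haveI : Nonempty (Fin n) := by
    have h0 : 0 < Module.finrank Kx L := Module.finrank_pos
    rw [hn] at h0
    exact ⟨⟨0, h0⟩⟩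
  let cL : Module.Basis (Fin n) Kx L :=
    basisOfLinearIndependentOfCardEqFinrank hliK (by simp [hn])
  have hcL : ∀ i, cL i = ((cB i : C) : L) := fun i => by
    simp [cL]
  have hrepr : ∀ (z : C) (i : Fin n), cL.repr (z : L) i = algebraMap R Kx (cB.repr z i) := by
    intro z i
    have h1 : (z : L) = ∑ j, (algebraMap R Kx (cB.repr z j)) • cL j := by
      have h2 : (z : L) = C.val (∑ j, cB.repr z j • cB j) := by rw [cB.sum_repr z]; rfl
      rw [h2, map_sum]
      refine Finset.sum_congr rfl fun j _ => ?_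
      rw [hcL, algebraMap_smul, map_smul]
      rfl
    rw [h1, cL.repr_sum_self]
  rw [Algebra.trace_eq_matrix_trace cB, Algebra.trace_eq_matrix_trace cL, Matrix.trace,
    Matrix.trace, map_sum]
  refine Finset.sum_congr rfl fun i _ => ?_
  simp only [Matrix.diag_apply, Algebra.leftMulMatrix_eq_repr_mul]
  rw [hcL, ← hrepr]
  rfl

/-- An `R`-basis of the subalgebra `B'` from the data of `DiscLowerBound`. -/
theorem exists_basis_subalgebra (B' : Subalgebra R L) {n : ℕ} (b : Fin n → L)
    (hb : ∀ i, b i ∈ B') (hli : LinearIndependent Kx b)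
    (hspan : ∀ y ∈ B', ∃ c : Fin n → R, y = ∑ i, c i • b i) :
    ∃ bB : Module.Basis (Fin n) R B', ∀ i, ((bB i : B') : L) = b i := by
  have hliR : LinearIndependent R b :=
    hli.restrict_scalars (by
      intro r s hrs
      simp only [Algebra.smul_def, mul_one] at hrs
      exact IsFractionRing.injective R Kx hrs)
  let b' : Fin n → B' := fun i => ⟨b i, hb i⟩
  have hli' : LinearIndependent R b' := by
    apply LinearIndependent.of_comp B'.val.toLinearMap
    exact hliR
  have hsp' : ⊤ ≤ Submodule.span R (Set.range b') := by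
    intro y _
    obtain ⟨c, hc⟩ := hspan y y.2
    have : y = ∑ i, c i • b' i := by
      apply Subtype.ext
      rw [hc]
      have h2 : ((∑ i, c i • b' i : B') : L) = B'.val (∑ i, c i • b' i) := rfl
      rw [h2, map_sum]
      refine Finset.sum_congr rfl fun i _ => ?_
      rw [map_smul]
      rfl
    rw [this]
    exact Submodule.sum_mem _ fun i _ =>
      Submodule.smul_mem _ _ (Submodule.subset_span ⟨i, rfl⟩)
  exact ⟨Module.Basis.mk hli' hsp', fun i => by simp [b']⟩

/-- The discriminant `d` of the data is the determinant of the trace matrix of the family,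
computed in any finite free subalgebra of full rank containing it. -/
theorem gramDet_eq_det_traceMatrix [FiniteDimensional Kx L] (B' : Subalgebra R L) {n : ℕ}
    (b : Fin n → L) (bB : Module.Basis (Fin n) R B') (x : Fin n → B')
    (hx : ∀ i, ((x i : B') : L) = b i)
    (hn : Module.finrank Kx L = n) :
    gramDet Kx L b = algebraMap R Kx (Algebra.traceMatrix R x).det := by
  rw [RingHom.map_det, gramDet]
  congr 1
  ext i j
  simp only [Matrix.of_apply, RingHom.mapMatrix_apply, Matrix.map_apply,
    Algebra.traceMatrix_apply, Algebra.traceForm_apply]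
  rw [trace_subalgebra_eq R Kx L B' bB hn]
  simp [hx]

variable [IsPrincipalIdealRing R]

/-- **WP A1, first half**: `π ^ (n - #pts)` divides the discriminant. -/
theorem pow_dvd_disc [FiniteDimensional Kx L] (n : ℕ) (B' : Subalgebra R L)
    (b : Fin n → L) (hb : ∀ i, b i ∈ B') (hint : ∀ y ∈ B', IsIntegral R y)
    (hli : LinearIndependent Kx b) (hn : Module.finrank Kx L = n)
    (hspan : ∀ y ∈ B', ∃ c : Fin n → R, y = ∑ i, c i • b i)
    (κ : Type) [Field κ] [IsAlgClosed κ] (ev : R →+* κ) (hev : Function.Surjective ev)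
    (π : R) (hπ : RingHom.ker ev = Ideal.span {π})
    (d : R) (hd : algebraMap R Kx d = gramDet Kx L b) :
    π ^ (n - numPts R L B' ev) ∣ d := by
  obtain ⟨bB, hbB⟩ := exists_basis_subalgebra R Kx L B' b hb hli hspan
  haveI : Algebra.IsIntegral R B' :=
    ⟨fun y => (isIntegral_algHom_iff B'.val Subtype.val_injective).mp (hint y y.2)⟩
  have h1 : d = (Algebra.traceMatrix R bB).det := by
    apply IsFractionRing.injective R Kx
    rw [hd, gramDet_eq_det_traceMatrix R Kx L B' b bB (fun i => bB i) hbB hn]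
  rw [h1]
  exact pow_dvd_det_traceMatrix (c := bB) hev π hπ

/-- **WP A1, second half**: in the equality case `B'` is integrally closed at `π`. -/
theorem exists_smul_mem_of_eq [FiniteDimensional Kx L] [Algebra.IsSeparable Kx L] (n : ℕ)
    (B' : Subalgebra R L)
    (b : Fin n → L) (hb : ∀ i, b i ∈ B') (hint : ∀ y ∈ B', IsIntegral R y)
    (hli : LinearIndependent Kx b) (hn : Module.finrank Kx L = n)
    (hspan : ∀ y ∈ B', ∃ c : Fin n → R, y = ∑ i, c i • b i)
    (κ : Type) [Field κ] [IsAlgClosed κ] (ev : R →+* κ) (hev : Function.Surjective ev)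
    (π : R) (hπ : RingHom.ker ev = Ideal.span {π})
    (d : R) (hd : algebraMap R Kx d = gramDet Kx L b) (m : ℕ) (hm : ¬ π ^ (m + 1) ∣ d)
    (heq : m + numPts R L B' ev = n) :
    ∃ s : R, ev s ≠ 0 ∧ ∀ y : L, IsIntegral R y → s • y ∈ B' := by
  classical
  obtain ⟨bB, hbB⟩ := exists_basis_subalgebra R Kx L B' b hb hli hspan
  -- the integral closure and its basis
  let B : Subalgebra R L := integralClosure R L
  haveI : Module.IsTorsionFree R L := .trans_faithfulSMul R Kx L
  haveI : Module.Free R B := IsIntegralClosure.module_free R Kx L B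
  haveI : Module.Finite R B := IsIntegralClosure.finite R Kx L B
  have hrank : Module.finrank R B = n := by
    rw [IsIntegralClosure.rank R Kx L B, hn]
  let βB : Module.Basis (Fin n) R B := Module.finBasisOfFinrankEq R B hrank
  have hle : B' ≤ B := fun y hy => hint y hy
  let ι : B' →ₐ[R] B := Subalgebra.inclusion hle
  let x : Fin n → B := fun j => ι (bB j)
  have hxb : ∀ j, ((x j : B) : L) = b j := fun j => by
    rw [← hbB j]
    rfl
  let P : Matrix (Fin n) (Fin n) R := Matrix.of fun i j => βB.repr (x j) i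
  have hP : ∀ j, ι (bB j) = ∑ i, P i j • βB i := fun j => (βB.sum_repr (x j)).symm
  have hx : x = (βB : Fin n → B) ᵥ* P.map (algebraMap R B) := by
    funext j
    rw [show x j = ι (bB j) from rfl, hP j]
    simp only [Matrix.vecMul, dotProduct, Matrix.map_apply]
    refine Finset.sum_congr rfl fun i _ => ?_
    rw [Algebra.smul_def, mul_comm]
  have hdisc : Algebra.discr R x = P.det ^ 2 * Algebra.discr R βB := by
    rw [hx, Algebra.discr_of_matrix_vecMul]
  have hd' : d = P.det ^ 2 * (Algebra.traceMatrix R βB).det := by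
    rw [← Algebra.discr_def, ← hdisc, Algebra.discr_def]
    apply IsFractionRing.injective R Kx
    rw [hd, gramDet_eq_det_traceMatrix R Kx L B b βB x hxb hn]
  have h1 : π ^ (n - Nat.card (Pts B ev)) ∣ (Algebra.traceMatrix R βB).det :=
    pow_dvd_det_traceMatrix (c := βB) hev π hπ
  have h2 : π ^ (Nat.card (Pts B ev) - Nat.card (Pts B' ev)) ∣ P.det :=
    pow_dvd_det_of_pts bB βB ev ι hev π hπ P hP
  have hN' : numPts R L B' ev = Nat.card (Pts B' ev) := rfl
  rw [hN'] at heq
  have hs : ev P.det ≠ 0 := by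
    intro h0
    have h3 : π ∣ P.det := by
      have : P.det ∈ RingHom.ker ev := h0
      rw [hπ] at this
      exact Ideal.mem_span_singleton.mp this
    apply hm
    rw [hd']
    by_cases ha : Nat.card (Pts B ev) - Nat.card (Pts B' ev) = 0
    · have h4 : π ^ (2 + (n - Nat.card (Pts B ev))) ∣ P.det ^ 2 * (Algebra.traceMatrix R βB).det := by
        rw [pow_add]
        exact mul_dvd_mul (pow_dvd_pow_of_dvd h3 2) h1
      refine (pow_dvd_pow π ?_).trans h4
      omega
    · have h4 : π ^ (2 * (Nat.card (Pts B ev) - Nat.card (Pts B' ev)) + (n - Nat.card (Pts B ev)))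
          ∣ P.det ^ 2 * (Algebra.traceMatrix R βB).det := by
        rw [pow_add, mul_comm 2, pow_mul]
        exact mul_dvd_mul (pow_dvd_pow_of_dvd h2 2) h1
      refine (pow_dvd_pow π ?_).trans h4
      omega
  refine ⟨P.det, hs, fun y hy => ?_⟩
  -- Cramer
  have hcr : ∀ i, P.det • βB i = ∑ j, (Matrix.adjugate P) j i • x j := by
    intro i
    have h5 : ∀ j, x j = ∑ k, P k j • βB k := hP
    calc P.det • βB i = ∑ k, (P * Matrix.adjugate P) k i • βB k := by
          rw [Matrix.mul_adjugate]
          simp [Matrix.smul_apply, Matrix.one_apply, ite_smul, Finset.sum_ite_eq']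
      _ = ∑ k, ∑ j, (P k j * Matrix.adjugate P j i) • βB k := by
          refine Finset.sum_congr rfl fun k _ => ?_
          rw [Matrix.mul_apply, Finset.sum_smul]
      _ = ∑ j, ∑ k, (P k j * Matrix.adjugate P j i) • βB k := Finset.sum_comm
      _ = ∑ j, (Matrix.adjugate P) j i • x j := by
          refine Finset.sum_congr rfl fun j _ => ?_
          rw [h5 j, Finset.smul_sum]
          refine Finset.sum_congr rfl fun k _ => ?_
          rw [smul_smul, mul_comm]
  have hmem : ∀ i, P.det • ((βB i : B) : L) ∈ B' := by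
    intro i
    have h6 : P.det • ((βB i : B) : L) = B.val (P.det • βB i) := by
      rw [map_smul]; rfl
    rw [h6, hcr i, map_sum]
    refine B'.sum_mem fun j _ => ?_
    rw [map_smul]
    have : B.val (x j) = b j := hxb j
    rw [this]
    exact B'.smul_mem (hb j) _
  let yB : B := ⟨y, hy⟩
  have hy1 : y = B.val (∑ i, βB.repr yB i • βB i) := by
    rw [βB.sum_repr yB]; rfl
  rw [hy1, map_sum, Finset.smul_sum]
  refine B'.sum_mem fun i _ => ?_
  rw [map_smul, smul_comm]
  exact B'.smul_mem (hmem i) _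

/-- **WP A1** (cluster B / GoodRed, helper37's blueprint). -/
theorem discLowerBound : DiscLowerBound R Kx L := by
  intro _ _ n B' b hb hint hli hn hspan κ _ _ ev hev π hπ d m hd hm hm'
  have h1 := pow_dvd_disc R Kx L n B' b hb hint hli hn hspan κ ev hev π hπ d hd
  have h2 : n - numPts R L B' ev ≤ m := by
    by_contra hlt
    rw [not_le] at hlt
    exact hm' ((pow_dvd_pow π hlt).trans h1)
  refine ⟨by omega, fun heq y hy => ?_⟩
  obtain ⟨s, hs, hsy⟩ := exists_smul_mem_of_eq R Kx L n B' b hb hint hli hn hspan κ ev hev π hπ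
    d hd m hm' heq
  exact ⟨s, hs, hsy y hy⟩

end

end Fermat.Agent.GoodRed
end MergeWrap_Lib_GoodRed_DiscLower

section MergeWrap_Lib_GoodRed_EvalAt -- from Lib/GoodRed/EvalAt.lean

/-!
# Cluster B / GoodRed: evaluation `K[x] → K` at `x = c` (helper57; architect helper37)

`evalAt hx c : K[x] → K` for a transcendental `x`, its kernel `(x - c)`, the maximal ideals of
`K[x]` for algebraically closed `K`, and the comparison of `numPts` (points of a `K[x]`-subalgebra
over `ev`) with the `K`-algebra homomorphisms sending `x` to `c` (`fibreCard`).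
-/

set_option autoImplicit false

namespace Fermat.Agent.GoodRed

open Polynomial IntermediateField
open scoped IntermediateField.algebraAdjoinAdjoin

noncomputable section

variable {K F : Type} [Field K] [Field F] [Algebra K F] {x : F}

/-- evaluation at `x = c`. -/
def evalAt (hx : Transcendental K x) (c : K) : Algebra.adjoin K {x} →ₐ[K] K :=
  (Polynomial.aeval c).comp (Polynomial.algEquivOfTranscendental K x hx).symm.toAlgHom

theorem evalAt_apply (hx : Transcendental K x) (c : K) (y : Algebra.adjoin K {x}) :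
    evalAt hx c y = ((Polynomial.algEquivOfTranscendental K x hx).symm y).eval c := by
  simp only [evalAt, AlgHom.comp_apply, coe_aeval_eq_eval]
  rfl

theorem evalAt_equiv (hx : Transcendental K x) (c : K) (p : K[X]) :
    evalAt hx c (Polynomial.algEquivOfTranscendental K x hx p) = p.eval c := by
  rw [evalAt_apply, AlgEquiv.symm_apply_apply]

theorem equiv_X_sub_C (hx : Transcendental K x) (c : K) :
    Polynomial.algEquivOfTranscendental K x hx (X - C c) = piAt K x c := by
  rw [map_sub, algEquivOfTranscendental_apply_X]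
  have : Polynomial.algEquivOfTranscendental K x hx (C c) =
      algebraMap K (Algebra.adjoin K {x}) c := by
    rw [← Polynomial.algebraMap_eq, AlgEquiv.commutes]
  rw [this]
  rfl

theorem evalAt_genAdj (hx : Transcendental K x) (c : K) : evalAt hx c (genAdj x) = c := by
  have h : genAdj x = Polynomial.algEquivOfTranscendental K x hx X := by
    rw [algEquivOfTranscendental_apply_X]
    rfl
  rw [h, evalAt_equiv, eval_X]

theorem isEvalAt_evalAt (hx : Transcendental K x) (c : K) :
    IsEvalAt x c (evalAt hx c).toRingHom :=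
  ⟨evalAt_genAdj hx c, fun a => (evalAt hx c).commutes a⟩

theorem evalAt_surjective (hx : Transcendental K x) (c : K) :
    Function.Surjective (evalAt hx c) :=
  fun a => ⟨algebraMap K _ a, (evalAt hx c).commutes a⟩

theorem ker_evalAt (hx : Transcendental K x) (c : K) :
    RingHom.ker (evalAt hx c).toRingHom = Ideal.span {piAt K x c} := by
  ext y
  rw [RingHom.mem_ker, Ideal.mem_span_singleton]
  obtain ⟨p, rfl⟩ := (Polynomial.algEquivOfTranscendental K x hx).surjective y
  rw [← equiv_X_sub_C hx c]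
  show evalAt hx c _ = 0 ↔ _
  rw [evalAt_equiv, map_dvd_iff, dvd_iff_isRoot]
  rfl

theorem prime_piAt (hx : Transcendental K x) (c : K) : Prime (piAt K x c) := by
  rw [← equiv_X_sub_C hx c]
  exact (MulEquiv.prime_iff (Polynomial.algEquivOfTranscendental K x hx).toMulEquiv).mpr
    (prime_X_sub_C c)

theorem exists_piAt_of_isMaximal [IsAlgClosed K] (hx : Transcendental K x)
    (I : Ideal (Algebra.adjoin K {x})) (hI : I.IsMaximal) :
    ∃ c : K, I = Ideal.span {piAt K x c} := by
  set e := Polynomial.algEquivOfTranscendental K x hx with he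
  -- the pulled back ideal of `K[X]`
  have hJ : (Ideal.comap e.toRingEquiv I).IsMaximal := Ideal.comap_isMaximal_of_equiv e.toRingEquiv
  obtain ⟨p, hp⟩ := (IsPrincipalIdealRing.principal (Ideal.comap e.toRingEquiv I)).principal
  have hp' : Ideal.comap e.toRingEquiv I = Ideal.span {p} := hp
  have hp0 : p ≠ 0 := by
    rintro rfl
    rw [Ideal.span_singleton_zero] at hp'
    rw [hp'] at hJ
    exact Polynomial.not_isField K (Ring.isField_iff_maximal_bot.mpr hJ)
  have hpu : ¬ IsUnit p := by
    intro hu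
    apply hJ.ne_top
    rw [hp']
    exact Ideal.span_singleton_eq_top.mpr hu
  have hdeg : p.degree ≠ 0 := by
    intro h0
    apply hpu
    rw [Polynomial.eq_C_of_degree_eq_zero h0]
    refine Polynomial.isUnit_C.mpr (IsUnit.mk0 _ ?_)
    intro hc
    apply hp0
    rw [Polynomial.eq_C_of_degree_eq_zero h0, hc, map_zero]
  obtain ⟨c, hc⟩ := IsAlgClosed.exists_root p hdeg
  refine ⟨c, ?_⟩
  have hle : I ≤ Ideal.span {piAt K x c} := by
    intro y hy
    obtain ⟨q, rfl⟩ := e.surjective y
    have hq : q ∈ Ideal.comap e.toRingEquiv I := hy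
    rw [hp', Ideal.mem_span_singleton] at hq
    rw [Ideal.mem_span_singleton, ← equiv_X_sub_C hx c, map_dvd_iff]
    exact (dvd_iff_isRoot.mpr hc).trans hq
  have hne : Ideal.span {piAt K x c} ≠ (⊤ : Ideal (Algebra.adjoin K {x})) := by
    rw [Ne, Ideal.span_singleton_eq_top]
    exact (prime_piAt hx c).not_isUnit
  exact hI.eq_of_le hne hle

/-- a `K`-subalgebra containing `x`, viewed over `K[x]` -/
def overAdjoin (B : Subalgebra K F) (hxB : x ∈ B) : Subalgebra (Algebra.adjoin K {x}) F where
  carrier := B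
  mul_mem' := B.mul_mem
  add_mem' := B.add_mem
  algebraMap_mem' := fun r => (Algebra.adjoin_le (Set.singleton_subset_iff.mpr hxB)) r.2

theorem mem_overAdjoin (B : Subalgebra K F) (hxB : x ∈ B) {y : F} :
    y ∈ overAdjoin B hxB ↔ y ∈ B := Iff.rfl

/-- a `K`-algebra homomorphism `B → K` with `x ↦ c` restricts to `evalAt` on `K[x]`. -/
theorem algHom_eq_evalAt (hx : Transcendental K x) (B : Subalgebra K F) (hxB : x ∈ B) (c : K)
    (ψ : B →ₐ[K] K) (hψ : ψ ⟨x, hxB⟩ = c) (r : Algebra.adjoin K {x}) :
    ψ ⟨(r : F), (Algebra.adjoin_le (Set.singleton_subset_iff.mpr hxB)) r.2⟩ = evalAt hx c r := by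
  have hle : Algebra.adjoin K {x} ≤ B := Algebra.adjoin_le (Set.singleton_subset_iff.mpr hxB)
  obtain ⟨p, rfl⟩ := (Polynomial.algEquivOfTranscendental K x hx).surjective r
  rw [evalAt_equiv]
  have h1 : (ψ.comp (Subalgebra.inclusion hle))
      (Polynomial.algEquivOfTranscendental K x hx p) = p.eval c := by
    rw [algEquivOfTranscendental_apply, ← Polynomial.aeval_algHom_apply, AlgHom.comp_apply]
    have : (Subalgebra.inclusion hle) ⟨x, Algebra.self_mem_adjoin_singleton K x⟩ = ⟨x, hxB⟩ := rfl
    rw [this, hψ, coe_aeval_eq_eval]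
  exact h1

theorem numPts_overAdjoin (hx : Transcendental K x) (B : Subalgebra K F) (hxB : x ∈ B) (c : K) :
    numPts (Algebra.adjoin K {x}) F (overAdjoin B hxB) (evalAt hx c).toRingHom
      = Nat.card {χ : B →ₐ[K] K // χ ⟨x, hxB⟩ = c} := by
  unfold numPts
  refine Nat.card_congr ?_
  refine
    { toFun := fun χ => ⟨
        { toFun := fun y => χ.1 ⟨(y : F), y.2⟩
          map_one' := χ.1.map_one
          map_mul' := fun y z => χ.1.map_mul ⟨(y : F), y.2⟩ ⟨(z : F), z.2⟩
          map_zero' := χ.1.map_zero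
          map_add' := fun y z => χ.1.map_add ⟨(y : F), y.2⟩ ⟨(z : F), z.2⟩
          commutes' := fun a => by
            have h := χ.2 (algebraMap K (Algebra.adjoin K {x}) a)
            exact h.trans ((evalAt hx c).commutes a) },
        (χ.2 (genAdj x)).trans (evalAt_genAdj hx c)⟩
      invFun := fun ψ => ⟨
        { toFun := fun y => ψ.1 ⟨(y : F), y.2⟩
          map_one' := ψ.1.map_one
          map_mul' := fun y z => ψ.1.map_mul ⟨(y : F), y.2⟩ ⟨(z : F), z.2⟩
          map_zero' := ψ.1.map_zero
          map_add' := fun y z => ψ.1.map_add ⟨(y : F), y.2⟩ ⟨(z : F), z.2⟩ },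
        fun r => algHom_eq_evalAt hx B hxB c ψ.1 ψ.2 r⟩
      left_inv := fun χ => by
        apply Subtype.ext
        ext y
        rfl
      right_inv := fun ψ => by
        apply Subtype.ext
        ext y
        rfl }

theorem overAdjoin_intCl (hxB : x ∈ intCl K x) :
    overAdjoin (intCl K x) hxB = integralClosure (Algebra.adjoin K {x}) F :=
  SetLike.ext fun _ => Iff.rfl

theorem numPts_integralClosure_eq_fibreCard (hx : Transcendental K x) (c : K) :
    numPts (Algebra.adjoin K {x}) F (integralClosure (Algebra.adjoin K {x}) F)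
        (evalAt hx c).toRingHom
      = fibreCard K x c := by
  have hxB : x ∈ intCl K x := by
    have h : (algebraMap (Algebra.adjoin K {x}) F) (genAdj x) ∈
        integralClosure (Algebra.adjoin K {x}) F := Subalgebra.algebraMap_mem _ _
    exact h
  rw [← overAdjoin_intCl hxB, numPts_overAdjoin hx (intCl K x) hxB c]
  unfold fibreCard
  refine Nat.card_congr (Equiv.subtypeEquivRight fun χ => ?_)
  exact ⟨fun h _ => h, fun h => h hxB⟩

end

end Fermat.Agent.GoodRed
end MergeWrap_Lib_GoodRed_EvalAt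

section MergeWrap_Lib_GoodRed_Chain -- from Lib/GoodRed/Chain.lean

/-!
# Cluster B / GoodRed WP C : the discriminant chain (helper37)

`discChain_of_steps`: DEGREE + BRANCH + (L) `LiftStep` + (P) `PointsStep` + (ALG-1) imply
(NORM) `NormalReduction M` and (FIB) `FibreBound M`.

Proof.  For `c̄ ∈ k` let `m = ord_{c̄} d̄` where `d̄` is the Gram determinant of the basis `b̄` of
`B̄` given by (L).  (ALG-1): `n ≤ m + #pts(B̄, c̄)`.  If a branch value `c ∈ S` reduces to `c̄`,
(L) gives `m + #fibre(c) ≤ n` and (P) gives `#pts(B̄, c̄) ≤ #fibre(c)`; otherwise (L) gives `m = 0`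
and (P), BRANCH give `#pts(B̄, c̄) ≤ #fibre(c) = n` for any lift `c`.  In both cases
`m + #pts(B̄, c̄) = n`, so by (ALG-1) `B̄` is integrally closed at `c̄`.  As `k` is algebraically
closed, every maximal ideal of `k[x̄]` is of the form `(x̄ - c̄)`, so `B̄` is integrally closed.
-/

set_option autoImplicit false

namespace Fermat.Agent.GoodRed

open Polynomial IntermediateField
open scoped IntermediateField.algebraAdjoinAdjoin

noncomputable section

variable {K k F Fk : Type} [Field K] [Field k] [Field F] [Field Fk] [Algebra K F] [Algebra k Fk]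

namespace RedModel

variable (M : RedModel K k F Fk)

/-- `B̄` as a subalgebra over `k[x̄]`. -/
def BbarR : Subalgebra (Algebra.adjoin k {M.xbar}) Fk := overAdjoin M.Bbar M.xbar_mem_Bbar

theorem mem_BbarR {y : Fk} : y ∈ M.BbarR ↔ y ∈ M.Bbar := Iff.rfl

end RedModel

/-- Elements of a subalgebra spanned by finitely many elements are integral. -/
theorem chain_isIntegral_of_span {R L : Type} [CommRing R] [Field L] [Algebra R L]
    (B' : Subalgebra R L) {n : ℕ} (b : Fin n → L) (hb : ∀ i, b i ∈ B')
    (hspan : ∀ y ∈ B', ∃ c : Fin n → R, y = ∑ i, c i • b i) :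
    ∀ y ∈ B', IsIntegral R y := by
  classical
  intro y hy
  have hfg : (Subalgebra.toSubmodule B').FG := by
    refine ⟨Finset.univ.image b, le_antisymm ?_ ?_⟩
    · rw [Submodule.span_le]
      intro z hz
      simp only [Finset.coe_image, Finset.coe_univ, Set.image_univ, Set.mem_range] at hz
      obtain ⟨i, rfl⟩ := hz
      exact hb i
    · intro z hz
      obtain ⟨c, rfl⟩ := hspan z hz
      refine Submodule.sum_mem _ fun i _ => Submodule.smul_mem _ _ (Submodule.subset_span ?_)
      simp
  exact IsIntegral.of_mem_of_fg B' hfg y hy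

/-- local step of the chain: at every `c̄` the ring `B̄` is integrally closed. -/
theorem chain_local [IsAlgClosed k] (M : RedModel K k F Fk) (n : ℕ)
    (hdeg : DegData M n) (BD : BranchData M n)
    (hL : LiftStep M n BD) (hP : PointsStep M) (cbar : k) (y : Fk)
    (hy : IsIntegral (Algebra.adjoin k {M.xbar}) y) :
    ∃ s : Algebra.adjoin k {M.xbar}, evalAt M.x_trans cbar s ≠ 0 ∧ s • y ∈ M.BbarR := by
  classical
  obtain ⟨bbar, hbasis, dbar, hd, hd0, hbound⟩ := hL
  have hxk : Transcendental k M.xbar := M.x_trans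
  have : IsPrincipalIdealRing (Algebra.adjoin k {M.xbar}) := lb_isPrincipalIdealRing_adjoin hxk
  have : FiniteDimensional k⟮M.xbar⟯ Fk :=
    Module.finite_of_finrank_pos (by rw [hdeg.degk]; exact hdeg.pos)
  have := hdeg.sepk
  have hmem : ∀ i, bbar i ∈ M.BbarR := hbasis.mem
  have hspan : ∀ y ∈ M.BbarR, ∃ c : Fin n → Algebra.adjoin k {M.xbar}, y = ∑ i, c i • bbar i :=
    hbasis.span
  have hint := chain_isIntegral_of_span M.BbarR bbar hmem hspan
  -- the multiplicity
  have hprime : Prime (piAt k M.xbar cbar) := prime_piAt hxk cbar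
  have hfin : FiniteMultiplicity (piAt k M.xbar cbar) dbar :=
    FiniteMultiplicity.of_prime_left hprime hd0
  set m := multiplicity (piAt k M.xbar cbar) dbar with hm
  have hpow : piAt k M.xbar cbar ^ m ∣ dbar := pow_multiplicity_dvd _ _
  have hnpow : ¬ piAt k M.xbar cbar ^ (m + 1) ∣ dbar :=
    hfin.not_pow_dvd_of_multiplicity_lt (Nat.lt_succ_self _)
  obtain ⟨h1, h2⟩ := discLowerBound (Algebra.adjoin k {M.xbar}) k⟮M.xbar⟯ Fk n M.BbarR bbar hmem
    hint hbasis.indep hdeg.degk hspan k (evalAt hxk cbar).toRingHom (evalAt_surjective hxk cbar)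
    (piAt k M.xbar cbar) (ker_evalAt hxk cbar) dbar m hd hpow hnpow
  have hnum : numPts (Algebra.adjoin k {M.xbar}) Fk M.BbarR (evalAt hxk cbar).toRingHom =
      numPtsBbar M cbar := numPts_overAdjoin hxk M.Bbar M.xbar_mem_Bbar cbar
  rw [hnum] at h1 h2
  refine h2 ?_ y hy
  by_cases hS : ∃ c ∈ BD.S, ∃ hc : c ∈ M.A, M.res ⟨c, hc⟩ = cbar
  · obtain ⟨c, hcS, hc, hres⟩ := hS
    subst hres
    have hb1 := (hbound c hc m hpow).1 hcS
    have hb2 := hP c hc
    omega
  · obtain ⟨a, ha⟩ := M.res_surj cbar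
    subst ha
    have hm0 : m = 0 := (hbound a.1 a.2 m hpow).2 (fun c' hc'S hc' hres => hS ⟨c', hc'S, hc', hres⟩)
    have hnS : (a : K) ∉ BD.S := fun haS => hS ⟨a.1, haS, a.2, rfl⟩
    have hb2 : numPtsBbar M (M.res a) ≤ fibreCard K M.x a := hP a.1 a.2
    rw [BD.unram _ hnS] at hb2
    omega

/-- (NORM) from the chain, in subalgebra form: `intCl k x̄ ≤ B̄`. -/
theorem chain_intCl_le_Bbar [IsAlgClosed k] (M : RedModel K k F Fk) (n : ℕ)
    (hdeg : DegData M n) (BD : BranchData M n)
    (hL : LiftStep M n BD) (hP : PointsStep M) : intCl k M.xbar ≤ M.Bbar := by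
  intro y hy
  have hy' : IsIntegral (Algebra.adjoin k {M.xbar}) y := hy
  have hxk : Transcendental k M.xbar := M.x_trans
  -- the conductor ideal of `y`
  let I : Ideal (Algebra.adjoin k {M.xbar}) :=
    (Subalgebra.toSubmodule M.BbarR).colon {y}
  have hI : ∀ s : Algebra.adjoin k {M.xbar}, s ∈ I ↔ s • y ∈ M.BbarR := fun s =>
    Submodule.mem_colon_singleton
  have htop : I = ⊤ := by
    by_contra hne
    obtain ⟨𝔪, h𝔪, hle⟩ := Ideal.exists_le_maximal I hne
    obtain ⟨cbar, rfl⟩ := exists_piAt_of_isMaximal hxk 𝔪 h𝔪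
    obtain ⟨s, hs, hsy⟩ := chain_local M n hdeg BD hL hP cbar y hy'
    have hsI : s ∈ I := (hI s).mpr hsy
    have := hle hsI
    rw [← ker_evalAt hxk cbar, RingHom.mem_ker] at this
    exact hs this
  have h1 : (1 : Algebra.adjoin k {M.xbar}) ∈ I := by rw [htop]; trivial
  have := (hI 1).mp h1
  rwa [one_smul] at this

/-- `B̄ ≤ intCl k x̄` (needs only that `B̄` is a finite `k[x̄]`-module). -/
theorem chain_Bbar_le_intCl (M : RedModel K k F Fk) (n : ℕ) (bbar : Fin n → Fk)
    (hbasis : IsBbarBasis M n bbar) : M.Bbar ≤ intCl k M.xbar := by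
  intro y hy
  exact chain_isIntegral_of_span M.BbarR bbar hbasis.mem hbasis.span y hy

theorem chain_Bbar_eq_intCl [IsAlgClosed k] (M : RedModel K k F Fk) (n : ℕ)
    (hdeg : DegData M n) (BD : BranchData M n)
    (hL : LiftStep M n BD) (hP : PointsStep M) : M.Bbar = intCl k M.xbar := by
  obtain ⟨bbar, hbasis, -⟩ := id hL
  exact le_antisymm (chain_Bbar_le_intCl M n bbar hbasis)
    (chain_intCl_le_Bbar M n hdeg BD hL hP)

/-- transport of the point count along an equality of subalgebras -/
theorem chain_card_eq {B₁ B₂ : Subalgebra k Fk} (h : B₁ = B₂) (x : Fk) (h₁ : x ∈ B₁) (cbar : k) :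
    Nat.card {χ : B₁ →ₐ[k] k // χ ⟨x, h₁⟩ = cbar} =
      Nat.card {χ : B₂ →ₐ[k] k // ∀ h₂ : x ∈ B₂, χ ⟨x, h₂⟩ = cbar} := by
  subst h
  refine Nat.card_congr (Equiv.subtypeEquivRight fun χ => ?_)
  exact ⟨fun h _ => h, fun h => h h₁⟩

/-- **The discriminant chain** (finite part): (L) + (P) (+ ALG-1) imply (NORM) and (FIB). -/
theorem discChain_of_steps [IsAlgClosed k] (M : RedModel K k F Fk) (n : ℕ)
    (hdeg : DegData M n) (BD : BranchData M n)
    (hL : LiftStep M n BD) (hP : PointsStep M) :
    NormalReduction M ∧ FibreBound M := by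
  have heq := chain_Bbar_eq_intCl M n hdeg BD hL hP
  refine ⟨fun y hy => ?_, fun c hc => ?_⟩
  · have : y ∈ M.Bbar := heq ▸ hy
    exact this
  · have h := hP c hc
    unfold numPtsBbar at h
    rw [chain_card_eq heq M.xbar M.xbar_mem_Bbar] at h
    exact h

end

end Fermat.Agent.GoodRed
end MergeWrap_Lib_GoodRed_Chain

section MergeWrap_Lib_GoodRed_DefsA -- from Lib/GoodRed/DefsA.lean

/-!
# Cluster B / GoodRed: the WEAK branch datum (branch values in `A` only) and `FibreEq`
Architect: helper37 (request of helper93).  ONLY definitions and trivial conversions here.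

The discriminant chain only ever uses branch values in `A` (roots outside `A` reduce to "infinity"
of the chart).  So `unram` is only needed for `c ∈ A`.  Example: `x = 1/j`, `ℓ ∈ {2, 3}`:
the branch values are `0`, `1/1728`, `∞`, and `1/1728 ∉ A`, so `S = {0}` is a weak branch datum.
-/

set_option autoImplicit false

namespace Fermat.Agent.GoodRed

open Polynomial IntermediateField
open scoped IntermediateField.algebraAdjoinAdjoin

noncomputable section

variable {K k F Fk : Type} [Field K] [Field k] [Field F] [Field Fk] [Algebra K F] [Algebra k Fk]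

/-- WEAK BRANCH hypothesis: outside a finite set `S ⊆ A` of branch values with pairwise distinct
residues all fibres over points `c ∈ A` have `n` points. -/
structure BranchDataA (M : RedModel K k F Fk) (n : ℕ) where
  S : Finset K
  S_mem : ∀ c ∈ S, c ∈ M.A
  S_inj : ∀ c ∈ S, ∀ c' ∈ S, ∀ (hc : c ∈ M.A) (hc' : c' ∈ M.A),
    M.res ⟨c, hc⟩ = M.res ⟨c', hc'⟩ → c = c'
  unram : ∀ c : K, c ∈ M.A → c ∉ S → fibreCard K M.x c = n

/-- a (strong) branch datum is a weak branch datum -/
def BranchData.toA {M : RedModel K k F Fk} {n : ℕ} (BD : BranchData M n) : BranchDataA M n where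
  S := BD.S
  S_mem := BD.S_mem
  S_inj := BD.S_inj
  unram := fun c _ hc => BD.unram c hc

@[simp] theorem BranchData.toA_S {M : RedModel K k F Fk} {n : ℕ} (BD : BranchData M n) :
    BD.toA.S = BD.S := rfl

/-- (L) LIFT STEP for a weak branch datum (same statement as `LiftStep`). -/
def LiftStepA (M : RedModel K k F Fk) (n : ℕ) (BD : BranchDataA M n) : Prop :=
  ∃ bbar : Fin n → Fk, IsBbarBasis M n bbar ∧
    ∃ dbar : Algebra.adjoin k {M.xbar},
      algebraMap (Algebra.adjoin k {M.xbar}) k⟮M.xbar⟯ dbar = gramDet k⟮M.xbar⟯ Fk bbar ∧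
      dbar ≠ 0 ∧
      ∀ (c : K) (hc : c ∈ M.A) (m : ℕ), piAt k M.xbar (M.res ⟨c, hc⟩) ^ m ∣ dbar →
        (c ∈ BD.S → m + fibreCard K M.x c ≤ n) ∧
        ((∀ c' ∈ BD.S, ∀ hc' : c' ∈ M.A, M.res ⟨c', hc'⟩ ≠ M.res ⟨c, hc⟩) → m = 0)

theorem liftStep_iff_liftStepA {M : RedModel K k F Fk} {n : ℕ} (BD : BranchData M n) :
    LiftStep M n BD ↔ LiftStepA M n BD.toA := Iff.rfl

/-- (FIB=) EQUALITY of fibre cardinalities at every `c ∈ A` which is a branch value or whose
residue is not the residue of a branch value. -/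
def FibreEq (M : RedModel K k F Fk) (n : ℕ) (BD : BranchDataA M n) : Prop :=
  ∀ (c : K) (hc : c ∈ M.A),
    (c ∈ BD.S ∨ ∀ c' ∈ BD.S, ∀ hc' : c' ∈ M.A, M.res ⟨c', hc'⟩ ≠ M.res ⟨c, hc⟩) →
      fibreCard k M.xbar (M.res ⟨c, hc⟩) = fibreCard K M.x c

/-- MAIN THEOREM of the discriminant chain for weak branch data, as a `Prop`. -/
def DiscChainA : Prop :=
  ∀ (K k F Fk : Type) [Field K] [Field k] [Field F] [Field Fk] [Algebra K F] [Algebra k Fk]
    [IsAlgClosed K] [CharZero K] [IsAlgClosed k]
    (M : RedModel K k F Fk) (n : ℕ), DegData M n → ∀ BD : BranchDataA M n,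
      NormalReduction M ∧ FibreBound M ∧ FibreEq M n BD

end

end Fermat.Agent.GoodRed
end MergeWrap_Lib_GoodRed_DefsA

section MergeWrap_Lib_GoodRed_ChainA -- from Lib/GoodRed/ChainA.lean

/-!
# Cluster B / GoodRed WP C for WEAK branch data, with EQUALITY of fibre cardinalities (helper37)

`discChainA_of_steps`: DEGREE + weak BRANCH + (L) `LiftStepA` + (P) `PointsStep` imply
(NORM) `NormalReduction M`, (FIB) `FibreBound M` and (FIB=) `FibreEq M n BD`.
-/

set_option autoImplicit false

namespace Fermat.Agent.GoodRed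

open Polynomial IntermediateField
open scoped IntermediateField.algebraAdjoinAdjoin

noncomputable section

variable {K k F Fk : Type} [Field K] [Field k] [Field F] [Field Fk] [Algebra K F] [Algebra k Fk]

/-- local step of the chain (weak branch data): at `c̄ = res c`, if `c ∈ S` or no branch value
reduces to `c̄`, then `m + #pts(B̄, c̄) = n` for `m = ord_{c̄} d̄`, `#pts(B̄, c̄) = #fibre(c)`,
and `B̄` is integrally closed at `c̄`. -/
theorem chainA_local_at [IsAlgClosed k] (M : RedModel K k F Fk) (n : ℕ)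
    (hdeg : DegData M n) (BD : BranchDataA M n)
    (hL : LiftStepA M n BD) (hP : PointsStep M) (c : K) (hc : c ∈ M.A)
    (hcS : c ∈ BD.S ∨ ∀ c' ∈ BD.S, ∀ hc' : c' ∈ M.A, M.res ⟨c', hc'⟩ ≠ M.res ⟨c, hc⟩) :
    numPtsBbar M (M.res ⟨c, hc⟩) = fibreCard K M.x c ∧
    ∀ y : Fk, IsIntegral (Algebra.adjoin k {M.xbar}) y →
      ∃ s : Algebra.adjoin k {M.xbar}, evalAt M.x_trans (M.res ⟨c, hc⟩) s ≠ 0 ∧ s • y ∈ M.BbarR := by
  classical
  obtain ⟨bbar, hbasis, dbar, hd, hd0, hbound⟩ := hL
  have hxk : Transcendental k M.xbar := M.x_trans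
  have : IsPrincipalIdealRing (Algebra.adjoin k {M.xbar}) := lb_isPrincipalIdealRing_adjoin hxk
  have : FiniteDimensional k⟮M.xbar⟯ Fk :=
    Module.finite_of_finrank_pos (by rw [hdeg.degk]; exact hdeg.pos)
  have := hdeg.sepk
  have hmem : ∀ i, bbar i ∈ M.BbarR := hbasis.mem
  have hspan : ∀ y ∈ M.BbarR, ∃ c : Fin n → Algebra.adjoin k {M.xbar}, y = ∑ i, c i • bbar i :=
    hbasis.span
  have hint := chain_isIntegral_of_span M.BbarR bbar hmem hspan
  set cbar := M.res ⟨c, hc⟩ with hcbar
  have hprime : Prime (piAt k M.xbar cbar) := prime_piAt hxk cbar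
  have hfin : FiniteMultiplicity (piAt k M.xbar cbar) dbar :=
    FiniteMultiplicity.of_prime_left hprime hd0
  set m := multiplicity (piAt k M.xbar cbar) dbar with hm
  have hpow : piAt k M.xbar cbar ^ m ∣ dbar := pow_multiplicity_dvd _ _
  have hnpow : ¬ piAt k M.xbar cbar ^ (m + 1) ∣ dbar :=
    hfin.not_pow_dvd_of_multiplicity_lt (Nat.lt_succ_self _)
  obtain ⟨h1, h2⟩ := discLowerBound (Algebra.adjoin k {M.xbar}) k⟮M.xbar⟯ Fk n M.BbarR bbar hmem
    hint hbasis.indep hdeg.degk hspan k (evalAt hxk cbar).toRingHom (evalAt_surjective hxk cbar)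
    (piAt k M.xbar cbar) (ker_evalAt hxk cbar) dbar m hd hpow hnpow
  have hnum : numPts (Algebra.adjoin k {M.xbar}) Fk M.BbarR (evalAt hxk cbar).toRingHom =
      numPtsBbar M cbar := numPts_overAdjoin hxk M.Bbar M.xbar_mem_Bbar cbar
  rw [hnum] at h1 h2
  have hb2 : numPtsBbar M cbar ≤ fibreCard K M.x c := hP c hc
  have hb1 : m + fibreCard K M.x c ≤ n := by
    rcases hcS with hcS | hcS
    · exact (hbound c hc m hpow).1 hcS
    · have hm0 : m = 0 := (hbound c hc m hpow).2 hcS
      have hnS : c ∉ BD.S := fun h => hcS c h hc rfl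
      rw [BD.unram c hc hnS]
      omega
  exact ⟨by omega, h2 (by omega)⟩

/-- local step of the chain (weak branch data): at every `c̄` the ring `B̄` is integrally
closed. -/
theorem chainA_local [IsAlgClosed k] (M : RedModel K k F Fk) (n : ℕ)
    (hdeg : DegData M n) (BD : BranchDataA M n)
    (hL : LiftStepA M n BD) (hP : PointsStep M) (cbar : k) (y : Fk)
    (hy : IsIntegral (Algebra.adjoin k {M.xbar}) y) :
    ∃ s : Algebra.adjoin k {M.xbar}, evalAt M.x_trans cbar s ≠ 0 ∧ s • y ∈ M.BbarR := by
  classical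
  by_cases hS : ∃ c ∈ BD.S, ∃ hc : c ∈ M.A, M.res ⟨c, hc⟩ = cbar
  · obtain ⟨c, hcS, hc, hres⟩ := hS
    subst hres
    exact (chainA_local_at M n hdeg BD hL hP c hc (Or.inl hcS)).2 y hy
  · obtain ⟨a, ha⟩ := M.res_surj cbar
    subst ha
    exact (chainA_local_at M n hdeg BD hL hP a.1 a.2
      (Or.inr fun c' hc'S hc' hres => hS ⟨c', hc'S, hc', hres⟩)).2 y hy

/-- (NORM) from the chain, in subalgebra form: `intCl k x̄ ≤ B̄`. -/
theorem chainA_intCl_le_Bbar [IsAlgClosed k] (M : RedModel K k F Fk) (n : ℕ)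
    (hdeg : DegData M n) (BD : BranchDataA M n)
    (hL : LiftStepA M n BD) (hP : PointsStep M) : intCl k M.xbar ≤ M.Bbar := by
  intro y hy
  have hy' : IsIntegral (Algebra.adjoin k {M.xbar}) y := hy
  have hxk : Transcendental k M.xbar := M.x_trans
  let I : Ideal (Algebra.adjoin k {M.xbar}) :=
    (Subalgebra.toSubmodule M.BbarR).colon {y}
  have hI : ∀ s : Algebra.adjoin k {M.xbar}, s ∈ I ↔ s • y ∈ M.BbarR := fun s =>
    Submodule.mem_colon_singleton
  have htop : I = ⊤ := by
    by_contra hne
    obtain ⟨𝔪, h𝔪, hle⟩ := Ideal.exists_le_maximal I hne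
    obtain ⟨cbar, rfl⟩ := exists_piAt_of_isMaximal hxk 𝔪 h𝔪
    obtain ⟨s, hs, hsy⟩ := chainA_local M n hdeg BD hL hP cbar y hy'
    have hsI : s ∈ I := (hI s).mpr hsy
    have := hle hsI
    rw [← ker_evalAt hxk cbar, RingHom.mem_ker] at this
    exact hs this
  have h1 : (1 : Algebra.adjoin k {M.xbar}) ∈ I := by rw [htop]; trivial
  have := (hI 1).mp h1
  rwa [one_smul] at this

theorem chainA_Bbar_eq_intCl [IsAlgClosed k] (M : RedModel K k F Fk) (n : ℕ)
    (hdeg : DegData M n) (BD : BranchDataA M n)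
    (hL : LiftStepA M n BD) (hP : PointsStep M) : M.Bbar = intCl k M.xbar := by
  obtain ⟨bbar, hbasis, -⟩ := id hL
  exact le_antisymm (chain_Bbar_le_intCl M n bbar hbasis)
    (chainA_intCl_le_Bbar M n hdeg BD hL hP)

/-- `#pts(B̄, c̄)` is the fibre cardinality of the reduced curve, once `B̄` is normal. -/
theorem chainA_numPtsBbar_eq (M : RedModel K k F Fk) (heq : M.Bbar = intCl k M.xbar) (cbar : k) :
    numPtsBbar M cbar = fibreCard k M.xbar cbar := by
  unfold numPtsBbar fibreCard
  exact chain_card_eq heq M.xbar M.xbar_mem_Bbar cbar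

/-- **The discriminant chain for weak branch data** (finite part): (L) + (P) (+ ALG-1) imply
(NORM), (FIB) and (FIB=). -/
theorem discChainA_of_steps [IsAlgClosed k] (M : RedModel K k F Fk) (n : ℕ)
    (hdeg : DegData M n) (BD : BranchDataA M n)
    (hL : LiftStepA M n BD) (hP : PointsStep M) :
    NormalReduction M ∧ FibreBound M ∧ FibreEq M n BD := by
  have heq := chainA_Bbar_eq_intCl M n hdeg BD hL hP
  refine ⟨fun y hy => ?_, fun c hc => ?_, fun c hc hcS => ?_⟩
  · have : y ∈ M.Bbar := heq ▸ hy
    exact this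
  · rw [← chainA_numPtsBbar_eq M heq]
    exact hP c hc
  · rw [← chainA_numPtsBbar_eq M heq]
    exact (chainA_local_at M n hdeg BD hL hP c hc hcS).1

end

end Fermat.Agent.GoodRed
end MergeWrap_Lib_GoodRed_ChainA

section MergeWrap_Lib_GoodRed_LiftIndex -- from Lib/GoodRed/LiftIndex.lean

/-!
# Cluster B / GoodRed (L2): the index of a lifted basis has no root in `A`
Owner: helper27.  Blueprint: NOTES/blueprint-B-GoodRed.md, section 2 (L).

`indexNoRoot : DegData M n → (LB : LiftedBasis M n) → IndexNoRoot M n LB`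
(`K` algebraically closed of characteristic `0`).

Proof.  `β` = a `K[x]`-basis of the integral closure of `K[x]` in `F` (Mathlib: integral closure
of a PID in a finite separable extension is free of rank `n`), `b = P β`, `I = det P`,
`disc b = I ^ 2 disc β`.  If `I(c) = 0`, `c ∈ A`: a nonzero `a ∈ K ^ n` in the left kernel of
`P(c)`, scaled to `a ∈ A ^ n` with `a i₀ = 1`, gives `Σ a i b i = (x - c) f₀` with `f₀` integral
over `K[x]`; `x - c` is a unit of `O`, so `f₀ ∈ B₀` and `ρ f₀ = Σ g i b̄ i` with `g i ∈ k[x̄]`;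
comparing coefficients `(x̄ - c̄) g i₀ = 1` in `k[x̄]`, impossible.
-/

set_option autoImplicit false
set_option linter.style.haveILetI false
set_option linter.unusedVariables false
set_option linter.deprecated false

namespace Fermat.Agent.GoodRed

open Polynomial IntermediateField
open scoped IntermediateField.algebraAdjoinAdjoin

noncomputable section

variable {K k F Fk : Type} [Field K] [Field k] [Field F] [Field Fk] [Algebra K F] [Algebra k Fk]

/-- `gramDet` is Mathlib's discriminant. -/
theorem li_gramDet_eq_discr {Kx L : Type} [Field Kx] [Field L] [Algebra Kx L] {n : ℕ}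
    (b : Fin n → L) : gramDet Kx L b = Algebra.discr Kx b := rfl

/-- in a valuation ring: a nonzero vector can be scaled to have entries in `A`, one of them `1`. -/
theorem li_exists_max (A : ValuationSubring K) {n : ℕ} (a : Fin n → K) (ha : a ≠ 0) :
    ∃ i₀, a i₀ ≠ 0 ∧ ∀ i, a i / a i₀ ∈ A := by
  have hne : ∃ i, a i ≠ 0 := by
    by_contra h
    simp only [not_exists, not_not] at h
    exact ha (funext h)
  obtain ⟨i₁, hi₁⟩ := hne
  haveI : Nonempty (Fin n) := ⟨i₁⟩
  obtain ⟨i₀, -, hi₀⟩ := Finset.exists_max_image (Finset.univ : Finset (Fin n))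
    (fun i => A.valuation (a i)) ⟨i₁, Finset.mem_univ _⟩
  have h0 : a i₀ ≠ 0 := by
    intro h
    have h1 := hi₀ i₁ (Finset.mem_univ _)
    rw [h, map_zero] at h1
    have h2 : A.valuation (a i₁) ≠ 0 := (Valuation.ne_zero_iff _).mpr hi₁
    exact h2 (le_antisymm h1 zero_le')
  refine ⟨i₀, h0, fun i => ?_⟩
  rw [← A.valuation_le_one_iff, map_div₀]
  have h2 : A.valuation (a i₀) ≠ 0 := (Valuation.ne_zero_iff _).mpr h0
  rw [div_le_iff₀ (zero_lt_iff.mpr h2), one_mul]
  exact hi₀ i (Finset.mem_univ _)

/-- the generator of `K(x)`. -/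
abbrev li_gen (x : F) : K⟮x⟯ := ⟨x, mem_adjoin_simple_self K x⟩

theorem li_aeval_gen_coe (x : F) (p : Polynomial K) :
    ((Polynomial.aeval (li_gen (K := K) x) p : K⟮x⟯) : F) = Polynomial.aeval x p := by
  have : (Polynomial.aeval x p : F) = algebraMap K⟮x⟯ F (Polynomial.aeval (li_gen (K := K) x) p) := by
    rw [← Polynomial.aeval_algebraMap_apply]
    rfl
  rw [this]
  rfl

theorem li_aeval_gen_injective {x : F} (hx : Transcendental K x) :
    Function.Injective (Polynomial.aeval (R := K) (li_gen (K := K) x)) := by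
  intro p q hpq
  have h1 := congrArg (fun z : K⟮x⟯ => (z : F)) hpq
  simp only [li_aeval_gen_coe] at h1
  exact (transcendental_iff_injective.mp hx) h1

theorem li_aeval_mem_intCl (x : F) (p : Polynomial K) : Polynomial.aeval x p ∈ intCl K x := by
  have hxm : x ∈ intCl K x := by
    have h : (algebraMap (Algebra.adjoin K {x}) F) (genAdj x) ∈
        integralClosure (Algebra.adjoin K {x}) F := Subalgebra.algebraMap_mem _ _
    exact h
  rw [← Polynomial.aeval_subalgebra_coe p (intCl K x) ⟨x, hxm⟩]
  exact Subtype.property _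

/-- elements of the base ring as polynomials. -/
theorem li_exists_poly (x : F) (r : Algebra.adjoin K {x}) :
    ∃ p : Polynomial K, (r : F) = Polynomial.aeval x p := by
  obtain ⟨p, hp⟩ := Algebra.adjoin_mem_exists_aeval _ _ r.2
  exact ⟨p, hp.symm⟩


/-- `K[x]` is a principal ideal ring (`x` transcendental). -/
theorem li_isPrincipalIdealRing {x : F} (hx : Transcendental K x) :
    IsPrincipalIdealRing (Algebra.adjoin K {x}) :=
  IsPrincipalIdealRing.of_surjective
    (Polynomial.algEquivOfTranscendental K x hx).toAlgHom.toRingHom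
    (Polynomial.algEquivOfTranscendental K x hx).surjective

/-- A `K[x]`-basis of the integral closure of `K[x]` in `F`. -/
theorem li_exists_integral_basis {x : F} (hx : Transcendental K x) (n : ℕ)
    [FiniteDimensional K⟮x⟯ F] [Algebra.IsSeparable K⟮x⟯ F]
    (hn : Module.finrank K⟮x⟯ F = n) :
    ∃ β : Fin n → F, (∀ i, β i ∈ intCl K x) ∧ LinearIndependent K⟮x⟯ β ∧
      ∀ y ∈ intCl K x, ∃ c : Fin n → Algebra.adjoin K {x}, y = ∑ i, c i • β i := by
  classical
  have := li_isPrincipalIdealRing hx
  let R := Algebra.adjoin K {x}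
  let C := integralClosure R F
  have : Module.Free R C := IsIntegralClosure.module_free R K⟮x⟯ F C
  have : IsNoetherian R C := IsIntegralClosure.isNoetherian R K⟮x⟯ F C
  have : IsLocalization (Algebra.algebraMapSubmonoid C (nonZeroDivisors R)) F :=
    IsIntegralClosure.isLocalization R K⟮x⟯ F C
  let bC := Module.Free.chooseBasis R C
  let bF := Module.Basis.localizationLocalization K⟮x⟯ (nonZeroDivisors R) F bC
  have hcard : Fintype.card (Module.Free.ChooseBasisIndex R C) = n := by
    rw [← hn, Module.finrank_eq_card_basis bF]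
  let e : Module.Free.ChooseBasisIndex R C ≃ Fin n := Fintype.equivFinOfCardEq hcard
  refine ⟨fun i => (bC (e.symm i) : F), fun i => (bC (e.symm i)).2, ?_, ?_⟩
  · have h1 : LinearIndependent K⟮x⟯ bF := bF.linearIndependent
    have h2 : (fun i : Fin n => ((bC (e.symm i) : C) : F)) = bF ∘ e.symm := by
      funext i
      simp [bF, Module.Basis.localizationLocalization_apply]
    rw [h2]
    exact h1.comp _ e.symm.injective
  · intro y hy
    have hyC : y ∈ C := hy
    obtain ⟨z, rfl⟩ : ∃ z : C, (z : F) = y := ⟨⟨y, hyC⟩, rfl⟩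
    refine ⟨fun i => bC.repr z (e.symm i), ?_⟩
    have h3 := bC.sum_repr z
    have h4 : ((∑ i, (bC.repr z) i • bC i : C) : F) = (z : F) := congrArg Subtype.val h3
    rw [← e.symm.sum_comp] at h4
    rw [← h4]
    simp only [AddSubmonoidClass.coe_finset_sum]
    rfl


namespace RedModel

variable (M : RedModel K k F Fk)

/-- elements of `K` outside `A` do not lie in `O`. -/
theorem li_mem_A_of_mem_O {c : K} (h : algebraMap K F c ∈ M.O) : c ∈ M.A := by
  by_contra hc
  have hc0 : c ≠ 0 := fun h0 => hc (h0 ▸ M.A.zero_mem)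
  have hinv : c⁻¹ ∈ M.A := (M.A.mem_or_inv_mem c).resolve_left hc
  have hnu : ¬ IsUnit (⟨c⁻¹, hinv⟩ : M.A) := by
    intro hu
    obtain ⟨u, hu⟩ := hu
    apply hc
    have h1 : ((u⁻¹ : M.Aˣ) : M.A) * ⟨c⁻¹, hinv⟩ = 1 := by
      rw [← hu]; exact u.inv_mul
    have h2 : (((u⁻¹ : M.Aˣ) : M.A) : K) * c⁻¹ = 1 := by
      have := congrArg (Subtype.val) h1
      simpa using this
    have h3 : (((u⁻¹ : M.Aˣ) : M.A) : K) = c := by
      field_simp at h2
      exact h2
    rw [← h3]
    exact ((u⁻¹ : M.Aˣ) : M.A).2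
  have hres : M.res ⟨c⁻¹, hinv⟩ = 0 := (M.res_eq_zero _).mpr hnu
  have hrho : M.rho ⟨algebraMap K F ((⟨c⁻¹, hinv⟩ : M.A) : K), M.map_mem ⟨c⁻¹, hinv⟩⟩ = 0 := by
    rw [M.rho_map, hres, map_zero]
  have hnu' := (M.rho_eq_zero _).mp hrho
  apply hnu'
  refine isUnit_iff_exists_inv.mpr ⟨⟨algebraMap K F c, h⟩, ?_⟩
  apply Subtype.ext
  simp [hc0]

/-- the base parameter is transcendental over `K`. -/
theorem li_x_transcendental [IsAlgClosed K] : Transcendental K M.x := by
  intro halg
  have hmem : M.x ∈ Set.range (algebraMap K F) := by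
    have hint : IsIntegral K M.x := halg.isIntegral
    have hirr := minpoly.irreducible hint
    have hdeg := IsAlgClosed.degree_eq_one_of_irreducible K hirr
    exact minpoly.mem_range_of_degree_eq_one K M.x hdeg
  obtain ⟨c, hc⟩ := hmem
  have hcO : algebraMap K F c ∈ M.O := hc ▸ M.x_mem
  have hcA := M.li_mem_A_of_mem_O hcO
  apply M.x_trans
  have : M.rho ⟨M.x, M.x_mem⟩ = algebraMap k Fk (M.res ⟨c, hcA⟩) := by
    rw [← M.rho_map]
    congr 1
    apply Subtype.ext
    exact hc.symm
  rw [this]
  exact isAlgebraic_algebraMap _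

/-- `x - c` lies in `O` for `c ∈ A`. -/
theorem li_sub_mem (c : M.A) : M.x - algebraMap K F c ∈ M.O :=
  M.O.sub_mem M.x_mem (M.map_mem c)

/-- `x - c` is a unit of `O` for `c ∈ A`. -/
theorem li_isUnit_sub (c : M.A) : IsUnit (⟨M.x - algebraMap K F c, M.li_sub_mem c⟩ : M.O) := by
  by_contra hnu
  have h0 := (M.rho_eq_zero _).mpr hnu
  have h1 : M.rho ⟨M.x - algebraMap K F c, M.li_sub_mem c⟩ =
      M.rho ⟨M.x, M.x_mem⟩ - algebraMap k Fk (M.res c) := by
    rw [← M.rho_map, ← map_sub]
    rfl
  rw [h1, sub_eq_zero] at h0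
  apply M.x_trans
  rw [h0]
  exact isAlgebraic_algebraMap _

theorem li_rho_sub (c : M.A) : M.rho ⟨M.x - algebraMap K F c,
    M.O.sub_mem M.x_mem (M.map_mem c)⟩ = M.xbar - algebraMap k Fk (M.res c) := by
  rw [← M.rho_map, RedModel.xbar, ← map_sub]
  rfl

/-- the reduction of a linear combination with coefficients in `A`. -/
theorem li_rho_sum {n : ℕ} (a : Fin n → K) (ha : ∀ i, a i ∈ M.A) (b : Fin n → F)
    (hb : ∀ i, b i ∈ M.O) (hg : ∑ i, algebraMap K F (a i) * b i ∈ M.O) :
    M.rho ⟨∑ i, algebraMap K F (a i) * b i, hg⟩ =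
      ∑ i, algebraMap k Fk (M.res ⟨a i, ha i⟩) * M.rho ⟨b i, hb i⟩ := by
  have h1 : (⟨∑ i, algebraMap K F (a i) * b i, hg⟩ : M.O) =
      ∑ i, (⟨algebraMap K F (a i), M.map_mem ⟨a i, ha i⟩⟩ : M.O) * ⟨b i, hb i⟩ := by
    apply Subtype.ext
    simp
  rw [h1, map_sum]
  refine Finset.sum_congr rfl fun i _ => ?_
  rw [map_mul]
  congr 1
  exact M.rho_map ⟨a i, ha i⟩

end RedModel


/-- CORE of (L2): the determinant of the transition matrix has no root in `A`. -/
theorem li_eval_det_ne_zero (M : RedModel K k F Fk) (n : ℕ) (LB : LiftedBasis M n)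
    (β : Fin n → F) (hβ : ∀ i, β i ∈ intCl K M.x)
    (P : Matrix (Fin n) (Fin n) (Polynomial K))
    (hP : ∀ i, LB.b i = ∑ j, Polynomial.aeval M.x (P i j) * β j)
    (c : K) (hc : c ∈ M.A) : P.det.eval c ≠ 0 := by
  classical
  intro h0
  -- a nonzero vector in the left kernel of `P(c)`
  have hdet : (P.map (Polynomial.evalRingHom c)).det = 0 := by
    rw [← RingHom.mapMatrix_apply, ← RingHom.map_det]
    exact h0
  obtain ⟨a₀, ha₀, hker₀⟩ := Matrix.exists_vecMul_eq_zero_iff.mpr hdet
  -- scale it
  obtain ⟨i₀, hi₀, hA⟩ := li_exists_max M.A a₀ ha₀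
  let a : Fin n → K := fun i => a₀ i / a₀ i₀
  have haA : ∀ i, a i ∈ M.A := hA
  have hai₀ : a i₀ = 1 := div_self hi₀
  have hker : ∀ j, ∑ i, a i * (P i j).eval c = 0 := by
    intro j
    have := congrFun hker₀ j
    simp only [Matrix.vecMul, dotProduct, Matrix.map_apply, Polynomial.coe_evalRingHom,
      Pi.zero_apply] at this
    simp only [a, div_mul_eq_mul_div, ← Finset.sum_div, this, zero_div]
  -- the polynomials `r j`
  let r : Fin n → Polynomial K := fun j => ∑ i, Polynomial.C (a i) * P i j
  have hr : ∀ j, (r j).eval c = 0 := by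
    intro j
    simp only [r, Polynomial.eval_finsetSum, Polynomial.eval_mul, Polynomial.eval_C]
    exact hker j
  have hq : ∀ j, ∃ q : Polynomial K, r j = (Polynomial.X - Polynomial.C c) * q := by
    intro j
    exact Polynomial.dvd_iff_isRoot.mpr (hr j)
  choose q hq using hq
  -- the element `g`
  have hgsum : ∑ i, algebraMap K F (a i) * LB.b i =
      (M.x - algebraMap K F c) * ∑ j, Polynomial.aeval M.x (q j) * β j := by
    calc ∑ i, algebraMap K F (a i) * LB.b i
        = ∑ i, ∑ j, algebraMap K F (a i) * (Polynomial.aeval M.x (P i j) * β j) := by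
          refine Finset.sum_congr rfl fun i _ => ?_
          rw [hP i, Finset.mul_sum]
      _ = ∑ j, ∑ i, algebraMap K F (a i) * (Polynomial.aeval M.x (P i j) * β j) :=
          Finset.sum_comm
      _ = ∑ j, Polynomial.aeval M.x (r j) * β j := by
          refine Finset.sum_congr rfl fun j _ => ?_
          simp only [r, map_sum, map_mul, Polynomial.aeval_C, Finset.sum_mul, mul_assoc]
      _ = ∑ j, (M.x - algebraMap K F c) * (Polynomial.aeval M.x (q j) * β j) := by
          refine Finset.sum_congr rfl fun j _ => ?_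
          rw [hq j, map_mul, map_sub, Polynomial.aeval_X, Polynomial.aeval_C, mul_assoc]
      _ = _ := by rw [Finset.mul_sum]
  set f₀ : F := ∑ j, Polynomial.aeval M.x (q j) * β j with hf₀
  have hf₀int : f₀ ∈ intCl K M.x :=
    Subalgebra.sum_mem _ fun j _ => Subalgebra.mul_mem _ (li_aeval_mem_intCl M.x (q j)) (hβ j)
  have hgO : ∑ i, algebraMap K F (a i) * LB.b i ∈ M.O :=
    Subring.sum_mem M.O.toSubring fun i _ =>
      M.O.mul_mem _ _ (M.map_mem ⟨a i, haA i⟩) (LB.mem_O i)
  -- `f₀ ∈ O`
  obtain ⟨u, hu⟩ := M.li_isUnit_sub ⟨c, hc⟩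
  have hxc : M.x - algebraMap K F c ≠ 0 := by
    intro h
    have h1 := M.li_rho_sub ⟨c, hc⟩
    have h2 : (⟨M.x - algebraMap K F ((⟨c, hc⟩ : M.A) : K),
        M.O.sub_mem M.x_mem (M.map_mem ⟨c, hc⟩)⟩ : M.O) = 0 := Subtype.ext h
    rw [h2, map_zero] at h1
    apply M.x_trans
    have h3 : M.rho ⟨M.x, M.x_mem⟩ = algebraMap k Fk (M.res ⟨c, hc⟩) := by
      have := sub_eq_zero.mp h1.symm
      exact this
    rw [h3]
    exact isAlgebraic_algebraMap _
  have hf₀eq : ((⟨_, hgO⟩ * ((u⁻¹ : (M.O)ˣ) : M.O) : M.O) : F) = f₀ := by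
    have h1 : (((u⁻¹ : (M.O)ˣ) : M.O) : F) * (M.x - algebraMap K F c) = 1 := by
      have h2 : ((u⁻¹ : (M.O)ˣ) : M.O) * (u : M.O) = 1 := u.inv_mul
      rw [hu] at h2
      exact congrArg Subtype.val h2
    show (∑ i, algebraMap K F (a i) * LB.b i) * (((u⁻¹ : (M.O)ˣ) : M.O) : F) = f₀
    rw [hgsum]
    calc (M.x - algebraMap K F c) * f₀ * (((u⁻¹ : (M.O)ˣ) : M.O) : F)
        = f₀ * ((((u⁻¹ : (M.O)ˣ) : M.O) : F) * (M.x - algebraMap K F c)) := by ring
      _ = f₀ := by rw [h1, mul_one]
  have hf₀O : f₀ ∈ M.O := hf₀eq ▸ Subtype.property _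
  -- reduce
  have hmemB : M.rho ⟨f₀, hf₀O⟩ ∈ M.Bbar := ⟨⟨f₀, hf₀O⟩, hf₀int, rfl⟩
  obtain ⟨gc, hgc⟩ := LB.basis.span _ hmemB
  have hred : M.rho ⟨_, hgO⟩ = (M.xbar - algebraMap k Fk (M.res ⟨c, hc⟩)) * M.rho ⟨f₀, hf₀O⟩ := by
    rw [← M.li_rho_sub ⟨c, hc⟩, ← map_mul]
    congr 1
    apply Subtype.ext
    exact hgsum
  rw [M.li_rho_sum a haA LB.b LB.mem_O hgO, hgc] at hred
  -- compare coefficients
  have hind := LB.basis.indep
  rw [Fintype.linearIndependent_iff] at hind
  let coef : Fin n → k⟮M.xbar⟯ := fun i =>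
    algebraMap k k⟮M.xbar⟯ (M.res ⟨a i, haA i⟩) -
      ((⟨M.xbar, mem_adjoin_simple_self k M.xbar⟩ : k⟮M.xbar⟯) -
        algebraMap k k⟮M.xbar⟯ (M.res ⟨c, hc⟩)) * algebraMap _ k⟮M.xbar⟯ (gc i)
  have hsum : ∑ i, coef i • M.rho ⟨LB.b i, LB.mem_O i⟩ = 0 := by
    have h1 : ∀ i, coef i • M.rho ⟨LB.b i, LB.mem_O i⟩ =
        algebraMap k Fk (M.res ⟨a i, haA i⟩) * M.rho ⟨LB.b i, LB.mem_O i⟩ -
          (M.xbar - algebraMap k Fk (M.res ⟨c, hc⟩)) *
            (gc i • M.rho ⟨LB.b i, LB.mem_O i⟩) := by
      intro i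
      have e1 : ∀ z : k, algebraMap k⟮M.xbar⟯ Fk (algebraMap k k⟮M.xbar⟯ z) = algebraMap k Fk z :=
        fun z => rfl
      have e2 : algebraMap k⟮M.xbar⟯ Fk (⟨M.xbar, mem_adjoin_simple_self k M.xbar⟩ : k⟮M.xbar⟯) =
          M.xbar := rfl
      have e3 : algebraMap k⟮M.xbar⟯ Fk (algebraMap _ k⟮M.xbar⟯ (gc i)) = ((gc i : Fk)) := rfl
      have e4 : gc i • M.rho ⟨LB.b i, LB.mem_O i⟩ = (gc i : Fk) * M.rho ⟨LB.b i, LB.mem_O i⟩ :=
        rfl
      rw [Algebra.smul_def, e4]
      simp only [coef, map_sub, map_mul, e1, e2, e3]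
      ring
    simp only [h1, Finset.sum_sub_distrib, ← Finset.mul_sum]
    rw [hred, sub_self]
  have hi₀' := hind coef hsum i₀
  have h1 : algebraMap k⟮M.xbar⟯ Fk (coef i₀) = 0 := by rw [hi₀', map_zero]
  obtain ⟨p, hp⟩ := li_exists_poly M.xbar (gc i₀)
  have h2 : algebraMap k⟮M.xbar⟯ Fk (coef i₀) =
      Polynomial.aeval M.xbar (1 - (Polynomial.X - Polynomial.C (M.res ⟨c, hc⟩)) * p) := by
    have h3 : M.res ⟨a i₀, haA i₀⟩ = 1 := by
      have : (⟨a i₀, haA i₀⟩ : M.A) = 1 := Subtype.ext hai₀
      rw [this, map_one]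
    have e1 : ∀ z : k, algebraMap k⟮M.xbar⟯ Fk (algebraMap k k⟮M.xbar⟯ z) = algebraMap k Fk z :=
      fun z => rfl
    have e2 : algebraMap k⟮M.xbar⟯ Fk (⟨M.xbar, mem_adjoin_simple_self k M.xbar⟩ : k⟮M.xbar⟯) =
        M.xbar := rfl
    have e3 : algebraMap k⟮M.xbar⟯ Fk (algebraMap _ k⟮M.xbar⟯ (gc i₀)) = ((gc i₀ : Fk)) := rfl
    simp only [coef, map_sub, map_mul, Polynomial.aeval_X, Polynomial.aeval_C, map_one, ← hp,
      e1, e2, e3, h3]
  rw [h2] at h1
  have h4 := (transcendental_iff_injective.mp M.x_trans) (h1.trans (map_zero _).symm)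
  have h5 := congrArg (Polynomial.eval (M.res ⟨c, hc⟩)) h4
  simp at h5


/-- the Gram determinant of integral elements is a polynomial in `x`. -/
theorem li_exists_gram_poly {x : F} (hx : Transcendental K x) (n : ℕ)
    [FiniteDimensional K⟮x⟯ F] [Algebra.IsSeparable K⟮x⟯ F]
    (β : Fin n → F) (hβ : ∀ i, β i ∈ intCl K x) :
    ∃ dK : Polynomial K, Polynomial.aeval (li_gen (K := K) x) dK = gramDet K⟮x⟯ F β := by
  have := li_isPrincipalIdealRing hx
  have hint : IsIntegral (Algebra.adjoin K {x}) (Algebra.discr K⟮x⟯ β) :=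
    Algebra.discr_isIntegral K⟮x⟯ (fun i => hβ i)
  obtain ⟨d, hd⟩ := IsIntegrallyClosed.isIntegral_iff.mp hint
  obtain ⟨p, hp⟩ := li_exists_poly x d
  refine ⟨p, ?_⟩
  apply Subtype.ext
  rw [li_aeval_gen_coe, ← hp]
  show (d : F) = ((Algebra.discr K⟮x⟯ β : K⟮x⟯) : F)
  rw [← hd]
  rfl

/-- **(L2) the index has no root in `A`.** -/
theorem indexNoRoot [IsAlgClosed K] [CharZero K] (M : RedModel K k F Fk) (n : ℕ)
    (hdeg : DegData M n) (LB : LiftedBasis M n) : IndexNoRoot M n LB := by
  classical
  have hx : Transcendental K M.x := M.li_x_transcendental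
  have hfd : FiniteDimensional K⟮M.x⟯ F :=
    Module.finite_of_finrank_pos (by rw [hdeg.deg]; exact hdeg.pos)
  have hcz : CharZero K⟮M.x⟯ := charZero_of_injective_algebraMap (algebraMap K K⟮M.x⟯).injective
  have hsep : Algebra.IsSeparable K⟮M.x⟯ F := inferInstance
  obtain ⟨β, hβ, hβind, hβspan⟩ := li_exists_integral_basis hx n hdeg.deg
  obtain ⟨dK, hdK⟩ := li_exists_gram_poly hx n β hβ
  -- transition matrix
  have hP : ∀ i, ∃ p : Fin n → Polynomial K, LB.b i = ∑ j, Polynomial.aeval M.x (p j) * β j := by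
    intro i
    obtain ⟨c, hc⟩ := hβspan (LB.b i) (LB.mem_int i)
    have hc' : ∀ j, ∃ p : Polynomial K, (c j : F) = Polynomial.aeval M.x p :=
      fun j => li_exists_poly M.x (c j)
    choose p hp using hc'
    refine ⟨p, ?_⟩
    rw [hc]
    refine Finset.sum_congr rfl fun j _ => ?_
    rw [← hp j]
    rfl
  choose P hP using hP
  let PM : Matrix (Fin n) (Fin n) (Polynomial K) := Matrix.of P
  have hPM : ∀ i, LB.b i = ∑ j, Polynomial.aeval M.x (PM i j) * β j := hP
  refine ⟨β, PM.det, dK, hβ, hβind, hβspan, hdK, ?_, ?_⟩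
  · apply li_aeval_gen_injective hx
    have h1 : Polynomial.aeval (li_gen (K := K) M.x) (LB.D.map M.A.subtype) =
        gramDet K⟮M.x⟯ F LB.b := by
      rw [← LB.D_gram]
      rfl
    rw [h1, map_mul, map_pow, hdK]
    -- discriminant of a transformed family
    let P' : Matrix (Fin n) (Fin n) K⟮M.x⟯ :=
      PM.map (Polynomial.aeval (li_gen (K := K) M.x))
    have h2 : LB.b = (P'.map (algebraMap K⟮M.x⟯ F)).mulVec β := by
      funext i
      rw [hPM i]
      simp only [Matrix.mulVec, dotProduct, Matrix.map_apply, P']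
      refine Finset.sum_congr rfl fun j _ => ?_
      congr 1
      exact (li_aeval_gen_coe M.x (PM i j)).symm
    have h3 : P'.det = Polynomial.aeval (li_gen (K := K) M.x) PM.det := by
      have := RingHom.map_det (Polynomial.aeval (R := K) (li_gen (K := K) M.x)).toRingHom PM
      exact this.symm
    have h4 := Algebra.discr_of_matrix_mulVec (A := K⟮M.x⟯) β P'
    show Algebra.discr K⟮M.x⟯ LB.b = _
    rw [h2, h4, h3]
    rfl
  · intro c hc
    exact li_eval_det_ne_zero M n LB β hβ PM hPM c hc


end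

end Fermat.Agent.GoodRed
end MergeWrap_Lib_GoodRed_LiftIndex

section MergeWrap_Lib_GoodRed_RootsRed -- from Lib/GoodRed/RootsRed.lean

/-!
# Cluster B / GoodRed, step (L3): roots of a polynomial over a valuation ring and its reduction
(helper7).  Pure algebra.

`A` a valuation subring of an algebraically closed field `K`, `res : A → k` a ring homomorphism
whose kernel is the set of non-units.  For `D ∈ A[X]` with `D̄ := D.map res ≠ 0`:
the multiplicity of `c̄` as a root of `D̄` is the number of roots `r ∈ A` of `D`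
(counted with multiplicity) with `res r = c̄`.
-/

set_option autoImplicit false

namespace Fermat.Agent.GoodRed

open Polynomial

noncomputable section

variable {K k : Type} [Field K] [Field k] (A : ValuationSubring K) (res : A →+* k)

/-- division by `1 - s X` stays in `A[X]`. -/
theorem exists_of_one_sub_mul (D : A[X]) (s : A) (Q : K[X])
    (h : D.map A.subtype = (1 - C (s : K) * X) * Q) : ∃ D' : A[X], D'.map A.subtype = Q := by
  have hcoef : ∀ n, Q.coeff n ∈ Set.range A.subtype := by
    intro n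
    induction n with
    | zero =>
      have h0 := congrArg (fun p => p.coeff 0) h
      simp only [coeff_map, sub_mul, one_mul, coeff_sub, mul_assoc, coeff_C_mul,
        coeff_X_mul_zero, mul_zero, sub_zero] at h0
      exact ⟨D.coeff 0, h0⟩
    | succ n ih =>
      obtain ⟨a, ha⟩ := ih
      have h1 := congrArg (fun p => p.coeff (n + 1)) h
      simp only [coeff_map, sub_mul, one_mul, coeff_sub, mul_assoc, coeff_C_mul,
        coeff_X_mul] at h1
      refine ⟨D.coeff (n + 1) + s * a, ?_⟩
      rw [map_add, map_mul, ha, h1]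
      simp
  exact (Polynomial.lifts_iff_coeff_lifts Q).mpr hcoef

variable {A res}

theorem map_subtype_injective : Function.Injective (Polynomial.map (A.subtype : A →+* K)) :=
  Polynomial.map_injective _ Subtype.val_injective

open Classical in
/-- **(L3)**, multiset form, by induction on the degree. -/
theorem rootMultiplicity_map_res_aux [IsAlgClosed K] (hres : ∀ a : A, res a = 0 ↔ ¬ IsUnit a) :
    ∀ (n : ℕ) (D : A[X]), D.natDegree = n → D.map res ≠ 0 → ∀ cbar : k,
      (D.map res).rootMultiplicity cbar =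
        Multiset.card (D.roots.filter fun r => res r = cbar) := by
  intro n
  induction n with
  | zero =>
    intro D hD hDbar cbar
    obtain ⟨a, rfl⟩ : ∃ a, D = C a := ⟨_, Polynomial.eq_C_of_natDegree_eq_zero hD⟩
    rw [Polynomial.map_C, Polynomial.rootMultiplicity_C, Polynomial.roots_C]
    simp
  | succ n ih =>
    intro D hD hDbar cbar
    have hD0 : D ≠ 0 := by
      rintro rfl
      simp at hD
    have hDK : (D.map A.subtype).degree ≠ 0 := by
      rw [Polynomial.degree_map_eq_of_injective Subtype.val_injective,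
        Polynomial.degree_eq_natDegree hD0, hD]
      exact_mod_cast Nat.succ_ne_zero n
    obtain ⟨ρ, hρ⟩ := IsAlgClosed.exists_root (D.map A.subtype) hDK
    by_cases hρA : ρ ∈ A
    · -- a root in `A`
      have hroot : D.IsRoot ⟨ρ, hρA⟩ := by
        rw [Polynomial.IsRoot.def]
        apply Subtype.val_injective
        have := hρ
        rw [Polynomial.IsRoot.def, Polynomial.eval_map] at this
        have h2 : A.subtype (D.eval ⟨ρ, hρA⟩) = D.eval₂ A.subtype ρ := by
          rw [Polynomial.eval, Polynomial.hom_eval₂, RingHom.comp_id]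
          rfl
        show A.subtype (D.eval ⟨ρ, hρA⟩) = A.subtype 0
        rw [h2, this, map_zero]
      obtain ⟨D', hD'⟩ := Polynomial.dvd_iff_isRoot.mpr hroot
      have hD'0 : D' ≠ 0 := by
        rintro rfl
        rw [mul_zero] at hD'
        exact hD0 hD'
      have hdeg : D'.natDegree = n := by
        have := congrArg Polynomial.natDegree hD'
        rw [Polynomial.natDegree_mul (Polynomial.X_sub_C_ne_zero _) hD'0,
          Polynomial.natDegree_X_sub_C, hD] at this
        omega
      have hmap : D.map res = (X - C (res ⟨ρ, hρA⟩)) * D'.map res := by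
        rw [hD', Polynomial.map_mul, Polynomial.map_sub, Polynomial.map_X, Polynomial.map_C]
      have hD'bar : D'.map res ≠ 0 := by
        intro h0
        rw [hmap, h0, mul_zero] at hDbar
        exact hDbar rfl
      have ih' := ih D' hdeg hD'bar cbar
      have hne : (X - C (res ⟨ρ, hρA⟩)) * D'.map res ≠ 0 := by
        rw [← hmap]
        exact hDbar
      rw [hmap, Polynomial.rootMultiplicity_mul hne, ih', Polynomial.rootMultiplicity_X_sub_C]
      have hroots : D.roots = {(⟨ρ, hρA⟩ : A)} + D'.roots := by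
        conv_lhs => rw [hD']
        rw [Polynomial.roots_mul (by rw [← hD']; exact hD0), Polynomial.roots_X_sub_C]
      rw [hroots, Multiset.filter_add, Multiset.card_add, Multiset.filter_singleton]
      by_cases hc : res ⟨ρ, hρA⟩ = cbar
      · rw [if_pos hc.symm, if_pos hc]
        simp
      · rw [if_neg (fun h => hc h.symm), if_neg hc]
        simp
    · -- a root outside `A`
      have hρ0 : ρ ≠ 0 := by
        rintro rfl
        exact hρA (zero_mem _)
      have hsA : ρ⁻¹ ∈ A := (A.mem_or_inv_mem ρ).resolve_left hρA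
      set s : A := ⟨ρ⁻¹, hsA⟩ with hs
      have hsnu : ¬ IsUnit s := by
        intro hu
        obtain ⟨t, ht⟩ := isUnit_iff_exists_inv.mp hu
        have h1 : ρ⁻¹ * (t : K) = 1 := by
          have := congrArg Subtype.val ht
          simpa using this
        have h2 : (t : K) = ρ := by
          field_simp at h1
          exact h1
        exact hρA (h2 ▸ t.2)
      have hress : res s = 0 := (hres s).mpr hsnu
      obtain ⟨Q, hQ⟩ := Polynomial.dvd_iff_isRoot.mpr hρ
      have hfac : D.map A.subtype = (1 - C ((s : A) : K) * X) * (C (-ρ) * Q) := by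
        rw [hQ]
        have : (X - C ρ : K[X]) = (1 - C ((s : A) : K) * X) * C (-ρ) := by
          have h1 : ((s : A) : K) = ρ⁻¹ := rfl
          rw [h1, sub_mul, one_mul, mul_assoc, mul_comm X (C (-ρ)), ← mul_assoc, ← C_mul,
            mul_neg, inv_mul_cancel₀ hρ0]
          simp only [C_neg, C_1, neg_mul, one_mul, sub_neg_eq_add]
          ring
        rw [this, mul_assoc]
      obtain ⟨D', hD'⟩ := exists_of_one_sub_mul A D s (C (-ρ) * Q) hfac
      set U : A[X] := 1 - C s * X with hU
      have hUmap : U.map A.subtype = 1 - C ((s : A) : K) * X := by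
        rw [hU, Polynomial.map_sub, Polynomial.map_one, Polynomial.map_mul, Polynomial.map_C,
          Polynomial.map_X]
        rfl
      have hDU : D = U * D' := by
        apply map_subtype_injective
        rw [Polynomial.map_mul, hUmap, hD', hfac]
      have hs0 : s ≠ 0 := by
        intro h0
        have : ρ⁻¹ = 0 := congrArg Subtype.val h0
        exact inv_ne_zero hρ0 this
      have hU0 : U ≠ 0 := by
        intro h0
        rw [hDU, h0, zero_mul] at hD0
        exact hD0 rfl
      have hD'0 : D' ≠ 0 := by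
        rintro rfl
        rw [mul_zero] at hDU
        exact hD0 hDU
      have hUdeg : U.natDegree = 1 := by
        have h1 : U = C (-s) * X + C 1 := by
          rw [hU]
          simp only [C_neg, C_1]
          ring
        rw [h1]
        exact Polynomial.natDegree_linear (neg_ne_zero.mpr hs0)
      have hdeg : D'.natDegree = n := by
        have := congrArg Polynomial.natDegree hDU
        rw [Polynomial.natDegree_mul hU0 hD'0, hUdeg, hD] at this
        omega
      have hUbar : U.map res = 1 := by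
        rw [hU, Polynomial.map_sub, Polynomial.map_one, Polynomial.map_mul, Polynomial.map_C,
          hress]
        simp
      have hmap : D.map res = D'.map res := by
        rw [hDU, Polynomial.map_mul, hUbar, one_mul]
      have hUroots : U.roots = 0 := by
        apply Multiset.eq_zero_of_forall_notMem
        intro r hr
        rw [Polynomial.mem_roots hU0, Polynomial.IsRoot.def, hU] at hr
        simp only [eval_sub, eval_one, eval_mul, eval_C, eval_X] at hr
        apply hsnu
        exact isUnit_iff_exists_inv.mpr ⟨r, (sub_eq_zero.mp hr).symm⟩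
      have hroots : D.roots = D'.roots := by
        conv_lhs => rw [hDU]
        rw [Polynomial.roots_mul (by rw [← hDU]; exact hD0), hUroots, zero_add]
      rw [hmap, hroots]
      exact ih D' hdeg (by rw [← hmap]; exact hDbar) cbar

open Classical in
/-- **(L3)**, multiset form: the multiplicity of `c̄` in the reduction is the number of roots in
`A` (with multiplicity) reducing to `c̄`. -/
theorem rootMultiplicity_map_res [IsAlgClosed K] (hres : ∀ a : A, res a = 0 ↔ ¬ IsUnit a)
    (D : A[X]) (hD : D.map res ≠ 0) (cbar : k) :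
    (D.map res).rootMultiplicity cbar =
      Multiset.card (D.roots.filter fun r => res r = cbar) :=
  rootMultiplicity_map_res_aux hres _ D rfl hD cbar

open Classical in
/-- **(L3)**, sum form. -/
theorem rootMultiplicity_map_res_eq_sum [IsAlgClosed K] (hres : ∀ a : A, res a = 0 ↔ ¬ IsUnit a)
    (D : A[X]) (hD : D.map res ≠ 0) (cbar : k) :
    (D.map res).rootMultiplicity cbar =
      ∑ r ∈ D.roots.toFinset.filter (fun r => res r = cbar), D.rootMultiplicity r := by
  rw [rootMultiplicity_map_res hres D hD cbar, ← Multiset.toFinset_sum_count_eq,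
    Multiset.toFinset_filter]
  refine Finset.sum_congr rfl fun r hr => ?_
  rw [Finset.mem_filter] at hr
  rw [Multiset.count_filter, if_pos hr.2, Polynomial.count_roots]

/-- consequence: if no root of `D` in `A` reduces to `c̄`, then `c̄` is not a root of `D̄`. -/
theorem not_isRoot_map_res [IsAlgClosed K] (hres : ∀ a : A, res a = 0 ↔ ¬ IsUnit a)
    (D : A[X]) (hD : D.map res ≠ 0) (cbar : k)
    (h : ∀ r : A, D.IsRoot r → res r ≠ cbar) : ¬ (D.map res).IsRoot cbar := by
  classical
  intro hroot
  have h1 : 0 < (D.map res).rootMultiplicity cbar :=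
    (Polynomial.rootMultiplicity_pos hD).mpr hroot
  rw [rootMultiplicity_map_res hres D hD cbar] at h1
  obtain ⟨r, hr⟩ := Multiset.card_pos_iff_exists_mem.mp h1
  rw [Multiset.mem_filter] at hr
  have hD0 : D ≠ 0 := by
    rintro rfl
    simp at hD
  exact h r ((Polynomial.mem_roots hD0).mp hr.1) hr.2

end

end Fermat.Agent.GoodRed
end MergeWrap_Lib_GoodRed_RootsRed

section MergeWrap_Lib_GoodRed_LiftEval -- from Lib/GoodRed/LiftEval.lean

/-!
# Cluster B / GoodRed: bridging lemmas for (L4): evaluation at `x = c` on `K[x] = Algebra.adjoin K {x}` (helper21)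

Bridging lemmas used by the assembly steps (L4), (C) of the discriminant chain:

* `RedModel.x_transcendental` : the base parameter `x` is transcendental over `K`;
* `l4_evalAt K x hx c : Algebra.adjoin K {x} →+* K`, the evaluation at `x = c`, with
  `l4_isEvalAt_evalAt`, `l4_evalAt_surjective`, `l4_ker_evalAt : ker = span {piAt K x c}`;
* `l4_polyEquiv`-transport of divisibility: `l4_piAt_pow_dvd_iff`;
* `l4_numPts_integralClosure_eq_fibreCard` : the number of points of ALG-1/ALG-2 for the integral
  closure of `K[x]` and the evaluation at `c` is `fibreCard K x c`.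
-/

set_option autoImplicit false

namespace Fermat.Agent.GoodRed

open Polynomial IntermediateField
open scoped IntermediateField.algebraAdjoinAdjoin

noncomputable section

variable {K k F Fk : Type} [Field K] [Field k] [Field F] [Field Fk] [Algebra K F] [Algebra k Fk]

/-! ### scaling a polynomial into `A[X]` with a coefficient `1` -/

/-- Every nonzero polynomial over `K` is a constant times a polynomial over the valuation ring
`A` one of whose coefficients is `1`. -/
theorem l4_exists_scale_polynomial (A : ValuationSubring K) (P : K[X]) (hP : P ≠ 0) :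
    ∃ (a : K) (Q : A[X]), a ≠ 0 ∧ P = C a * Q.map A.subtype ∧ ∃ j, Q.coeff j = 1 := by
  classical
  have hne : P.support.Nonempty := by
    rw [Finset.nonempty_iff_ne_empty, Ne, Polynomial.support_eq_empty]
    exact hP
  obtain ⟨j, hj, hmax⟩ := Finset.exists_max_image P.support
    (fun i => A.valuation (P.coeff i)) hne
  have ha : P.coeff j ≠ 0 := Polynomial.mem_support_iff.mp hj
  have hcoef : ∀ i, (C (P.coeff j)⁻¹ * P).coeff i ∈ Set.range A.subtype := by
    intro i
    rw [Polynomial.coeff_C_mul]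
    by_cases hi : i ∈ P.support
    · have h1 : A.valuation ((P.coeff j)⁻¹ * P.coeff i) ≤ 1 := by
        rw [map_mul, map_inv₀]
        have h2 := hmax i hi
        have h3 : A.valuation (P.coeff j) ≠ 0 := by
          rw [Ne, map_eq_zero]
          exact ha
        calc (A.valuation (P.coeff j))⁻¹ * A.valuation (P.coeff i)
            ≤ (A.valuation (P.coeff j))⁻¹ * A.valuation (P.coeff j) :=
              mul_le_mul_right h2 _
          _ = 1 := inv_mul_cancel₀ h3
      exact ⟨⟨_, (A.valuation_le_one_iff _).mp h1⟩, rfl⟩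
    · rw [Polynomial.notMem_support_iff.mp hi, mul_zero]
      exact ⟨0, rfl⟩
  obtain ⟨Q, hQ⟩ := (Polynomial.lifts_iff_coeff_lifts _).mpr hcoef
  refine ⟨P.coeff j, Q, ha, ?_, j, ?_⟩
  · have hQ' : Q.map A.subtype = C (P.coeff j)⁻¹ * P := hQ
    rw [hQ', ← mul_assoc, ← C_mul, mul_inv_cancel₀ ha, C_1, one_mul]
  · apply Subtype.val_injective
    have h1 := congrArg (fun p => p.coeff j) (show Q.map A.subtype = C (P.coeff j)⁻¹ * P from hQ)
    simp only [Polynomial.coeff_map, Polynomial.coeff_C_mul] at h1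
    rw [inv_mul_cancel₀ ha] at h1
    exact h1

/-! ### the evaluation `A[X] → O`, `X ↦ x`, and transcendence of `x` -/

namespace RedModel

variable (M : RedModel K k F Fk)

/-- the inclusion `A → O`. -/
def l4_inclAO : M.A →+* M.O where
  toFun a := ⟨algebraMap K F a, M.map_mem a⟩
  map_one' := Subtype.ext (by simp)
  map_mul' a b := Subtype.ext (by simp)
  map_zero' := Subtype.ext (by simp)
  map_add' a b := Subtype.ext (by simp)

@[simp] theorem l4_coe_inclAO (a : M.A) : ((M.l4_inclAO a : M.O) : F) = algebraMap K F a := rfl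

theorem l4_rho_inclAO (a : M.A) : M.rho (M.l4_inclAO a) = algebraMap k Fk (M.res a) := M.rho_map a

/-- the evaluation `A[X] → O`, `X ↦ x`. -/
def l4_evO : Polynomial M.A →+* M.O := Polynomial.eval₂RingHom M.l4_inclAO ⟨M.x, M.x_mem⟩

theorem l4_coe_evO (P : Polynomial M.A) :
    ((M.l4_evO P : M.O) : F) = Polynomial.aeval M.x (P.map M.A.subtype) := by
  have h : (M.O.subtype.comp M.l4_evO) =
      ((Polynomial.aeval M.x : K[X] →ₐ[K] F).toRingHom.comp
        (Polynomial.mapRingHom M.A.subtype)) := by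
    apply Polynomial.ringHom_ext
    · intro a
      simp [l4_evO]
    · simp [l4_evO]
  exact congrArg (fun f => f P) h

theorem l4_rho_evO (P : Polynomial M.A) :
    M.rho (M.l4_evO P) = Polynomial.aeval M.xbar (P.map M.res) := by
  have h : (M.rho.comp M.l4_evO) =
      ((Polynomial.aeval M.xbar : k[X] →ₐ[k] Fk).toRingHom.comp
        (Polynomial.mapRingHom M.res)) := by
    apply Polynomial.ringHom_ext
    · intro a
      simp [l4_evO, l4_rho_inclAO]
    · simp [l4_evO, xbar]
  exact congrArg (fun f => f P) h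

/-- The base parameter `x` is transcendental over `K`. -/
theorem l4_x_transcendental : Transcendental K M.x := by
  intro halg
  obtain ⟨P, hP0, hP⟩ := halg
  obtain ⟨a, Q, ha, hPQ, j, hj⟩ := l4_exists_scale_polynomial M.A P hP0
  have h1 : Polynomial.aeval M.x (Q.map M.A.subtype) = 0 := by
    rw [hPQ, map_mul, Polynomial.aeval_C] at hP
    rcases mul_eq_zero.mp hP with h | h
    · exact absurd ((map_eq_zero_iff _ (algebraMap K F).injective).mp h) ha
    · exact h
  have h2 : M.l4_evO Q = 0 := Subtype.ext (by rw [l4_coe_evO, h1]; rfl)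
  have h3 : Polynomial.aeval M.xbar (Q.map M.res) = 0 := by
    rw [← l4_rho_evO, h2, map_zero]
  have h4 : Q.map M.res = 0 := by
    by_contra hne
    exact M.x_trans ⟨_, hne, h3⟩
  have h5 := congrArg (fun p => p.coeff j) h4
  simp only [Polynomial.coeff_map, hj, map_one, Polynomial.coeff_zero] at h5
  exact one_ne_zero h5

theorem l4_xbar_transcendental : Transcendental k M.xbar := M.x_trans

end RedModel

/-! ### evaluation at `x = c` on `K[x]` -/

section EvalAt

variable (K) in
/-- the isomorphism `K[X] ≃ K[x]` for a transcendental `x`. -/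
def l4_polyEquiv (x : F) (hx : Transcendental K x) : K[X] ≃ₐ[K] Algebra.adjoin K {x} :=
  Polynomial.algEquivOfTranscendental K x hx

theorem l4_coe_polyEquiv (x : F) (hx : Transcendental K x) (P : K[X]) :
    ((l4_polyEquiv K x hx P : Algebra.adjoin K {x}) : F) = Polynomial.aeval x P := by
  simp [l4_polyEquiv, Polynomial.algEquivOfTranscendental_apply]

theorem l4_polyEquiv_X (x : F) (hx : Transcendental K x) : l4_polyEquiv K x hx X = genAdj x :=
  Subtype.ext (by rw [l4_coe_polyEquiv]; simp [genAdj])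

theorem l4_polyEquiv_C (x : F) (hx : Transcendental K x) (a : K) :
    l4_polyEquiv K x hx (C a) = algebraMap K (Algebra.adjoin K {x}) a :=
  Subtype.ext (by rw [l4_coe_polyEquiv]; simp)

theorem l4_polyEquiv_X_sub_C (x : F) (hx : Transcendental K x) (c : K) :
    l4_polyEquiv K x hx (X - C c) = piAt K x c := by
  rw [map_sub, l4_polyEquiv_X, l4_polyEquiv_C]
  rfl

/-- transport of divisibility by powers of `x - c`. -/
theorem l4_piAt_pow_dvd_iff (x : F) (hx : Transcendental K x) (c : K) (m : ℕ) (P : K[X]) :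
    piAt K x c ^ m ∣ l4_polyEquiv K x hx P ↔ (X - C c) ^ m ∣ P := by
  rw [← l4_polyEquiv_X_sub_C x hx c, ← map_pow]
  exact map_dvd_iff (l4_polyEquiv K x hx)

/-- the image of a polynomial in `K(x)`. -/
theorem l4_algebraMap_polyEquiv (x : F) (hx : Transcendental K x) (P : K[X]) :
    algebraMap (Algebra.adjoin K {x}) K⟮x⟯ (l4_polyEquiv K x hx P) =
      Polynomial.aeval (⟨x, mem_adjoin_simple_self K x⟩ : K⟮x⟯) P := by
  apply Subtype.ext
  rw [IntermediateField.algebraAdjoinAdjoin.coe_algebraMap, l4_coe_polyEquiv]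
  have h : ((Polynomial.aeval (⟨x, mem_adjoin_simple_self K x⟩ : K⟮x⟯) P : K⟮x⟯) : F) =
      Polynomial.aeval ((⟨x, mem_adjoin_simple_self K x⟩ : K⟮x⟯) : F) P := by
    rw [← IntermediateField.algebraMap_apply, ← Polynomial.aeval_algebraMap_apply]
    rfl
  rw [h]

variable (K) in
/-- evaluation at `x = c` on `K[x]`. -/
def l4_evalAt (x : F) (hx : Transcendental K x) (c : K) : Algebra.adjoin K {x} →+* K :=
  ((Polynomial.aeval c : K[X] →ₐ[K] K).comp (l4_polyEquiv K x hx).symm.toAlgHom).toRingHom

theorem l4_evalAt_polyEquiv (x : F) (hx : Transcendental K x) (c : K) (P : K[X]) :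
    l4_evalAt K x hx c (l4_polyEquiv K x hx P) = P.eval c := by
  simp [l4_evalAt]

theorem l4_isEvalAt_evalAt (x : F) (hx : Transcendental K x) (c : K) :
    IsEvalAt x c (l4_evalAt K x hx c) := by
  constructor
  · rw [← l4_polyEquiv_X x hx, l4_evalAt_polyEquiv, Polynomial.eval_X]
  · intro a
    rw [← l4_polyEquiv_C x hx, l4_evalAt_polyEquiv, Polynomial.eval_C]

theorem l4_evalAt_surjective (x : F) (hx : Transcendental K x) (c : K) :
    Function.Surjective (l4_evalAt K x hx c) := fun a =>
  ⟨algebraMap K _ a, (l4_isEvalAt_evalAt x hx c).2 a⟩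

theorem l4_ker_evalAt (x : F) (hx : Transcendental K x) (c : K) :
    RingHom.ker (l4_evalAt K x hx c) = Ideal.span {piAt K x c} := by
  ext y
  obtain ⟨P, rfl⟩ := (l4_polyEquiv K x hx).surjective y
  rw [RingHom.mem_ker, l4_evalAt_polyEquiv, Ideal.mem_span_singleton,
    ← pow_one (piAt K x c), l4_piAt_pow_dvd_iff, pow_one, Polynomial.dvd_iff_isRoot,
    Polynomial.IsRoot.def]

/-- an evaluation at `c` is THE evaluation at `c`. -/
theorem l4_eq_evalAt_of_isEvalAt (x : F) (hx : Transcendental K x) (c : K)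
    (ev : Algebra.adjoin K {x} →+* K) (hev : IsEvalAt x c ev) : ev = l4_evalAt K x hx c := by
  have h : ev.comp (l4_polyEquiv K x hx).toAlgHom.toRingHom =
      (l4_evalAt K x hx c).comp (l4_polyEquiv K x hx).toAlgHom.toRingHom := by
    apply Polynomial.ringHom_ext
    · intro a
      have h1 := hev.2 a
      have h2 := (l4_isEvalAt_evalAt x hx c).2 a
      change ev (l4_polyEquiv K x hx (C a)) = l4_evalAt K x hx c (l4_polyEquiv K x hx (C a))
      rw [l4_polyEquiv_C, h1, h2]
    · have h1 := hev.1
      have h2 := (l4_isEvalAt_evalAt x hx c).1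
      change ev (l4_polyEquiv K x hx X) = l4_evalAt K x hx c (l4_polyEquiv K x hx X)
      rw [l4_polyEquiv_X, h1, h2]
  ext y
  obtain ⟨P, rfl⟩ := (l4_polyEquiv K x hx).surjective y
  exact congrArg (fun f => f P) h

/-! ### `numPts` of the integral closure is `fibreCard` -/

theorem l4_mem_intCl_iff (x y : F) :
    y ∈ intCl K x ↔ IsIntegral (Algebra.adjoin K {x}) y := Iff.rfl

/-- the points of ALG-1/ALG-2 over `ev = evaluation at c` are the points of the fibre. -/
def l4_numPtsEquiv (x : F) (hx : Transcendental K x) (c : K)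
    (ev : Algebra.adjoin K {x} →+* K) (hev : IsEvalAt x c ev) :
    {χ : (integralClosure (Algebra.adjoin K {x}) F) →+* K //
        ∀ r : Algebra.adjoin K {x},
          χ (algebraMap (Algebra.adjoin K {x}) (integralClosure (Algebra.adjoin K {x}) F) r)
            = ev r} ≃
      {χ : intCl K x →ₐ[K] K // ∀ h : x ∈ intCl K x, χ ⟨x, h⟩ = c} where
  toFun χ := ⟨{ toRingHom := (χ.1 : (integralClosure (Algebra.adjoin K {x}) F) →+* K)
                commutes' := fun a => by
                  have h1 := χ.2 (algebraMap K (Algebra.adjoin K {x}) a)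
                  rw [hev.2 a] at h1
                  exact h1 },
    fun h => by
      have h1 := χ.2 (genAdj x)
      rw [hev.1] at h1
      exact h1⟩
  invFun χ := ⟨(χ.1 : intCl K x →+* K), fun r => by
    have h1 : IsEvalAt x c (((χ.1 : intCl K x →+* K)).comp
        (algebraMap (Algebra.adjoin K {x}) (integralClosure (Algebra.adjoin K {x}) F))) := by
      constructor
      · exact χ.2 _
      · intro a
        exact χ.1.commutes a
    have h2 := l4_eq_evalAt_of_isEvalAt x hx c _ h1
    have h3 := l4_eq_evalAt_of_isEvalAt x hx c ev hev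
    rw [h3, ← h2]
    rfl⟩
  left_inv χ := rfl
  right_inv χ := rfl

theorem l4_numPts_integralClosure_eq_fibreCard (x : F) (hx : Transcendental K x) (c : K)
    (ev : Algebra.adjoin K {x} →+* K) (hev : IsEvalAt x c ev) :
    numPts (Algebra.adjoin K {x}) F (integralClosure (Algebra.adjoin K {x}) F) ev =
      fibreCard K x c :=
  Nat.card_congr (l4_numPtsEquiv x hx c ev hev)

end EvalAt

end

end Fermat.Agent.GoodRed
end MergeWrap_Lib_GoodRed_LiftEval

section MergeWrap_Lib_GoodRed_Lift -- from Lib/GoodRed/Lift.lean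

/-!
# Cluster B / GoodRed, step (L4): assembly of the LIFT STEP (helper21)

`liftStep_of` : from a lifted basis (L1), the index statement (L2), the roots lemma (L3,
`RootsRed.lean`) and the tame discriminant bound (ALG-2, `DiscUpperTame` for
`R = K[x]`, `Kx = K(x)`, `L = F`), we get `LiftStep M n BD`.

`liftStep` : the same with (L1), (L2) as `Prop`s.
-/

set_option autoImplicit false

namespace Fermat.Agent.GoodRed

open Polynomial IntermediateField
open scoped IntermediateField.algebraAdjoinAdjoin

noncomputable section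

variable {K k F Fk : Type} [Field K] [Field k] [Field F] [Field Fk] [Algebra K F] [Algebra k Fk]

/-- (ALG-2) at the evaluation `x = c`, in polynomial language:
if `(X - c)^m ∣ dK` where `dK(x)` is the Gram determinant of a `K[x]`-basis `β` of the integral
closure, then `m + fibreCard K x c ≤ n`. -/
theorem add_fibreCard_le_of_pow_dvd [IsAlgClosed K] [CharZero K]
    (x : F) (hx : Transcendental K x) (n : ℕ)
    (hfin : Module.finrank K⟮x⟯ F = n) (hpos : 0 < n)
    (hA2 : DiscUpperTame (Algebra.adjoin K {x}) K⟮x⟯ F)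
    (β : Fin n → F) (dK : K[X])
    (hβint : ∀ i, β i ∈ intCl K x) (hβLI : LinearIndependent K⟮x⟯ β)
    (hβspan : ∀ y ∈ intCl K x, ∃ c : Fin n → Algebra.adjoin K {x}, y = ∑ i, c i • β i)
    (hdK : Polynomial.aeval (⟨x, mem_adjoin_simple_self K x⟩ : K⟮x⟯) dK = gramDet K⟮x⟯ F β)
    (c : K) (m : ℕ) (hm : (X - C c) ^ m ∣ dK) :
    m + fibreCard K x c ≤ n := by
  have : FiniteDimensional K⟮x⟯ F := Module.finite_of_finrank_pos (by rw [hfin]; exact hpos)
  have : CharZero K⟮x⟯ := charZero_of_injective_algebraMap (algebraMap K K⟮x⟯).injective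
  have : Algebra.IsSeparable K⟮x⟯ F := inferInstance
  have h := hA2 n β (fun i => hβint i) hβLI hfin (fun y hy => hβspan y hy) K
    (l4_evalAt K x hx c) (l4_evalAt_surjective x hx c) (piAt K x c) (l4_ker_evalAt x hx c)
    (l4_polyEquiv K x hx dK) m (by rw [l4_algebraMap_polyEquiv, hdK])
    ((l4_piAt_pow_dvd_iff x hx c m dK).mpr hm)
  rwa [l4_numPts_integralClosure_eq_fibreCard x hx c _ (l4_isEvalAt_evalAt x hx c)] at h

/-- **(L4)** the LIFT STEP from a lifted basis (L1), the index statement (L2), the roots lemma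
(L3) and the tame discriminant bound (ALG-2). -/
theorem liftStep_of [IsAlgClosed K] [CharZero K] (M : RedModel K k F Fk) (n : ℕ)
    (hdeg : DegData M n) (BD : BranchData M n)
    (hA2 : DiscUpperTame (Algebra.adjoin K {M.x}) K⟮M.x⟯ F)
    (LB : LiftedBasis M n) (hL2 : IndexNoRoot M n LB) : LiftStep M n BD := by
  classical
  have hx : Transcendental K M.x := M.l4_x_transcendental
  have hxb : Transcendental k M.xbar := M.x_trans
  obtain ⟨β, I, dK, hβint, hβLI, hβspan, hdK, hD, hI⟩ := hL2
  -- (ALG-2) in polynomial language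
  have key : ∀ (c : K) (m : ℕ), (X - C c) ^ m ∣ dK → m + fibreCard K M.x c ≤ n :=
    fun c m hm => add_fibreCard_le_of_pow_dvd M.x hx n hdeg.deg hdeg.pos hA2 β dK hβint hβLI
      hβspan hdK c m hm
  -- nonvanishing
  have hD0 : LB.D ≠ 0 := by
    intro h0
    apply LB.D_bar_ne
    rw [h0, Polynomial.map_zero]
  have hDK0 : LB.D.map M.A.subtype ≠ 0 := by
    intro h0
    apply hD0
    apply map_subtype_injective
    rw [h0, Polynomial.map_zero]
  have hI2dK : I ^ 2 * dK ≠ 0 := by rw [← hD]; exact hDK0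
  have hI0 : I ^ 2 ≠ 0 := left_ne_zero_of_mul hI2dK
  -- multiplicities of roots in `A`
  have hmult : ∀ r : M.A, LB.D.rootMultiplicity r = dK.rootMultiplicity (r : K) := by
    intro r
    rw [Polynomial.eq_rootMultiplicity_map (f := M.A.subtype) Subtype.val_injective r, hD,
      Polynomial.rootMultiplicity_mul hI2dK]
    have h1 : (I ^ 2).rootMultiplicity (r : K) = 0 := by
      rw [Polynomial.rootMultiplicity_eq_zero_iff]
      intro hroot
      exfalso
      rw [Polynomial.IsRoot.def, Polynomial.eval_pow] at hroot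
      exact hI (r : K) r.2 (pow_eq_zero_iff (two_ne_zero) |>.mp hroot)
    have h2 : M.A.subtype r = (r : K) := rfl
    rw [h2, h1, zero_add]
  -- roots in `A` are branch values
  have hrootS : ∀ r : M.A, LB.D.IsRoot r → (r : K) ∈ BD.S := by
    intro r hr
    by_contra hS
    have h1 : 0 < LB.D.rootMultiplicity r := (Polynomial.rootMultiplicity_pos hD0).mpr hr
    rw [hmult r] at h1
    have h2 := key (r : K) _ (Polynomial.pow_rootMultiplicity_dvd dK (r : K))
    rw [BD.unram (r : K) hS] at h2
    omega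
  refine ⟨fun i => M.rho ⟨LB.b i, LB.mem_O i⟩, LB.basis,
    l4_polyEquiv k M.xbar hxb (LB.D.map M.res), ?_, ?_, ?_⟩
  · rw [l4_algebraMap_polyEquiv, ← LB.D_gram_bar]
    rfl
  · intro h0
    apply LB.D_bar_ne
    apply (l4_polyEquiv k M.xbar hxb).injective
    rw [h0, map_zero]
  · intro c hc m hm
    rw [l4_piAt_pow_dvd_iff] at hm
    have hm1 : m ≤ (LB.D.map M.res).rootMultiplicity (M.res ⟨c, hc⟩) :=
      (Polynomial.le_rootMultiplicity_iff LB.D_bar_ne).mpr hm
    rw [rootMultiplicity_map_res M.res_eq_zero LB.D LB.D_bar_ne] at hm1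
    have hfil : ∀ r ∈ LB.D.roots.filter (fun r => M.res r = M.res ⟨c, hc⟩),
        (r : K) ∈ BD.S ∧ M.res r = M.res ⟨c, hc⟩ := by
      intro r hr
      rw [Multiset.mem_filter] at hr
      exact ⟨hrootS r ((Polynomial.mem_roots hD0).mp hr.1), hr.2⟩
    constructor
    · intro hcS
      have hall : ∀ r ∈ LB.D.roots.filter (fun r => M.res r = M.res ⟨c, hc⟩),
          r = (⟨c, hc⟩ : M.A) := by
        intro r hr
        obtain ⟨h1, h2⟩ := hfil r hr
        exact Subtype.ext (BD.S_inj (r : K) h1 c hcS r.2 hc h2)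
      have hrep := Multiset.eq_replicate_card.mpr hall
      have hcount : Multiset.card (LB.D.roots.filter (fun r => M.res r = M.res ⟨c, hc⟩)) ≤
          LB.D.rootMultiplicity (⟨c, hc⟩ : M.A) := by
        rw [← Polynomial.count_roots]
        calc Multiset.card (LB.D.roots.filter (fun r => M.res r = M.res ⟨c, hc⟩))
            = Multiset.count (⟨c, hc⟩ : M.A)
                (LB.D.roots.filter (fun r => M.res r = M.res ⟨c, hc⟩)) := by
              conv_rhs => rw [hrep]
              rw [Multiset.count_replicate_self]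
          _ ≤ Multiset.count (⟨c, hc⟩ : M.A) LB.D.roots :=
              Multiset.count_le_of_le _ (Multiset.filter_le _ _)
      rw [hmult ⟨c, hc⟩] at hcount
      have h2 := key c _ (Polynomial.pow_rootMultiplicity_dvd dK c)
      have h3 : (((⟨c, hc⟩ : M.A)) : K) = c := rfl
      rw [h3] at hcount
      omega
    · intro hno
      have hempty : LB.D.roots.filter (fun r => M.res r = M.res ⟨c, hc⟩) = 0 := by
        apply Multiset.eq_zero_of_forall_notMem
        intro r hr
        obtain ⟨h1, h2⟩ := hfil r hr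
        exact hno (r : K) h1 r.2 h2
      rw [hempty, Multiset.card_zero] at hm1
      omega

/-- **(L4)** `LiftStep` from (L1), (L2) as `Prop`s and (ALG-2). -/
theorem liftStep [IsAlgClosed K] [CharZero K] (M : RedModel K k F Fk) (n : ℕ)
    (hdeg : DegData M n) (BD : BranchData M n)
    (hA2 : DiscUpperTame (Algebra.adjoin K {M.x}) K⟮M.x⟯ F)
    (hL1 : LiftBasisStep M n) (hL2 : ∀ LB : LiftedBasis M n, IndexNoRoot M n LB) :
    LiftStep M n BD := by
  obtain ⟨LB⟩ := hL1
  exact liftStep_of M n hdeg BD hA2 LB (hL2 LB)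

end

end Fermat.Agent.GoodRed
end MergeWrap_Lib_GoodRed_Lift

section MergeWrap_Lib_GoodRed_LiftFinal -- from Lib/GoodRed/LiftFinal.lean

/-!
# Cluster B / GoodRed, step (L): the LIFT STEP, closed form (helper21)

`liftStep_closed` : `DegData M n` + `BranchData M n` + (ALG-2) for `K[x] ⊆ K(x) ⊆ F`
imply `LiftStep M n BD`.  Assembles (T) `charpolyRed` (helper77), (L1) `liftBasisStep` (helper9),
(L2) `indexNoRoot` (helper27), (L3) `rootMultiplicity_map_res` (helper7), (L4) `liftStep`.
-/

set_option autoImplicit false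

namespace Fermat.Agent.GoodRed

open Polynomial IntermediateField
open scoped IntermediateField.algebraAdjoinAdjoin

variable {K k F Fk : Type} [Field K] [Field k] [Field F] [Field Fk] [Algebra K F] [Algebra k Fk]

/-- **(L)** the LIFT STEP: only (ALG-2) remains as a hypothesis. -/
theorem liftStep_closed [IsAlgClosed K] [CharZero K] (M : RedModel K k F Fk) (n : ℕ)
    (hdeg : DegData M n) (BD : BranchData M n)
    (hA2 : DiscUpperTame (Algebra.adjoin K {M.x}) K⟮M.x⟯ F) : LiftStep M n BD :=
  liftStep M n hdeg BD hA2 (M.liftBasisStep (charpolyRed M n hdeg) hdeg) (indexNoRoot M n hdeg)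

end Fermat.Agent.GoodRed
end MergeWrap_Lib_GoodRed_LiftFinal

section MergeWrap_Lib_GoodRed_LiftA -- from Lib/GoodRed/LiftA.lean

/-!
# Cluster B / GoodRed, step (L) for WEAK branch data (helper37; proof = helper21's `liftStep_of`
verbatim, which only uses `unram` at points of `A`).
-/

set_option autoImplicit false

namespace Fermat.Agent.GoodRed

open Polynomial IntermediateField
open scoped IntermediateField.algebraAdjoinAdjoin

noncomputable section

variable {K k F Fk : Type} [Field K] [Field k] [Field F] [Field Fk] [Algebra K F] [Algebra k Fk]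

/-- **(L4)** the LIFT STEP from a lifted basis (L1), the index statement (L2), the roots lemma
(L3) and the tame discriminant bound (ALG-2). -/
theorem liftStepA_of [IsAlgClosed K] [CharZero K] (M : RedModel K k F Fk) (n : ℕ)
    (hdeg : DegData M n) (BD : BranchDataA M n)
    (hA2 : DiscUpperTame (Algebra.adjoin K {M.x}) K⟮M.x⟯ F)
    (LB : LiftedBasis M n) (hL2 : IndexNoRoot M n LB) : LiftStepA M n BD := by
  classical
  have hx : Transcendental K M.x := M.l4_x_transcendental
  have hxb : Transcendental k M.xbar := M.x_trans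
  obtain ⟨β, I, dK, hβint, hβLI, hβspan, hdK, hD, hI⟩ := hL2
  -- (ALG-2) in polynomial language
  have key : ∀ (c : K) (m : ℕ), (X - C c) ^ m ∣ dK → m + fibreCard K M.x c ≤ n :=
    fun c m hm => add_fibreCard_le_of_pow_dvd M.x hx n hdeg.deg hdeg.pos hA2 β dK hβint hβLI
      hβspan hdK c m hm
  -- nonvanishing
  have hD0 : LB.D ≠ 0 := by
    intro h0
    apply LB.D_bar_ne
    rw [h0, Polynomial.map_zero]
  have hDK0 : LB.D.map M.A.subtype ≠ 0 := by
    intro h0
    apply hD0
    apply map_subtype_injective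
    rw [h0, Polynomial.map_zero]
  have hI2dK : I ^ 2 * dK ≠ 0 := by rw [← hD]; exact hDK0
  have hI0 : I ^ 2 ≠ 0 := left_ne_zero_of_mul hI2dK
  -- multiplicities of roots in `A`
  have hmult : ∀ r : M.A, LB.D.rootMultiplicity r = dK.rootMultiplicity (r : K) := by
    intro r
    rw [Polynomial.eq_rootMultiplicity_map (f := M.A.subtype) Subtype.val_injective r, hD,
      Polynomial.rootMultiplicity_mul hI2dK]
    have h1 : (I ^ 2).rootMultiplicity (r : K) = 0 := by
      rw [Polynomial.rootMultiplicity_eq_zero_iff]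
      intro hroot
      exfalso
      rw [Polynomial.IsRoot.def, Polynomial.eval_pow] at hroot
      exact hI (r : K) r.2 (pow_eq_zero_iff (two_ne_zero) |>.mp hroot)
    have h2 : M.A.subtype r = (r : K) := rfl
    rw [h2, h1, zero_add]
  -- roots in `A` are branch values
  have hrootS : ∀ r : M.A, LB.D.IsRoot r → (r : K) ∈ BD.S := by
    intro r hr
    by_contra hS
    have h1 : 0 < LB.D.rootMultiplicity r := (Polynomial.rootMultiplicity_pos hD0).mpr hr
    rw [hmult r] at h1
    have h2 := key (r : K) _ (Polynomial.pow_rootMultiplicity_dvd dK (r : K))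
    rw [BD.unram (r : K) r.2 hS] at h2
    omega
  refine ⟨fun i => M.rho ⟨LB.b i, LB.mem_O i⟩, LB.basis,
    l4_polyEquiv k M.xbar hxb (LB.D.map M.res), ?_, ?_, ?_⟩
  · rw [l4_algebraMap_polyEquiv, ← LB.D_gram_bar]
    rfl
  · intro h0
    apply LB.D_bar_ne
    apply (l4_polyEquiv k M.xbar hxb).injective
    rw [h0, map_zero]
  · intro c hc m hm
    rw [l4_piAt_pow_dvd_iff] at hm
    have hm1 : m ≤ (LB.D.map M.res).rootMultiplicity (M.res ⟨c, hc⟩) :=
      (Polynomial.le_rootMultiplicity_iff LB.D_bar_ne).mpr hm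
    rw [rootMultiplicity_map_res M.res_eq_zero LB.D LB.D_bar_ne] at hm1
    have hfil : ∀ r ∈ LB.D.roots.filter (fun r => M.res r = M.res ⟨c, hc⟩),
        (r : K) ∈ BD.S ∧ M.res r = M.res ⟨c, hc⟩ := by
      intro r hr
      rw [Multiset.mem_filter] at hr
      exact ⟨hrootS r ((Polynomial.mem_roots hD0).mp hr.1), hr.2⟩
    constructor
    · intro hcS
      have hall : ∀ r ∈ LB.D.roots.filter (fun r => M.res r = M.res ⟨c, hc⟩),
          r = (⟨c, hc⟩ : M.A) := by
        intro r hr
        obtain ⟨h1, h2⟩ := hfil r hr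
        exact Subtype.ext (BD.S_inj (r : K) h1 c hcS r.2 hc h2)
      have hrep := Multiset.eq_replicate_card.mpr hall
      have hcount : Multiset.card (LB.D.roots.filter (fun r => M.res r = M.res ⟨c, hc⟩)) ≤
          LB.D.rootMultiplicity (⟨c, hc⟩ : M.A) := by
        rw [← Polynomial.count_roots]
        calc Multiset.card (LB.D.roots.filter (fun r => M.res r = M.res ⟨c, hc⟩))
            = Multiset.count (⟨c, hc⟩ : M.A)
                (LB.D.roots.filter (fun r => M.res r = M.res ⟨c, hc⟩)) := by
              conv_rhs => rw [hrep]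
              rw [Multiset.count_replicate_self]
          _ ≤ Multiset.count (⟨c, hc⟩ : M.A) LB.D.roots :=
              Multiset.count_le_of_le _ (Multiset.filter_le _ _)
      rw [hmult ⟨c, hc⟩] at hcount
      have h2 := key c _ (Polynomial.pow_rootMultiplicity_dvd dK c)
      have h3 : (((⟨c, hc⟩ : M.A)) : K) = c := rfl
      rw [h3] at hcount
      omega
    · intro hno
      have hempty : LB.D.roots.filter (fun r => M.res r = M.res ⟨c, hc⟩) = 0 := by
        apply Multiset.eq_zero_of_forall_notMem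
        intro r hr
        obtain ⟨h1, h2⟩ := hfil r hr
        exact hno (r : K) h1 r.2 h2
      rw [hempty, Multiset.card_zero] at hm1
      omega

/-- **(L)** the LIFT STEP for weak branch data: only (ALG-2) remains as a hypothesis. -/
theorem liftStepA_closed [IsAlgClosed K] [CharZero K] (M : RedModel K k F Fk) (n : ℕ)
    (hdeg : DegData M n) (BD : BranchDataA M n)
    (hA2 : DiscUpperTame (Algebra.adjoin K {M.x}) K⟮M.x⟯ F) : LiftStepA M n BD := by
  obtain ⟨LB⟩ := M.liftBasisStep (charpolyRed M n hdeg) hdeg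
  exact liftStepA_of M n hdeg BD hA2 LB (indexNoRoot M n hdeg LB)

end

end Fermat.Agent.GoodRed
end MergeWrap_Lib_GoodRed_LiftA

section MergeWrap_Lib_GoodRed_DiscTame -- from Lib/GoodRed/DiscTame.lean

/-!
# Cluster B / GoodRed, work package A2: the tame upper bound for the discriminant

`discUpperTame : DiscUpperTame R Kx L`: for the integral closure `B` of a PID `R` in a finite
separable extension `L` of `Kx = Frac R`, with `R`-basis `β`, and a point `ev : R ↠ κ` with
`κ` of characteristic `0` and kernel `(π)`: if `π ^ m ∣ det (Tr (β i * β j))` then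
`m + #{points of B over ev} ≤ [L : Kx]`.

Route: (B) `relNorm (differentIdeal R B) ≤ (d)`; (C) tameness: `¬ P ^ e_P ∣ differentIdeal R B`;
(D) counting multiplicities in `relNorm`; (E) `∑ e_P f_P = n` and `#points ≤ #primes over (π)`.
-/

set_option autoImplicit false

namespace Fermat.Agent.GoodRed

open Polynomial Module
open scoped nonZeroDivisors

noncomputable section

section bridge

variable {R : Type} [CommRing R] [IsDomain R] [IsPrincipalIdealRing R]
variable {Kx : Type} [Field Kx] [Algebra R Kx] [IsFractionRing R Kx]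
variable {L : Type} [Field L] [Algebra Kx L] [Algebra R L] [IsScalarTower R Kx L]
variable [FiniteDimensional Kx L] [Algebra.IsSeparable Kx L]
variable {B : Type} [CommRing B] [Algebra R B] [Algebra B L] [IsScalarTower R B L]
variable [IsIntegralClosure B R L] [IsDedekindDomain B] [IsFractionRing B L]
variable [Module.IsTorsionFree R B] [Module.Finite R B]

/-- **(B)** the Gram determinant of an `R`-basis of the integral closure divides the norm of every
element of the different. -/
theorem a2_discr_dvd_intNorm {n : ℕ} (β : Fin n → L)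
    (hβli : LinearIndependent Kx β) (hn : Module.finrank Kx L = n)
    (hβspan : ∀ y : L, IsIntegral R y → ∃ c : Fin n → R, y = ∑ i, c i • β i)
    (d : R) (hd : algebraMap R Kx d = gramDet Kx L β)
    (x : B) (hx : x ∈ differentIdeal R B) : d ∣ Algebra.intNorm R B x := by
  classical
  have hcard : Fintype.card (Fin n) = Module.finrank Kx L := by simp [hn]
  have hne : Nonempty (Fin n) := ⟨⟨0, by rw [← hn]; exact Module.finrank_pos⟩⟩
  set bL : Basis (Fin n) Kx L := basisOfLinearIndependentOfCardEqFinrank hβli hcard with hbL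
  have hbL_apply : ∀ i, bL i = β i := fun i => by
    rw [hbL, coe_basisOfLinearIndependentOfCardEqFinrank]
  set bL' : Basis (Fin n) Kx L :=
    (Algebra.traceForm Kx L).dualBasis (traceForm_nondegenerate Kx L) bL with hbL'
  -- the dual basis lies in the dual of `1`
  have hdual : ∀ j, bL' j ∈ FractionalIdeal.dual R Kx (1 : FractionalIdeal B⁰ L) := by
    intro j
    rw [FractionalIdeal.mem_dual (one_ne_zero' (FractionalIdeal B⁰ L))]
    intro a ha
    obtain ⟨b, rfl⟩ := (FractionalIdeal.mem_one_iff _).mp ha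
    obtain ⟨c, hc⟩ := hβspan (algebraMap B L b)
      (IsIntegralClosure.isIntegral_iff (A := B).mpr ⟨b, rfl⟩)
    refine ⟨c j, ?_⟩
    have hterm : ∀ i, Algebra.traceForm Kx L (bL' j) (c i • β i) =
        algebraMap R Kx (c i) * (if i = j then 1 else 0) := by
      intro i
      rw [← algebraMap_smul Kx (c i) (β i), map_smul, smul_eq_mul, ← hbL_apply i, hbL',
        LinearMap.BilinForm.apply_dualBasis_left]
    rw [hc, map_sum, Finset.sum_congr rfl (fun i _ => hterm i)]
    simp
  -- hence `x * bL' j` is integral, with coordinates `C j` in the basis `β`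
  have hx' : algebraMap B L x ∈ (FractionalIdeal.dual R Kx (1 : FractionalIdeal B⁰ L))⁻¹ := by
    rw [← coeIdeal_differentIdeal R Kx L B]
    exact (FractionalIdeal.mem_coeIdeal _).mpr ⟨x, hx, rfl⟩
  have hprod : ∀ j, algebraMap B L x * bL' j ∈ (1 : FractionalIdeal B⁰ L) := by
    intro j
    have := FractionalIdeal.mul_mem_mul hx' (hdual j)
    rwa [inv_mul_cancel₀ (FractionalIdeal.dual_ne_zero R Kx
      (one_ne_zero' (FractionalIdeal B⁰ L)))] at this
  have hC : ∀ j, ∃ c : Fin n → R, algebraMap B L x * bL' j = ∑ i, c i • β i := by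
    intro j
    obtain ⟨b, hb⟩ := (FractionalIdeal.mem_one_iff _).mp (hprod j)
    exact hβspan _ (IsIntegralClosure.isIntegral_iff (A := B).mpr ⟨b, hb⟩)
  choose C hC using hC
  -- the matrix of multiplication by `x` in the dual basis is `G * C`
  set G : Matrix (Fin n) (Fin n) Kx := Matrix.of fun i j => Algebra.trace Kx L (β i * β j) with hG
  set CK : Matrix (Fin n) (Fin n) Kx := Matrix.of fun i j => algebraMap R Kx (C j i) with hCK
  have hmat : Algebra.leftMulMatrix bL' (algebraMap B L x) = G * CK := by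
    ext k j
    rw [Algebra.leftMulMatrix_eq_repr_mul, hbL', LinearMap.BilinForm.dualBasis_repr_apply,
      ← hbL', hC j, Matrix.mul_apply, map_sum, LinearMap.sum_apply]
    refine Finset.sum_congr rfl (fun i _ => ?_)
    rw [← algebraMap_smul Kx (C j i) (β i), map_smul, LinearMap.smul_apply, smul_eq_mul,
      Algebra.traceForm_apply, hbL_apply, hG, hCK, Matrix.of_apply, Matrix.of_apply, mul_comm,
      mul_comm (β i)]
  have hCKdet : CK.det = algebraMap R Kx (Matrix.of fun i j => C j i).det := by
    rw [RingHom.map_det]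
    rfl
  have hnorm : algebraMap R Kx (Algebra.intNorm R B x) =
      algebraMap R Kx (d * (Matrix.of fun i j => C j i).det) := by
    rw [Algebra.algebraMap_intNorm (K := Kx) (L := L), Algebra.norm_eq_matrix_det bL', hmat,
      Matrix.det_mul, hCKdet, map_mul, hd]
    rfl
  exact ⟨_, IsFractionRing.injective R Kx hnorm⟩

end bridge

section tame

variable {R : Type} [CommRing R] [IsDomain R] [IsDedekindDomain R]
variable {B : Type} [CommRing B] [Algebra R B] [IsDedekindDomain B]
variable [Module.IsTorsionFree R B] [Module.Finite R B]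

attribute [local instance] FractionRing.liftAlgebra Ideal.Quotient.field

set_option linter.overlappingInstances false

/-- **(C)** tameness: if `p B = P' * Q` with `P'`, `Q` coprime, `P' ≠ ⊤` and the residue field of
`p` has characteristic `0`, then `P'` does not divide the different
(the trace of an element `≡ 1 mod P'`, `≡ 0 mod Q` is `dim (B / P') ≠ 0` modulo `p`). -/
theorem a2_not_dvd_differentIdeal_of_charZero
    [Algebra.IsSeparable (FractionRing R) (FractionRing B)]
    {p : Ideal R} [p.IsMaximal] [CharZero (R ⧸ p)] (P' Q : Ideal B) (hP' : P' ≠ ⊤)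
    (hPQ : IsCoprime P' Q) (hP : P' * Q = Ideal.map (algebraMap R B) p) :
    ¬ P' ∣ differentIdeal R B := by
  let _ : Algebra (R ⧸ p) (B ⧸ Q) := Ideal.Quotient.algebraQuotientOfLEComap (by
      rw [← Ideal.map_le_iff_le_comap, ← hP]
      exact Ideal.mul_le_right)
  let _ : Algebra (R ⧸ p) (B ⧸ P') := Ideal.Quotient.algebraQuotientOfLEComap (by
      rw [← Ideal.map_le_iff_le_comap, ← hP]
      exact Ideal.mul_le_left)
  have : IsScalarTower R (R ⧸ p) (B ⧸ Q) := .of_algebraMap_eq' rfl
  have : IsScalarTower R (R ⧸ p) (B ⧸ P') := .of_algebraMap_eq' rfl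
  have : Module.Finite (R ⧸ p) (B ⧸ Q) :=
    Module.Finite.of_restrictScalars_finite R (R ⧸ p) (B ⧸ Q)
  have : Module.Finite (R ⧸ p) (B ⧸ P') :=
    Module.Finite.of_restrictScalars_finite R (R ⧸ p) (B ⧸ P')
  have : Nontrivial (B ⧸ P') := Ideal.Quotient.nontrivial_iff.mpr hP'
  let e : (B ⧸ p.map (algebraMap R B)) ≃ₐ[R ⧸ p] ((B ⧸ P') × B ⧸ Q) :=
    { __ := (Ideal.quotEquivOfEq hP.symm).trans (Ideal.quotientMulEquivQuotientProd P' Q hPQ),
      commutes' := Quotient.ind fun _ ↦ rfl }
  obtain ⟨y, hy⟩ := Ideal.Quotient.mk_surjective (e.symm (1, 0))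
  refine not_dvd_differentIdeal_of_intTrace_not_mem R P' Q hP y ?_ ?_
  · have := congr((e $hy).2)
    simp at this
    simpa [e, Ideal.Quotient.eq_zero_iff_mem] using this
  · rw [← Ideal.Quotient.eq_zero_iff_mem, ← Algebra.trace_quotient_eq_of_isDedekindDomain,
      hy, Algebra.trace_eq_of_algEquiv, Algebra.trace_prod_apply]
    have h1 : Algebra.trace (R ⧸ p) (B ⧸ P') 1 = (Module.finrank (R ⧸ p) (B ⧸ P') : R ⧸ p) := by
      have := Algebra.trace_algebraMap (S := B ⧸ P') (1 : R ⧸ p)
      rwa [map_one, nsmul_eq_mul, mul_one] at this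
    simp only [map_zero, add_zero]
    rw [h1]
    exact_mod_cast (Module.finrank_pos (R := R ⧸ p) (M := B ⧸ P')).ne'

end tame

section count

variable {R : Type} [CommRing R] [IsDomain R] [IsDedekindDomain R]
variable {B : Type} [CommRing B] [Algebra R B] [IsDedekindDomain B]
variable [Module.IsTorsionFree R B] [Module.Finite R B]

open UniqueFactorizationMonoid

set_option linter.overlappingInstances false

/-- **(D)** counting: the multiplicity of `p` in the relative norm of `I` is at most
`∑_{P ∣ p} f_P * (multiplicity of P in I)`. -/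
theorem a2_le_sum_count [PerfectField (FractionRing R)] (p : Ideal R) [p.IsMaximal]
    [Fintype (p.primesOver B)] [DecidableEq (Ideal B)] (I : Ideal B) :
    I ≠ ⊥ → ∀ m : ℕ, p ^ m ∣ Ideal.relNorm R I →
      m ≤ ∑ q : p.primesOver B, q.1.inertiaDeg R * Multiset.count q.1 (normalizedFactors I) := by
  induction I using UniqueFactorizationMonoid.induction_on_prime with
  | h₁ => intro h; exact absurd rfl h
  | h₂ x hx =>
    intro _ m hm
    rw [Ideal.isUnit_iff] at hx
    subst hx
    rw [Ideal.relNorm_top, Ideal.dvd_iff_le, top_le_iff] at hm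
    have hm0 : m = 0 := by
      by_contra hne
      have hle : p ^ m ≤ p := Ideal.pow_le_self hne
      rw [hm, top_le_iff] at hle
      exact (Ideal.IsMaximal.ne_top inferInstance) hle
    rw [hm0]
    exact Nat.zero_le _
  | h₃ a Q ha hQ ih =>
    intro _ m hm
    have hQ0 : Q ≠ ⊥ := hQ.ne_zero
    have hQprime : Q.IsPrime := (Ideal.prime_iff_isPrime hQ0).mp hQ
    have hQmax : Q.IsMaximal := hQprime.isMaximal hQ0
    have hq'max : (Q.under R).IsMaximal := Ideal.IsMaximal.under R Q
    have hrel : Ideal.relNorm R Q = (Q.under R) ^ Q.inertiaDeg R :=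
      Ideal.relNorm_eq_pow_of_isMaximal Q (Q.under R)
    have hcount : ∀ q : Ideal B, Multiset.count q (normalizedFactors (Q * a)) =
        (if q = Q then 1 else 0) + Multiset.count q (normalizedFactors a) := by
      intro q
      rw [normalizedFactors_mul hQ0 ha, normalizedFactors_irreducible hQ.irreducible,
        normalize_eq, Multiset.count_add, Multiset.count_singleton]
    simp_rw [hcount, mul_add, Finset.sum_add_distrib]
    rw [map_mul, hrel] at hm
    by_cases hqp : Q.under R = p
    · -- `Q` lies over `p`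
      have hQmem : Q ∈ p.primesOver B := ⟨hQprime, ⟨hqp.symm⟩⟩
      have hsum : ∑ q : p.primesOver B, q.1.inertiaDeg R * (if q.1 = Q then 1 else 0) =
          Q.inertiaDeg R := by
        rw [Finset.sum_eq_single (⟨Q, hQmem⟩ : p.primesOver B)]
        · simp
        · intro q _ hq
          have : q.1 ≠ Q := fun h => hq (Subtype.ext h)
          simp [this]
        · intro h
          exact absurd (Finset.mem_univ _) h
      rw [hsum]
      rcases le_or_gt m (Q.inertiaDeg R) with hle | hlt
      · exact le_trans hle (Nat.le_add_right _ _)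
      · have hp0 : p ^ Q.inertiaDeg R ≠ 0 := by
          intro h0
          have hpbot : p = ⊥ := by
            rcases Nat.eq_zero_or_pos (Q.inertiaDeg R) with hz | hpos
            · rw [hz, pow_zero] at h0
              exact absurd h0 one_ne_zero
            · exact (pow_eq_zero_iff hpos.ne').mp h0
          rw [← hqp] at hpbot
          exact Ideal.under_ne_bot R hQ0 hpbot
        have hsplit : p ^ m = p ^ Q.inertiaDeg R * p ^ (m - Q.inertiaDeg R) := by
          rw [← pow_add]
          congr 1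
          omega
        rw [hqp, hsplit] at hm
        have hm' : p ^ (m - Q.inertiaDeg R) ∣ Ideal.relNorm R a :=
          (mul_dvd_mul_iff_left hp0).mp hm
        have := ih ha _ hm'
        omega
    · -- `Q` lies over another prime
      have hcop : IsCoprime (p ^ m) ((Q.under R) ^ Q.inertiaDeg R) := by
        apply IsCoprime.pow
        rw [Ideal.isCoprime_iff_sup_eq]
        exact Ideal.IsMaximal.coprime_of_ne inferInstance hq'max (Ne.symm hqp)
      have hm' : p ^ m ∣ Ideal.relNorm R a := hcop.dvd_of_dvd_mul_left hm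
      exact le_trans (ih ha m hm') (Nat.le_add_left _ _)

end count

section points

variable {R : Type} [CommRing R] {B : Type} [CommRing B] [Algebra R B]

/-- **(E1)** a point of `B` over `ev` is determined by its kernel. -/
theorem a2_point_ext {κ : Type} [Field κ] (ev : R →+* κ) (hev : Function.Surjective ev)
    (χ χ' : B →+* κ) (hχ : ∀ r : R, χ (algebraMap R B r) = ev r)
    (hχ' : ∀ r : R, χ' (algebraMap R B r) = ev r) (hker : RingHom.ker χ = RingHom.ker χ') :
    χ = χ' := by
  ext y
  obtain ⟨r, hr⟩ := hev (χ y)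
  have h1 : y - algebraMap R B r ∈ RingHom.ker χ := by
    rw [RingHom.mem_ker, map_sub, hχ, hr, sub_self]
  rw [hker, RingHom.mem_ker, map_sub, hχ', sub_eq_zero] at h1
  rw [h1, hr]

/-- **(E2)** the number of points over `ev` is at most the number of primes over `ker ev`. -/
theorem a2_numPts_le {κ : Type} [Field κ] (ev : R →+* κ) (hev : Function.Surjective ev)
    [Fintype ((RingHom.ker ev).primesOver B)] :
    Nat.card {χ : B →+* κ // ∀ r : R, χ (algebraMap R B r) = ev r} ≤
      Fintype.card ((RingHom.ker ev).primesOver B) := by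
  rw [← Nat.card_eq_fintype_card]
  let F : {χ : B →+* κ // ∀ r : R, χ (algebraMap R B r) = ev r} →
      (RingHom.ker ev).primesOver B := fun χ =>
    ⟨RingHom.ker χ.1, RingHom.ker_isPrime χ.1, ⟨by
      ext r
      rw [Ideal.mem_comap, RingHom.mem_ker, RingHom.mem_ker, χ.2]⟩⟩
  refine Nat.card_le_card_of_injective F ?_
  intro χ χ' h
  have hker : RingHom.ker χ.1 = RingHom.ker χ'.1 := congrArg Subtype.val h
  exact Subtype.ext (a2_point_ext ev hev χ.1 χ'.1 χ.2 χ'.2 hker)

end points

section main

variable {R : Type} [CommRing R] [IsDomain R] [IsPrincipalIdealRing R]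
variable {Kx : Type} [Field Kx] [Algebra R Kx] [IsFractionRing R Kx]
variable {L : Type} [Field L] [Algebra Kx L] [Algebra R L] [IsScalarTower R Kx L]
variable [FiniteDimensional Kx L] [Algebra.IsSeparable Kx L]
variable {B : Type} [CommRing B] [Algebra R B] [Algebra B L] [IsScalarTower R B L]
variable [IsIntegralClosure B R L] [IsDedekindDomain B] [IsFractionRing B L]
variable [Module.IsTorsionFree R B] [Module.Finite R B]

attribute [local instance] FractionRing.liftAlgebra

open UniqueFactorizationMonoid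

omit [FiniteDimensional Kx L] in
/-- the rank of `B` over `R` is `[L : Kx]`. -/
theorem a2_finrank_eq : Module.finrank R B = Module.finrank Kx L := by
  have : IsLocalization (Algebra.algebraMapSubmonoid B R⁰) L :=
    IsIntegralClosure.isLocalization R Kx L B
  exact (Module.finrank_of_isLocalizedModule_of_free Kx R⁰
    (IsScalarTower.toAlgHom R B L).toLinearMap).symm

/-- **main statement for an abstract integral closure `B`, case `π ≠ 0`.** -/
theorem a2_main {n : ℕ} (β : Fin n → L)
    (hβli : LinearIndependent Kx β) (hn : Module.finrank Kx L = n)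
    (hβspan : ∀ y : L, IsIntegral R y → ∃ c : Fin n → R, y = ∑ i, c i • β i)
    {κ : Type} [Field κ] [CharZero κ] (ev : R →+* κ) (hev : Function.Surjective ev)
    (π : R) (hπ : RingHom.ker ev = Ideal.span {π}) (hπ0 : π ≠ 0)
    (d : R) (m : ℕ) (hd : algebraMap R Kx d = gramDet Kx L β) (hm : π ^ m ∣ d) :
    m + Nat.card {χ : B →+* κ // ∀ r : R, χ (algebraMap R B r) = ev r} ≤ n := by
  classical
  set p : Ideal R := RingHom.ker ev with hp
  have hpmax : p.IsMaximal := RingHom.ker_isMaximal_of_surjective ev hev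
  have hp0 : p ≠ ⊥ := by
    rw [hπ]
    intro h
    exact hπ0 (Ideal.span_singleton_eq_bot.mp h)
  have hchar0 : CharZero R := RingHom.charZero ev
  have hcharq : CharZero (R ⧸ p) := RingHom.charZero (RingHom.kerLift ev)
  let _ : Fintype (p.primesOver B) := Fintype.ofFinite _
  -- (B): `p ^ m ∣ relNorm 𝔇`
  have hrel : p ^ m ∣ Ideal.relNorm R (differentIdeal R B) := by
    rw [Ideal.dvd_iff_le, hπ, Ideal.span_singleton_pow, Ideal.relNorm_apply, Ideal.span_le]
    rintro _ ⟨x, hx, rfl⟩
    rw [SetLike.mem_coe, Ideal.mem_span_singleton]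
    exact hm.trans (a2_discr_dvd_intNorm β hβli hn hβspan d hd x hx)
  -- (D)
  have hD := a2_le_sum_count p (differentIdeal R B) differentIdeal_ne_bot m hrel
  -- (C): multiplicities in the different are `< e`
  have h𝔓 : Ideal.map (algebraMap R B) p ≠ ⊥ := Ideal.map_ne_bot_of_ne_bot hp0
  have hC : ∀ q : p.primesOver B,
      Multiset.count q.1 (normalizedFactors (differentIdeal R B)) + 1 ≤ q.1.ramificationIdx R := by
    intro q
    have hqprime : q.1.IsPrime := q.2.1
    have hqlies : q.1.LiesOver p := q.2.2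
    have hqmax : q.1.IsMaximal := Ideal.primesOver.isMaximal q
    have hq0 : q.1 ≠ ⊥ := Ideal.ne_bot_of_liesOver_of_ne_bot hp0 q.1
    obtain ⟨Q, hQ1, hQ2⟩ := Ideal.eq_prime_pow_mul_coprime h𝔓 q.1
    rw [← Ideal.IsDedekindDomain.ramificationIdx_eq_normalizedFactors_count p q.1 h𝔓] at hQ2
    have hepos : 0 < q.1.ramificationIdx R := Ideal.ramificationIdx_pos q.1 R
    have hne : q.1 ^ q.1.ramificationIdx R ≠ ⊤ := by
      intro h
      have hle : q.1 ^ q.1.ramificationIdx R ≤ q.1 := Ideal.pow_le_self hepos.ne'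
      rw [h, top_le_iff] at hle
      exact hqprime.ne_top hle
    have hcop : IsCoprime (q.1 ^ q.1.ramificationIdx R) Q :=
      IsCoprime.pow_left (Ideal.isCoprime_iff_sup_eq.mpr hQ1)
    have hnd := a2_not_dvd_differentIdeal_of_charZero (p := p) _ Q hne hcop hQ2.symm
    by_contra hcon
    apply hnd
    rw [pow_dvd_iff_le_emultiplicity,
      emultiplicity_eq_count_normalizedFactors ((Ideal.prime_iff_isPrime hq0).mpr hqprime).irreducible
        differentIdeal_ne_bot, normalize_eq]
    exact_mod_cast (by omega : q.1.ramificationIdx R ≤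
      Multiset.count q.1 (normalizedFactors (differentIdeal R B)))
  -- (E)
  have hE : Nat.card {χ : B →+* κ // ∀ r : R, χ (algebraMap R B r) = ev r} ≤
      Fintype.card (p.primesOver B) := a2_numPts_le (B := B) ev hev
  have hsum := Ideal.sum_ramification_inertia_eq_finrank p B
  rw [a2_finrank_eq (Kx := Kx) (L := L), hn] at hsum
  have hbound : ∀ q : p.primesOver B,
      q.1.inertiaDeg R * Multiset.count q.1 (normalizedFactors (differentIdeal R B)) + 1 ≤
        q.1.ramificationIdx R * q.1.inertiaDeg R := by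
    intro q
    have hqprime : q.1.IsPrime := q.2.1
    have hf : 0 < q.1.inertiaDeg R := Ideal.inertiaDeg_pos q.1 R
    have := hC q
    calc q.1.inertiaDeg R * Multiset.count q.1 (normalizedFactors (differentIdeal R B)) + 1
        ≤ q.1.inertiaDeg R * Multiset.count q.1 (normalizedFactors (differentIdeal R B))
            + q.1.inertiaDeg R := by omega
      _ = q.1.inertiaDeg R *
            (Multiset.count q.1 (normalizedFactors (differentIdeal R B)) + 1) := by ring
      _ ≤ q.1.inertiaDeg R * q.1.ramificationIdx R := Nat.mul_le_mul_left _ this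
      _ = q.1.ramificationIdx R * q.1.inertiaDeg R := mul_comm _ _
  have htotal : (∑ q : p.primesOver B,
      q.1.inertiaDeg R * Multiset.count q.1 (normalizedFactors (differentIdeal R B))) +
        Fintype.card (p.primesOver B) ≤ n := by
    rw [← hsum, Fintype.card, Finset.card_eq_sum_ones, ← Finset.sum_add_distrib]
    exact Finset.sum_le_sum (fun q _ => hbound q)
  omega

end main

section final

variable (R : Type) [CommRing R] [IsDomain R] [IsPrincipalIdealRing R]
variable (Kx : Type) [Field Kx] [Algebra R Kx] [IsFractionRing R Kx]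
variable (L : Type) [Field L] [Algebra Kx L] [Algebra R L] [IsScalarTower R Kx L]

/-- the Gram determinant of a `Kx`-basis of a finite separable extension is nonzero. -/
theorem a2_gramDet_ne_zero [FiniteDimensional Kx L] [Algebra.IsSeparable Kx L] {n : ℕ}
    (β : Fin n → L) (hβli : LinearIndependent Kx β) (hn : Module.finrank Kx L = n) :
    gramDet Kx L β ≠ 0 := by
  classical
  have hcard : Fintype.card (Fin n) = Module.finrank Kx L := by simp [hn]
  have hne : Nonempty (Fin n) := ⟨⟨0, by rw [← hn]; exact Module.finrank_pos⟩⟩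
  set bL : Basis (Fin n) Kx L := basisOfLinearIndependentOfCardEqFinrank hβli hcard with hbL
  have hbL_apply : ∀ i, bL i = β i := fun i => by
    rw [hbL, coe_basisOfLinearIndependentOfCardEqFinrank]
  have h := Algebra.discr_not_zero_of_basis Kx bL
  have heq : Algebra.discr Kx bL = gramDet Kx L β := by
    rw [Algebra.discr_def, gramDet]
    congr 1
    ext i j
    rw [Algebra.traceMatrix_apply, Algebra.traceForm_apply, Matrix.of_apply, hbL_apply,
      hbL_apply]
  rwa [heq] at h

/-- **(ALG-2)** the tame upper bound for the discriminant. -/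
theorem discUpperTame : DiscUpperTame R Kx L := by
  intro _ _ n β hβint hβli hn hβspan κ _ _ _ ev hev π hπ d m hd hm
  classical
  have hinj : Function.Injective (algebraMap (integralClosure R L) L) := Subtype.val_injective
  have hDed : IsDedekindDomain (integralClosure R L) := integralClosure.isDedekindDomain R Kx L
  have hFrac : IsFractionRing (integralClosure R L) L :=
    integralClosure.isFractionRing_of_finite_extension Kx L
  have hFin : Module.Finite R (integralClosure R L) :=
    IsIntegralClosure.finite R Kx L (integralClosure R L)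
  unfold numPts
  by_cases hπ0 : π = 0
  · -- the field case: `ev` is injective
    have hker : RingHom.ker ev = ⊥ := by rw [hπ, hπ0]; simp
    have hd0 : d ≠ 0 := by
      intro h
      apply a2_gramDet_ne_zero Kx L β hβli hn
      rw [← hd, h, map_zero]
    have hm0 : m = 0 := by
      by_contra hne
      apply hd0
      rw [hπ0, zero_pow hne] at hm
      exact zero_dvd_iff.mp hm
    have hnpos : 0 < n := by rw [← hn]; exact Module.finrank_pos
    have hsub : Subsingleton
        {χ : integralClosure R L →+* κ // ∀ r : R, χ (algebraMap R _ r) = ev r} := by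
      have hkerbot : ∀ χ : {χ : integralClosure R L →+* κ //
          ∀ r : R, χ (algebraMap R _ r) = ev r}, RingHom.ker χ.1 = ⊥ := by
        intro χ
        apply Ideal.eq_bot_of_comap_eq_bot (R := R)
        rw [← hker]
        ext r
        rw [Ideal.mem_comap, RingHom.mem_ker, RingHom.mem_ker, χ.2]
      refine ⟨fun χ χ' => Subtype.ext ?_⟩
      exact a2_point_ext ev hev χ.1 χ'.1 χ.2 χ'.2 ((hkerbot χ).trans (hkerbot χ').symm)
    have h1 := Finite.card_le_one_iff_subsingleton.mpr hsub
    omega
  · have hRL : Module.IsTorsionFree R L := Module.IsTorsionFree.trans Kx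
    have hRB : Module.IsTorsionFree R (integralClosure R L) :=
      Function.Injective.moduleIsTorsionFree (N := L) (algebraMap (integralClosure R L) L) hinj
        (fun _ _ => rfl)
    exact a2_main (Kx := Kx) (L := L) (B := integralClosure R L) β hβli hn hβspan ev hev π hπ
      hπ0 d m hd hm

end final

end

end Fermat.Agent.GoodRed
end MergeWrap_Lib_GoodRed_DiscTame

section MergeWrap_Lib_GoodRed_Inv -- from Lib/GoodRed/Inv.lean

/-!
# Cluster B / GoodRed: the chart at infinity

`RedModel.inv` replaces the base parameter `x` of a reduction datum by `x⁻¹`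
(a unit of the Gauss ring since its reduction is transcendental, in particular nonzero).

* `fibreCard_inv` : `fibreCard K x⁻¹ c⁻¹ = fibreCard K x c` for `c ≠ 0` (no hypothesis on `x`),
  because `B[1/x] = B'[x]` for `B = intCl K x`, `B' = intCl K x⁻¹`.
* `DegData.inv`, `BranchData.inv` : the DEGREE and BRANCH hypotheses pass to the chart at infinity.
* `FibreBound.at_infty` : the fibre bound of `M.inv` at `0` is the fibre bound at `x = ∞`.
-/

set_option autoImplicit false
set_option linter.style.haveILetI false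

namespace Fermat.Agent.GoodRed

open Polynomial IntermediateField

noncomputable section

variable {K k F Fk : Type} [Field K] [Field k] [Field F] [Field Fk] [Algebra K F] [Algebra k Fk]

namespace InvAux

theorem mem_intCl_iff {x y : F} : y ∈ intCl K x ↔ IsIntegral (Algebra.adjoin K {x}) y := Iff.rfl

theorem self_mem_intCl (x : F) : x ∈ intCl K x := by
  have h : (algebraMap (Algebra.adjoin K {x}) F) (genAdj x) ∈
      integralClosure (Algebra.adjoin K {x}) F := Subalgebra.algebraMap_mem _ _
  exact h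

theorem adjoin_le_intCl (x : F) : Algebra.adjoin K {x} ≤ intCl K x := by
  rw [Algebra.adjoin_le_iff]
  intro y hy
  rw [Set.mem_singleton_iff] at hy
  subst hy
  exact self_mem_intCl y

/-- every element of `K[x⁻¹]` becomes an element of `K[x]` after multiplication by a
large power of `x`. -/
theorem exists_pow_mul_mem_adjoin {x : F} (hx : x ≠ 0) (a : F)
    (ha : a ∈ Algebra.adjoin K {x⁻¹}) :
    ∃ m : ℕ, ∀ m' : ℕ, m ≤ m' → x ^ m' * a ∈ Algebra.adjoin K {x} := by
  have hxm : ∀ i : ℕ, x ^ i ∈ Algebra.adjoin K {x} := fun i =>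
    pow_mem (Algebra.subset_adjoin (Set.mem_singleton x)) i
  induction ha using Algebra.adjoin_induction with
  | mem y hy =>
    rw [Set.mem_singleton_iff] at hy
    subst hy
    refine ⟨1, fun m' hm' => ?_⟩
    obtain ⟨j, rfl⟩ := Nat.exists_eq_add_of_le hm'
    have : x ^ (1 + j) * x⁻¹ = x ^ j := by
      rw [pow_add, pow_one]
      field_simp
    rw [this]
    exact hxm j
  | algebraMap r =>
    exact ⟨0, fun m' _ => mul_mem (hxm m') (Subalgebra.algebraMap_mem _ r)⟩
  | add a b _ _ iha ihb =>
    obtain ⟨ma, hma⟩ := iha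
    obtain ⟨mb, hmb⟩ := ihb
    refine ⟨max ma mb, fun m' hm' => ?_⟩
    rw [mul_add]
    exact add_mem (hma m' (le_trans (le_max_left _ _) hm'))
      (hmb m' (le_trans (le_max_right _ _) hm'))
  | mul a b _ _ iha ihb =>
    obtain ⟨ma, hma⟩ := iha
    obtain ⟨mb, hmb⟩ := ihb
    refine ⟨ma + mb, fun m' hm' => ?_⟩
    obtain ⟨j, rfl⟩ := Nat.exists_eq_add_of_le hm'
    have : x ^ (ma + mb + j) * (a * b) = (x ^ (ma + j) * a) * (x ^ mb * b) := by
      ring
    rw [this]
    exact mul_mem (hma _ (Nat.le_add_right _ _)) (hmb _ le_rfl)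

/-- an element integral over `K[x⁻¹]` becomes integral over `K[x]` after multiplication by a
power of `x`. -/
theorem exists_pow_mul_mem_intCl {x : F} (hx : x ≠ 0) {y : F} (hy : y ∈ intCl K x⁻¹) :
    ∃ m : ℕ, x ^ m * y ∈ intCl K x := by
  obtain ⟨p, hpm, hp⟩ := mem_intCl_iff.mp hy
  choose m hm using fun i : ℕ =>
    exists_pow_mul_mem_adjoin (K := K) hx (p.coeff i : F) (p.coeff i).2
  set N : ℕ := (Finset.range (p.natDegree + 1)).sup m with hN
  have hmN : ∀ i, i ≤ p.natDegree → m i ≤ N := fun i hi =>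
    Finset.le_sup (f := m) (Finset.mem_range.mpr (Nat.lt_succ_of_le hi))
  refine ⟨N, ?_⟩
  rw [mem_intCl_iff]
  set pF : F[X] := p.map (algebraMap (Algebra.adjoin K {x⁻¹}) F) with hpF
  have hpFm : pF.Monic := hpm.map _
  have hdeg : pF.natDegree = p.natDegree := hpm.natDegree_map _
  set qF : F[X] := scaleRoots pF (x ^ N) with hqF
  have hqFm : qF.Monic := (monic_scaleRoots_iff _).mpr hpFm
  have hroot : eval (x ^ N * y) qF = 0 := by
    rw [hqF, scaleRoots_eval_mul]
    have : eval y pF = 0 := by
      rw [hpF, eval_map]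
      exact hp
    rw [this, mul_zero]
  have hlift : qF ∈ lifts (algebraMap (Algebra.adjoin K {x}) F) := by
    rw [lifts_iff_coeff_lifts]
    intro i
    have hmem : qF.coeff i ∈ Algebra.adjoin K {x} := by
      rw [hqF, coeff_scaleRoots, hpF, coeff_map, hdeg]
      rcases lt_or_ge i p.natDegree with hi | hi
      · rw [mul_comm, ← pow_mul]
        apply hm i
        calc m i ≤ N := hmN i hi.le
          _ = N * 1 := (mul_one N).symm
          _ ≤ N * (p.natDegree - i) := Nat.mul_le_mul_left N (Nat.sub_pos_of_lt hi)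
      · rw [Nat.sub_eq_zero_of_le hi, pow_zero, mul_one]
        rcases eq_or_lt_of_le hi with hi' | hi'
        · rw [← hi', coeff_natDegree, hpm.leadingCoeff]
          exact one_mem _
        · rw [coeff_eq_zero_of_natDegree_lt hi']
          exact zero_mem _
    exact ⟨⟨_, hmem⟩, rfl⟩
  obtain ⟨q, hq, -, hqm⟩ := lifts_and_natDegree_eq_and_monic hlift hqFm
  refine ⟨q, hqm, ?_⟩
  rw [← eval_map, hq]
  exact hroot

/-- `K`-points of a localization `C = B[1/b]` with prescribed nonzero value at `b` are the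
`K`-points of `B` with that value at `b`. -/
theorem bijective_restrict_away {B C : Type} [CommRing B] [CommRing C] [Algebra K B]
    [Algebra K C] [Algebra B C] [IsScalarTower K B C] (b : B) [IsLocalization.Away b C]
    (c : K) (hc : c ≠ 0) :
    Function.Bijective
      (fun ψ : {ψ : C →ₐ[K] K // ψ (algebraMap B C b) = c} =>
        (⟨ψ.1.comp (IsScalarTower.toAlgHom K B C), ψ.2⟩ : {χ : B →ₐ[K] K // χ b = c})) := by
  constructor
  · rintro ⟨ψ, hψ⟩ ⟨ψ', hψ'⟩ h
    apply Subtype.ext
    have h1 : ψ.comp (IsScalarTower.toAlgHom K B C) = ψ'.comp (IsScalarTower.toAlgHom K B C) :=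
      congrArg Subtype.val h
    have h2 : (ψ : C →+* K) = (ψ' : C →+* K) := by
      apply IsLocalization.ringHom_ext (Submonoid.powers b)
      ext a
      exact DFunLike.congr_fun h1 a
    exact AlgHom.coe_ringHom_injective h2
  · rintro ⟨χ, hχ⟩
    have hu : IsUnit (χ b) := by
      rw [hχ]
      exact hc.isUnit
    refine ⟨⟨IsLocalization.Away.liftAlgHom (A := K) (S := C) b (f := χ) hu, ?_⟩, ?_⟩
    · rw [IsLocalization.Away.liftAlgHom_apply, IsLocalization.Away.lift_eq]
      exact hχ
    · apply Subtype.ext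
      apply AlgHom.ext
      intro a
      show IsLocalization.Away.liftAlgHom (A := K) (S := C) b (f := χ) hu (algebraMap B C a) = χ a
      rw [IsLocalization.Away.liftAlgHom_apply, IsLocalization.Away.lift_eq]
      rfl

section Sub

variable {B C : Subalgebra K F}

/-- the algebra structure of an inclusion of subalgebras -/
@[reducible] def inclAlgebra (hBC : B ≤ C) : Algebra B C :=
  (Subalgebra.inclusion hBC).toRingHom.toAlgebra

theorem isScalarTower_incl (hBC : B ≤ C) :
    letI := inclAlgebra hBC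
    IsScalarTower K B C := by
  letI := inclAlgebra hBC
  exact IsScalarTower.of_algebraMap_eq fun r => rfl

theorem isLocalization_away_incl (hBC : B ≤ C) {x : F} (hxB : x ∈ B) (hxC : x⁻¹ ∈ C)
    (hx : x ≠ 0) (hC : ∀ y ∈ C, ∃ m : ℕ, x ^ m * y ∈ B) :
    letI := inclAlgebra hBC
    IsLocalization.Away (⟨x, hxB⟩ : B) C := by
  letI := inclAlgebra hBC
  refine (isLocalization_iff _ _).mpr ⟨?_, ?_, ?_⟩
  · rintro ⟨_, n, rfl⟩
    have h1 : (algebraMap B C) ((⟨x, hxB⟩ : B) ^ n) * (⟨x⁻¹, hxC⟩ : C) ^ n = 1 := by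
      apply Subtype.ext
      show x ^ n * x⁻¹ ^ n = 1
      rw [← mul_pow, mul_inv_cancel₀ hx, one_pow]
    exact IsUnit.of_mul_eq_one _ h1
  · intro z
    obtain ⟨m, hm⟩ := hC z z.2
    refine ⟨(⟨_, hm⟩, ⟨(⟨x, hxB⟩ : B) ^ m, m, rfl⟩), ?_⟩
    apply Subtype.ext
    show (z : F) * x ^ m = x ^ m * z
    exact mul_comm _ _
  · intro a b hab
    refine ⟨1, ?_⟩
    have h1 : (a : F) = b := congrArg (fun z : C => (z : F)) hab
    have h2 : a = b := Subtype.ext h1
    rw [h2]

/-- restriction from `C = B[1/x]` to `B` is a bijection on `K`-points with nonzero value at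
`x`. -/
theorem card_restrict (hBC : B ≤ C) {x : F} (hxB : x ∈ B) (hxC : x⁻¹ ∈ C)
    (hx : x ≠ 0) (hC : ∀ y ∈ C, ∃ m : ℕ, x ^ m * y ∈ B) (c : K) (hc : c ≠ 0) :
    Nat.card {ψ : C →ₐ[K] K // ψ ⟨x, hBC hxB⟩ = c} =
      Nat.card {χ : B →ₐ[K] K // χ ⟨x, hxB⟩ = c} := by
  letI := inclAlgebra hBC
  haveI := isScalarTower_incl (K := K) hBC
  haveI := isLocalization_away_incl hBC hxB hxC hx hC
  exact Nat.card_eq_of_bijective _
    (bijective_restrict_away (K := K) (B := B) (C := C) (⟨x, hxB⟩ : B) c hc)

/-- `B[1/x]` as a subalgebra, for `x ∈ B`. -/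
def awaySub (B : Subalgebra K F) (x : F) (hxB : x ∈ B) : Subalgebra K F where
  carrier := {y | ∃ m : ℕ, x ^ m * y ∈ B}
  mul_mem' := by
    rintro y y' ⟨m, hm⟩ ⟨m', hm'⟩
    refine ⟨m + m', ?_⟩
    have : x ^ (m + m') * (y * y') = (x ^ m * y) * (x ^ m' * y') := by ring
    rw [this]
    exact mul_mem hm hm'
  add_mem' := by
    rintro y y' ⟨m, hm⟩ ⟨m', hm'⟩
    refine ⟨m + m', ?_⟩
    have : x ^ (m + m') * (y + y') = x ^ m' * (x ^ m * y) + x ^ m * (x ^ m' * y') := by ring
    rw [this]
    exact add_mem (mul_mem (pow_mem hxB _) hm) (mul_mem (pow_mem hxB _) hm')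
  algebraMap_mem' := by
    intro r
    refine ⟨0, ?_⟩
    rw [pow_zero, one_mul]
    exact B.algebraMap_mem r

theorem mem_awaySub {x : F} {hxB : x ∈ B} {y : F} :
    y ∈ awaySub B x hxB ↔ ∃ m : ℕ, x ^ m * y ∈ B := Iff.rfl

theorem le_awaySub {x : F} (hxB : x ∈ B) : B ≤ awaySub B x hxB := by
  intro y hy
  refine ⟨0, ?_⟩
  rw [pow_zero, one_mul]
  exact hy

end Sub

theorem sup_le_awaySub {x : F} (hx : x ≠ 0) :
    intCl K x ⊔ intCl K x⁻¹ ≤ awaySub (intCl K x) x (self_mem_intCl x) :=
  sup_le (le_awaySub _) fun _ hy => exists_pow_mul_mem_intCl hx hy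

theorem sup_le_awaySub_inv {x : F} (hx : x ≠ 0) :
    intCl K x ⊔ intCl K x⁻¹ ≤ awaySub (intCl K x⁻¹) x⁻¹ (self_mem_intCl x⁻¹) := by
  refine sup_le (fun y hy => ?_) (le_awaySub _)
  have hy' : y ∈ intCl K (x⁻¹)⁻¹ := by rwa [inv_inv]
  exact exists_pow_mul_mem_intCl (inv_ne_zero hx) hy'

end InvAux

/-- **The chart at infinity**: for `c ≠ 0` the fibre of `x⁻¹` over `c⁻¹` is the fibre of `x`
over `c`. -/
theorem fibreCard_inv (x : F) (c : K) (hc : c ≠ 0) :
    fibreCard K x⁻¹ c⁻¹ = fibreCard K x c := by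
  have key : ∀ (t : F) (a : K), fibreCard K t a =
      Nat.card {χ : intCl K t →ₐ[K] K // χ ⟨t, InvAux.self_mem_intCl t⟩ = a} := by
    intro t a
    unfold fibreCard
    exact Nat.card_congr (Equiv.subtypeEquivRight fun χ => ⟨fun h => h _, fun h _ => h⟩)
  rcases eq_or_ne x 0 with hx | hx
  · subst hx
    rw [inv_zero, key, key]
    have h0 : ∀ a : K, a ≠ 0 →
        IsEmpty {χ : intCl K (0 : F) →ₐ[K] K // χ ⟨0, InvAux.self_mem_intCl 0⟩ = a} := by
      intro a ha
      refine ⟨fun χ => ha ?_⟩
      rw [← χ.2]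
      exact map_zero χ.1
    haveI := h0 c hc
    haveI := h0 c⁻¹ (inv_ne_zero hc)
    rw [Nat.card_of_isEmpty, Nat.card_of_isEmpty]
  rw [key, key]
  set B := intCl K x with hB
  set B' := intCl K x⁻¹ with hB'
  have hxB : x ∈ B := InvAux.self_mem_intCl x
  have hxB' : x⁻¹ ∈ B' := InvAux.self_mem_intCl x⁻¹
  have h1 := InvAux.card_restrict (K := K) (B := B) (C := B ⊔ B') le_sup_left hxB
    (le_sup_right (a := B) hxB') hx (fun y hy => InvAux.sup_le_awaySub hx hy) c hc
  have hxB'' : (x⁻¹)⁻¹ ∈ B ⊔ B' := by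
    rw [inv_inv]
    exact le_sup_left (b := B') hxB
  have h2 := InvAux.card_restrict (K := K) (B := B') (C := B ⊔ B') le_sup_right hxB'
    hxB'' (inv_ne_zero hx) (fun y hy => InvAux.sup_le_awaySub_inv hx hy) c⁻¹ (inv_ne_zero hc)
  rw [← h1, ← h2]
  refine Nat.card_congr (Equiv.subtypeEquivRight fun ψ => ?_)
  have hmul : ψ ⟨x⁻¹, le_sup_right (a := B) hxB'⟩ * ψ ⟨x, le_sup_left (b := B') hxB⟩ = 1 := by
    rw [← map_mul]
    have : (⟨x⁻¹, le_sup_right (a := B) hxB'⟩ : (B ⊔ B' : Subalgebra K F)) *
        ⟨x, le_sup_left (b := B') hxB⟩ = 1 := by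
      apply Subtype.ext
      show x⁻¹ * x = 1
      exact inv_mul_cancel₀ hx
    rw [this, map_one]
  constructor
  · intro h
    rw [h] at hmul
    rw [eq_inv_of_mul_eq_one_right hmul, inv_inv]
  · intro h
    rw [h] at hmul
    exact eq_inv_of_mul_eq_one_left hmul

/-! ### the reduction datum in the chart at infinity -/

namespace InvAux

theorem adjoin_inv_eq' (K : Type) {F : Type} [Field K] [Field F] [Algebra K F] (x : F) :
    K⟮x⁻¹⟯ = K⟮x⟯ := by
  apply le_antisymm
  · rw [adjoin_simple_le_iff]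
    exact inv_mem (mem_adjoin_simple_self K x)
  · rw [adjoin_simple_le_iff]
    have h : (x⁻¹)⁻¹ ∈ K⟮x⁻¹⟯ := inv_mem (mem_adjoin_simple_self K x⁻¹)
    rwa [inv_inv] at h

theorem transcendental_inv' {K F : Type} [Field K] [Field F] [Algebra K F] {x : F}
    (hx : Transcendental K x) : Transcendental K x⁻¹ := by
  intro h
  exact hx (by simpa using h.inv)

theorem finrank_congr_of_eq {K F : Type} [Field K] [Field F] [Algebra K F]
    {E₁ E₂ : IntermediateField K F} (h : E₁ = E₂) :
    Module.finrank E₁ F = Module.finrank E₂ F := by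
  subst h
  rfl

theorem isSeparable_congr_of_eq {K F : Type} [Field K] [Field F] [Algebra K F]
    {E₁ E₂ : IntermediateField K F} (h : E₁ = E₂) (hs : Algebra.IsSeparable E₂ F) :
    Algebra.IsSeparable E₁ F := by
  subst h
  exact hs

end InvAux

namespace InvAux

variable (M : RedModel K k F Fk)

theorem xbar_ne_zero : M.xbar ≠ 0 := by
  intro h
  apply M.x_trans
  have h' : M.rho ⟨M.x, M.x_mem⟩ = 0 := h
  rw [h']
  exact isAlgebraic_zero

theorem x_ne_zero : M.x ≠ 0 := by
  intro h
  apply xbar_ne_zero M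
  have h0 : (⟨M.x, M.x_mem⟩ : M.O) = 0 := Subtype.ext h
  show M.rho ⟨M.x, M.x_mem⟩ = 0
  rw [h0, map_zero]

theorem isUnit_x : IsUnit (⟨M.x, M.x_mem⟩ : M.O) := by
  by_contra h
  exact xbar_ne_zero M ((M.rho_eq_zero _).mpr h)

theorem inv_x_mem : M.x⁻¹ ∈ M.O := by
  obtain ⟨u, hu⟩ := isUnit_x M
  have h1 : ((u : M.O) : F) * ((u⁻¹ : (M.O)ˣ) : M.O) = 1 := by
    have : (u : M.O) * ((u⁻¹ : (M.O)ˣ) : M.O) = 1 := u.mul_inv
    exact congrArg (fun z : M.O => (z : F)) this
  rw [hu] at h1
  have h2 : M.x⁻¹ = (((u⁻¹ : (M.O)ˣ) : M.O) : F) := by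
    have h3 : M.x * (((u⁻¹ : (M.O)ˣ) : M.O) : F) = 1 := h1
    exact (eq_inv_of_mul_eq_one_right h3).symm
  rw [h2]
  exact SetLike.coe_mem _

theorem rho_inv_x : M.rho ⟨M.x⁻¹, inv_x_mem M⟩ = M.xbar⁻¹ := by
  have h1 : (⟨M.x, M.x_mem⟩ : M.O) * ⟨M.x⁻¹, inv_x_mem M⟩ = 1 := by
    apply Subtype.ext
    show M.x * M.x⁻¹ = 1
    exact mul_inv_cancel₀ (x_ne_zero M)
  have h2 : M.xbar * M.rho ⟨M.x⁻¹, inv_x_mem M⟩ = 1 := by
    show M.rho ⟨M.x, M.x_mem⟩ * M.rho ⟨M.x⁻¹, inv_x_mem M⟩ = 1
    rw [← map_mul, h1, map_one]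
  exact eq_inv_of_mul_eq_one_right h2

end InvAux

namespace RedModel

variable (M : RedModel K k F Fk)

/-- **The chart at infinity**: same `A`, `O`, `ρ`; base parameter `x⁻¹`. -/
def inv : RedModel K k F Fk where
  A := M.A
  res := M.res
  res_surj := M.res_surj
  res_eq_zero := M.res_eq_zero
  O := M.O
  rho := M.rho
  rho_surj := M.rho_surj
  rho_eq_zero := M.rho_eq_zero
  map_mem := M.map_mem
  rho_map := M.rho_map
  val := M.val
  x := M.x⁻¹
  x_mem := InvAux.inv_x_mem M
  x_trans := by
    rw [InvAux.rho_inv_x M]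
    exact InvAux.transcendental_inv' M.x_trans

@[simp] theorem inv_A : M.inv.A = M.A := rfl
@[simp] theorem inv_res : M.inv.res = M.res := rfl
@[simp] theorem inv_O : M.inv.O = M.O := rfl
@[simp] theorem inv_rho : M.inv.rho = M.rho := rfl
@[simp] theorem inv_x : M.inv.x = M.x⁻¹ := rfl

theorem inv_xbar : M.inv.xbar = M.xbar⁻¹ := InvAux.rho_inv_x M

theorem inv_inv_x : M.inv.inv.x = M.x := inv_inv _

end RedModel

/-- DEGREE passes to the chart at infinity: `K(x⁻¹) = K(x)`, `k(x̄⁻¹) = k(x̄)`. -/
theorem DegData.inv {M : RedModel K k F Fk} {n : ℕ} (h : DegData M n) : DegData M.inv n where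
  deg := by
    rw [← h.deg]
    exact InvAux.finrank_congr_of_eq (InvAux.adjoin_inv_eq' K M.x)
  degk := by
    rw [← h.degk]
    have hE : k⟮M.inv.xbar⟯ = k⟮M.xbar⟯ := by
      rw [M.inv_xbar]
      exact InvAux.adjoin_inv_eq' k M.xbar
    exact InvAux.finrank_congr_of_eq hE
  sepk := by
    have hE : k⟮M.inv.xbar⟯ = k⟮M.xbar⟯ := by
      rw [M.inv_xbar]
      exact InvAux.adjoin_inv_eq' k M.xbar
    exact InvAux.isSeparable_congr_of_eq hE h.sepk
  pos := h.pos

namespace InvAux

/-- the branch set in the chart at infinity: `{0} ∪ {c⁻¹ : c ∈ S}`. -/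
def invSet (S : Finset K) : Finset K :=
  letI := Classical.decEq K
  (insert 0 S).image fun c => c⁻¹

theorem mem_invSet {S : Finset K} {c : K} : c ∈ invSet S ↔ c = 0 ∨ c⁻¹ ∈ S := by
  letI := Classical.decEq K
  unfold invSet
  rw [Finset.mem_image]
  constructor
  · rintro ⟨a, ha, rfl⟩
    rcases Finset.mem_insert.mp ha with h | h
    · left
      rw [h, inv_zero]
    · right
      rwa [inv_inv]
  · rintro (h | h)
    · exact ⟨0, Finset.mem_insert_self _ _, by rw [h, inv_zero]⟩
    · exact ⟨c⁻¹, Finset.mem_insert_of_mem h, inv_inv c⟩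

end InvAux

/-- BRANCH passes to the chart at infinity, with branch set `{0} ∪ {c⁻¹ : c ∈ S, c ≠ 0}`,
provided the nonzero branch values are units of `A`. -/
def BranchData.inv {M : RedModel K k F Fk} {n : ℕ} (BD : BranchData M n)
    (hS : ∀ c ∈ BD.S, c ≠ 0 → c⁻¹ ∈ M.A) : BranchData M.inv n where
  S := InvAux.invSet BD.S
  S_mem := by
    intro c hc
    rcases InvAux.mem_invSet.mp hc with h | h
    · rw [h]
      exact zero_mem _
    · rcases eq_or_ne c 0 with h0 | h0
      · rw [h0]
        exact zero_mem _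
      · have := hS c⁻¹ h (inv_ne_zero h0)
        rwa [inv_inv] at this
  S_inj := by
    -- a nonzero element of the new branch set is a unit of `A`, so has nonzero residue
    have hunit : ∀ c ∈ InvAux.invSet BD.S, c ≠ 0 → ∀ hc : c ∈ M.A,
        ∃ hc' : c⁻¹ ∈ M.A, M.res ⟨c, hc⟩ * M.res ⟨c⁻¹, hc'⟩ = 1 := by
      intro c hc h0 hcA
      rcases InvAux.mem_invSet.mp hc with h | h
      · exact absurd h h0
      · refine ⟨BD.S_mem _ h, ?_⟩
        rw [← map_mul]
        have : (⟨c, hcA⟩ : M.A) * ⟨c⁻¹, BD.S_mem _ h⟩ = 1 := by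
          apply Subtype.ext
          show c * c⁻¹ = 1
          exact mul_inv_cancel₀ h0
        rw [this, map_one]
    have hres0 : ∀ hz : (0 : K) ∈ M.A, M.res ⟨0, hz⟩ = 0 := by
      intro hz
      have : (⟨0, hz⟩ : M.A) = 0 := rfl
      rw [this, map_zero]
    show ∀ c ∈ InvAux.invSet BD.S, ∀ c' ∈ InvAux.invSet BD.S, ∀ (hc : c ∈ M.A) (hc' : c' ∈ M.A),
      M.res ⟨c, hc⟩ = M.res ⟨c', hc'⟩ → c = c'
    intro c hc c' hc' hcA hcA' hres
    rcases eq_or_ne c 0 with h0 | h0 <;> rcases eq_or_ne c' 0 with h0' | h0'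
    · rw [h0, h0']
    · exfalso
      subst h0
      obtain ⟨hi, hm⟩ := hunit c' hc' h0' hcA'
      rw [← hres, hres0, zero_mul] at hm
      exact zero_ne_one hm
    · exfalso
      subst h0'
      obtain ⟨hi, hm⟩ := hunit c hc h0 hcA
      rw [hres, hres0, zero_mul] at hm
      exact zero_ne_one hm
    · obtain ⟨hi, hm⟩ := hunit c hc h0 hcA
      obtain ⟨hi', hm'⟩ := hunit c' hc' h0' hcA'
      have hinv : M.res ⟨c⁻¹, hi⟩ = M.res ⟨c'⁻¹, hi'⟩ := by
        rw [eq_inv_of_mul_eq_one_right hm, eq_inv_of_mul_eq_one_right hm', hres]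
      have hcS : c⁻¹ ∈ BD.S := (InvAux.mem_invSet.mp hc).resolve_left h0
      have hcS' : c'⁻¹ ∈ BD.S := (InvAux.mem_invSet.mp hc').resolve_left h0'
      have := BD.S_inj _ hcS _ hcS' hi hi' hinv
      exact inv_injective this
  unram := by
    intro c hc
    have h0 : c ≠ 0 := fun h => hc (InvAux.mem_invSet.mpr (Or.inl h))
    have hS' : c⁻¹ ∉ BD.S := fun h => hc (InvAux.mem_invSet.mpr (Or.inr h))
    have h1 := BD.unram c⁻¹ hS'
    have h2 := fibreCard_inv (K := K) M.x c⁻¹ (inv_ne_zero h0)
    rw [inv_inv] at h2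
    show fibreCard K M.x⁻¹ c = n
    rw [h2, h1]

theorem BranchData.inv_S {M : RedModel K k F Fk} {n : ℕ} (BD : BranchData M n)
    (hS : ∀ c ∈ BD.S, c ≠ 0 → c⁻¹ ∈ M.A) : (BD.inv hS).S = InvAux.invSet BD.S := rfl

theorem BranchData.zero_mem_inv_S {M : RedModel K k F Fk} {n : ℕ} (BD : BranchData M n)
    (hS : ∀ c ∈ BD.S, c ≠ 0 → c⁻¹ ∈ M.A) : (0 : K) ∈ (BD.inv hS).S :=
  InvAux.mem_invSet.mpr (Or.inl rfl)

/-- the fibre bound of the chart at infinity at `0`: the number of points of the reduced curve
over `x̄ = ∞` is at most the number of points over `x = ∞`. -/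
theorem FibreBound.at_infty {M : RedModel K k F Fk} (h : FibreBound M.inv) :
    fibreCard k M.xbar⁻¹ 0 ≤ fibreCard K M.x⁻¹ 0 := by
  have h1 := h 0 (zero_mem _)
  have h2 : M.inv.res ⟨0, zero_mem _⟩ = 0 := by
    have : (⟨0, zero_mem _⟩ : M.inv.A) = 0 := rfl
    rw [this, map_zero]
  rw [h2, M.inv_xbar] at h1
  exact h1

/-- the fibre bound at a nonzero finite value, read in the chart at infinity. -/
theorem FibreBound.inv_at {M : RedModel K k F Fk} (h : FibreBound M.inv) (c : K) (hc : c ∈ M.A)
    (hc' : c⁻¹ ∈ M.A) (h0 : c ≠ 0) :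
    fibreCard k M.xbar (M.res ⟨c, hc⟩) ≤ fibreCard K M.x c := by
  have h1 := h c⁻¹ hc'
  have hm : M.res ⟨c, hc⟩ * M.res ⟨c⁻¹, hc'⟩ = 1 := by
    rw [← map_mul]
    have : (⟨c, hc⟩ : M.A) * ⟨c⁻¹, hc'⟩ = 1 := by
      apply Subtype.ext
      show c * c⁻¹ = 1
      exact mul_inv_cancel₀ h0
    rw [this, map_one]
  have hne : M.res ⟨c, hc⟩ ≠ 0 := left_ne_zero_of_mul_eq_one hm
  have h2 : M.inv.res ⟨c⁻¹, hc'⟩ = (M.res ⟨c, hc⟩)⁻¹ := eq_inv_of_mul_eq_one_right hm
  rw [h2, M.inv_xbar, M.inv_x, fibreCard_inv _ _ hne, fibreCard_inv _ _ h0] at h1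
  exact h1

end

end Fermat.Agent.GoodRed
end MergeWrap_Lib_GoodRed_Inv

section MergeWrap_Lib_GoodRed_Final -- from Lib/GoodRed/Final.lean

/-!
# Cluster B / GoodRed: THE DISCRIMINANT CHAIN, unconditional (helper37, assembly)

* `discChainA : DiscChainA` — for algebraically closed `K` (char 0), `k`, a reduction model `M`,
  DEGREE `DegData M n` and a WEAK branch datum `BD : BranchDataA M n` imply
  (NORM) `NormalReduction M`, (FIB) `FibreBound M`, (FIB=) `FibreEq M n BD`.
* `discChain : DiscChain` — the same for (strong) branch data `BranchData M n`.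
* `fibreBound_inv`, `fibreBound_at_infty` — the chart at infinity.

Pieces: (ALG-1) `discLowerBound` helper59, (ALG-2) `discUpperTame` helper2, (T) `charpolyRed`
helper77, (L1) helper9, (L2) helper27, (L3) helper7, (L4) helper21, (P) `pointsStep` helper46,
`EvalAt` helper57, `Inv` helper19, (C) helper37.
-/

set_option autoImplicit false

namespace Fermat.Agent.GoodRed

open Polynomial IntermediateField
open scoped IntermediateField.algebraAdjoinAdjoin

noncomputable section

variable {K k F Fk : Type} [Field K] [Field k] [Field F] [Field Fk] [Algebra K F] [Algebra k Fk]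

/-- the discriminant chain for weak branch data, for a given model. -/
theorem discChainA_model [IsAlgClosed K] [CharZero K] [IsAlgClosed k]
    (M : RedModel K k F Fk) (n : ℕ) (hdeg : DegData M n) (BD : BranchDataA M n) :
    NormalReduction M ∧ FibreBound M ∧ FibreEq M n BD := by
  have hx : Transcendental K M.x := M.x_transcendental
  have : IsPrincipalIdealRing (Algebra.adjoin K {M.x}) := lb_isPrincipalIdealRing_adjoin hx
  have hT : CharpolyRed M := charpolyRed M n hdeg
  have hL : LiftStepA M n BD :=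
    liftStepA_closed M n hdeg BD (discUpperTame (Algebra.adjoin K {M.x}) K⟮M.x⟯ F)
  have hP : PointsStep M := pointsStep M n hT hdeg
  exact discChainA_of_steps M n hdeg BD hL hP

/-- **THE DISCRIMINANT CHAIN** (weak branch data, with equality of fibre cardinalities). -/
theorem discChainA : DiscChainA := by
  intro K k F Fk _ _ _ _ _ _ _ _ _ M n hdeg BD
  exact discChainA_model M n hdeg BD

/-- **THE DISCRIMINANT CHAIN**. -/
theorem discChain : DiscChain := by
  intro K k F Fk _ _ _ _ _ _ _ _ _ M n hdeg BD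
  obtain ⟨h1, h2, -⟩ := discChainA_model M n hdeg BD.toA
  exact ⟨h1, h2⟩

/-- (NORM) for a given model. -/
theorem normalReduction_of_branchData [IsAlgClosed K] [CharZero K] [IsAlgClosed k]
    (M : RedModel K k F Fk) (n : ℕ) (hdeg : DegData M n) (BD : BranchDataA M n) :
    NormalReduction M := (discChainA_model M n hdeg BD).1

/-- (FIB) for a given model. -/
theorem fibreBound_of_branchData [IsAlgClosed K] [CharZero K] [IsAlgClosed k]
    (M : RedModel K k F Fk) (n : ℕ) (hdeg : DegData M n) (BD : BranchDataA M n) :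
    FibreBound M := (discChainA_model M n hdeg BD).2.1

/-- (FIB=) for a given model. -/
theorem fibreEq_of_branchData [IsAlgClosed K] [CharZero K] [IsAlgClosed k]
    (M : RedModel K k F Fk) (n : ℕ) (hdeg : DegData M n) (BD : BranchDataA M n) :
    FibreEq M n BD := (discChainA_model M n hdeg BD).2.2

/-- (FIB) in the chart at infinity. -/
theorem fibreBound_inv [IsAlgClosed K] [CharZero K] [IsAlgClosed k]
    (M : RedModel K k F Fk) (n : ℕ) (hdeg : DegData M n) (BD : BranchData M n)
    (hS : ∀ c ∈ BD.S, c ≠ 0 → c⁻¹ ∈ M.A) : FibreBound M.inv :=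
  fibreBound_of_branchData M.inv n hdeg.inv (BD.inv hS).toA

end

end Fermat.Agent.GoodRed
end MergeWrap_Lib_GoodRed_Final
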